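/-
T-CFT module CR (cyclotomic crossing, helper3), part A: the `p`-th power residue symbol
`sym p ζ γ 𝔮 ∈ ZMod p`, defined for a commutative domain `R`, a primitive `p`-th root of unity
`ζ ∈ R` and a maximal ideal `𝔮` with finite residue field not containing `p`, `γ`:
`γ ^ ((N𝔮 - 1) / p) ≡ ζ ^ (sym p ζ γ 𝔮) mod 𝔮`.
-/
import Mathlib

set_option autoImplicit false
set_option linter.style.haveILetI false
set_option linter.unusedSectionVars false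

namespace H3CR

open Finset

variable {R : Type*} [CommRing R]

/-- The power residue symbol (as an exponent of `ζ`); junk value `0`. -/
noncomputable def sym (p : ℕ) (ζ γ : R) (𝔮 : Ideal R) : ZMod p :=
  open Classical in
  if h : ∃ k : ZMod p, γ ^ ((Nat.card (R ⧸ 𝔮) - 1) / p) - ζ ^ k.val ∈ 𝔮 then h.choose else 0

/-- Hypotheses under which the symbol `sym p ζ · 𝔮` is meaningful. -/
structure GoodPrime (p : ℕ) (ζ : R) (𝔮 : Ideal R) : Prop where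
  hp : p.Prime
  hζ : IsPrimitiveRoot ζ p
  max : 𝔮.IsMaximal
  fin : Finite (R ⧸ 𝔮)
  hpq : (p : R) ∉ 𝔮

section basic

variable [IsDomain R] {p : ℕ} {ζ : R} {𝔮 : Ideal R}

/-- `1 - ζ ^ k ∉ 𝔮` unless `p ∣ k`. -/
theorem GoodPrime.one_sub_pow_notMem (h : GoodPrime p ζ 𝔮) {k : ℕ} (hk : ¬ p ∣ k) :
    1 - ζ ^ k ∉ 𝔮 := by
  intro hmem
  have hp := h.hp
  haveI := h.max.isPrime
  obtain ⟨n, rfl⟩ : ∃ n, p = n + 1 := ⟨p - 1, by have := hp.pos; omega⟩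
  have hζk : IsPrimitiveRoot (ζ ^ k) (n + 1) :=
    h.hζ.pow_of_coprime k ((Nat.Prime.coprime_iff_not_dvd hp).mpr hk).symm
  have hprod := hζk.prod_one_sub_pow_eq_order
  have hdvd : (1 - ζ ^ k) ∣ ∏ j ∈ range n, (1 - (ζ ^ k) ^ (j + 1)) := by
    have hn : 0 ∈ range n := by
      rw [mem_range]
      have := hp.two_le
      omega
    have := Finset.dvd_prod_of_mem (fun j => 1 - (ζ ^ k) ^ (j + 1)) hn
    simpa using this
  rw [hprod] at hdvd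
  apply h.hpq
  have : ((n + 1 : ℕ) : R) = (n : R) + 1 := by push_cast; ring
  rw [this]
  exact Ideal.mem_of_dvd _ hdvd hmem

/-- `ζ ^ a ≡ ζ ^ b mod 𝔮` implies `a ≡ b mod p`. -/
theorem GoodPrime.pow_congr (h : GoodPrime p ζ 𝔮) {a b : ℕ} (hab : ζ ^ a - ζ ^ b ∈ 𝔮) :
    (a : ZMod p) = (b : ZMod p) := by
  haveI := h.max.isPrime
  wlog hle : b ≤ a generalizing a b
  · refine (this (a := b) (b := a) ?_ (by omega)).symm
    have : ζ ^ b - ζ ^ a = -(ζ ^ a - ζ ^ b) := by ring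
    rw [this]
    exact 𝔮.neg_mem hab
  by_contra hne
  have hnd : ¬ p ∣ (a - b) := by
    intro hd
    apply hne
    have : ((a - b : ℕ) : ZMod p) = 0 := (ZMod.natCast_eq_zero_iff _ _).mpr hd
    rw [Nat.cast_sub hle, sub_eq_zero] at this
    exact this
  have h1 : ζ ^ a - ζ ^ b = -(ζ ^ b * (1 - ζ ^ (a - b))) := by
    have : ζ ^ a = ζ ^ b * ζ ^ (a - b) := by rw [← pow_add]; congr 1; omega
    rw [this]; ring
  rw [h1] at hab
  have h2 := 𝔮.neg_mem hab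
  rw [neg_neg] at h2
  rcases (Ideal.IsPrime.mem_or_mem ‹_› h2) with h3 | h3
  · have hu : IsUnit (ζ ^ b) := (h.hζ.isUnit h.hp.ne_zero).pow b
    exact (Ideal.IsPrime.ne_top ‹_›) (Ideal.eq_top_of_isUnit_mem _ h3 hu)
  · exact h.one_sub_pow_notMem hnd h3

/-- `p ∣ N𝔮 - 1`. -/
theorem GoodPrime.dvd_card_sub_one (h : GoodPrime p ζ 𝔮) : p ∣ Nat.card (R ⧸ 𝔮) - 1 := by
  haveI := h.max
  haveI := h.max.isPrime
  haveI := h.fin
  letI : Field (R ⧸ 𝔮) := Ideal.Quotient.field 𝔮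
  letI : Fintype (R ⧸ 𝔮) := Fintype.ofFinite _
  have hζ0 : (Ideal.Quotient.mk 𝔮 ζ) ≠ 0 := by
    intro h0
    rw [Ideal.Quotient.eq_zero_iff_mem] at h0
    have hu : IsUnit ζ := h.hζ.isUnit h.hp.ne_zero
    exact (Ideal.IsPrime.ne_top ‹_›) (Ideal.eq_top_of_isUnit_mem _ h0 hu)
  have h1 := FiniteField.pow_card_sub_one_eq_one (Ideal.Quotient.mk 𝔮 ζ) hζ0
  rw [← Nat.card_eq_fintype_card, ← map_pow, ← map_one (Ideal.Quotient.mk 𝔮),
    Ideal.Quotient.eq] at h1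
  have h2 : ζ ^ (Nat.card (R ⧸ 𝔮) - 1) - ζ ^ 0 ∈ 𝔮 := by simpa using h1
  have h3 := h.pow_congr h2
  rw [Nat.cast_zero] at h3
  exact (ZMod.natCast_eq_zero_iff _ _).mp h3

/-- Fermat's little theorem modulo `𝔮`. -/
theorem GoodPrime.pow_card_sub_one (h : GoodPrime p ζ 𝔮) {x : R} (hx : x ∉ 𝔮) :
    x ^ (Nat.card (R ⧸ 𝔮) - 1) - 1 ∈ 𝔮 := by
  haveI := h.max
  haveI := h.max.isPrime
  haveI := h.fin
  letI : Field (R ⧸ 𝔮) := Ideal.Quotient.field 𝔮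
  letI : Fintype (R ⧸ 𝔮) := Fintype.ofFinite _
  have hx0 : (Ideal.Quotient.mk 𝔮 x) ≠ 0 := by
    intro h0
    exact hx (Ideal.Quotient.eq_zero_iff_mem.mp h0)
  have h1 := FiniteField.pow_card_sub_one_eq_one (Ideal.Quotient.mk 𝔮 x) hx0
  rw [← Nat.card_eq_fintype_card, ← map_pow, ← map_one (Ideal.Quotient.mk 𝔮),
    Ideal.Quotient.eq] at h1
  exact h1

/-- an element whose `p`-th power is `≡ 1 mod 𝔮` is `≡ ζ ^ k` for some `k < p`. -/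
theorem GoodPrime.exists_pow_of_pow_eq_one (h : GoodPrime p ζ 𝔮) {y : R}
    (hy : y ^ p - 1 ∈ 𝔮) : ∃ k < p, y - ζ ^ k ∈ 𝔮 := by
  haveI := h.max
  haveI := h.max.isPrime
  letI : Field (R ⧸ 𝔮) := Ideal.Quotient.field 𝔮
  haveI : NeZero p := ⟨h.hp.ne_zero⟩
  have hζ' : IsPrimitiveRoot (Ideal.Quotient.mk 𝔮 ζ) p := by
    refine IsPrimitiveRoot.mk_of_lt _ h.hp.pos ?_ ?_
    · rw [← map_pow, h.hζ.pow_eq_one, map_one]
    · intro l hl0 hlp hl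
      rw [← map_pow, ← map_one (Ideal.Quotient.mk 𝔮), Ideal.Quotient.eq] at hl
      have hnd : ¬ p ∣ l := fun hd => by
        have := Nat.le_of_dvd hl0 hd
        omega
      apply h.one_sub_pow_notMem hnd
      have : (1 : R) - ζ ^ l = -(ζ ^ l - 1) := by ring
      rw [this]
      exact 𝔮.neg_mem hl
  have hy' : (Ideal.Quotient.mk 𝔮 y) ^ p = 1 := by
    rw [← map_pow, ← map_one (Ideal.Quotient.mk 𝔮), Ideal.Quotient.eq]
    exact hy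
  obtain ⟨i, hi, hi'⟩ := hζ'.eq_pow_of_pow_eq_one hy'
  refine ⟨i, hi, ?_⟩
  rw [← map_pow, eq_comm, Ideal.Quotient.eq] at hi'
  exact hi'

/-- existence of the symbol -/
theorem GoodPrime.exists_sym (h : GoodPrime p ζ 𝔮) {γ : R} (hγ : γ ∉ 𝔮) :
    ∃ k : ZMod p, γ ^ ((Nat.card (R ⧸ 𝔮) - 1) / p) - ζ ^ k.val ∈ 𝔮 := by
  haveI : NeZero p := ⟨h.hp.ne_zero⟩
  have h1 : (γ ^ ((Nat.card (R ⧸ 𝔮) - 1) / p)) ^ p - 1 ∈ 𝔮 := by
    rw [← pow_mul, Nat.div_mul_cancel h.dvd_card_sub_one]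
    exact h.pow_card_sub_one hγ
  obtain ⟨k, hk, hk'⟩ := h.exists_pow_of_pow_eq_one h1
  refine ⟨(k : ZMod p), ?_⟩
  rwa [ZMod.val_natCast, Nat.mod_eq_of_lt hk]

/-- the defining congruence of the symbol -/
theorem GoodPrime.sym_spec (h : GoodPrime p ζ 𝔮) {γ : R} (hγ : γ ∉ 𝔮) :
    γ ^ ((Nat.card (R ⧸ 𝔮) - 1) / p) - ζ ^ (sym p ζ γ 𝔮).val ∈ 𝔮 := by
  have hex := h.exists_sym hγ
  unfold sym
  rw [dif_pos hex]
  exact hex.choose_spec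

/-- uniqueness of the symbol -/
theorem GoodPrime.sym_eq (h : GoodPrime p ζ 𝔮) {γ : R} (hγ : γ ∉ 𝔮) {k : ℕ}
    (hk : γ ^ ((Nat.card (R ⧸ 𝔮) - 1) / p) - ζ ^ k ∈ 𝔮) : sym p ζ γ 𝔮 = (k : ZMod p) := by
  haveI : NeZero p := ⟨h.hp.ne_zero⟩
  have h1 := h.sym_spec hγ
  have h2 : ζ ^ (sym p ζ γ 𝔮).val - ζ ^ k ∈ 𝔮 := by
    have := 𝔮.sub_mem hk h1
    simpa using this
  have h3 := h.pow_congr h2
  rwa [ZMod.natCast_val, ZMod.cast_id', id] at h3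

/-- the symbol vanishes iff `γ ^ ((N - 1)/p) ≡ 1`. -/
theorem GoodPrime.sym_eq_zero_iff (h : GoodPrime p ζ 𝔮) {γ : R} (hγ : γ ∉ 𝔮) :
    sym p ζ γ 𝔮 = 0 ↔ γ ^ ((Nat.card (R ⧸ 𝔮) - 1) / p) - 1 ∈ 𝔮 := by
  constructor
  · intro h0
    have := h.sym_spec hγ
    rwa [h0, ZMod.val_zero, pow_zero] at this
  · intro h1
    have := h.sym_eq hγ (k := 0) (by simpa using h1)
    simpa using this

/-- multiplicativity -/
theorem GoodPrime.sym_mul (h : GoodPrime p ζ 𝔮) {γ δ : R} (hγ : γ ∉ 𝔮) (hδ : δ ∉ 𝔮) :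
    sym p ζ (γ * δ) 𝔮 = sym p ζ γ 𝔮 + sym p ζ δ 𝔮 := by
  haveI := h.max.isPrime
  haveI : NeZero p := ⟨h.hp.ne_zero⟩
  have hγδ : γ * δ ∉ 𝔮 := fun hm => (Ideal.IsPrime.mem_or_mem ‹_› hm).elim hγ hδ
  have h1 := h.sym_spec hγ
  have h2 := h.sym_spec hδ
  set N := (Nat.card (R ⧸ 𝔮) - 1) / p
  have h3 : (γ * δ) ^ N - ζ ^ ((sym p ζ γ 𝔮).val + (sym p ζ δ 𝔮).val) ∈ 𝔮 := by
    have e : (γ * δ) ^ N - ζ ^ ((sym p ζ γ 𝔮).val + (sym p ζ δ 𝔮).val) =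
        (γ ^ N - ζ ^ (sym p ζ γ 𝔮).val) * δ ^ N +
          ζ ^ (sym p ζ γ 𝔮).val * (δ ^ N - ζ ^ (sym p ζ δ 𝔮).val) := by
      rw [mul_pow, pow_add]; ring
    rw [e]
    exact 𝔮.add_mem (𝔮.mul_mem_right _ h1) (𝔮.mul_mem_left _ h2)
  have := h.sym_eq hγδ h3
  rw [this]
  push_cast
  simp

theorem GoodPrime.sym_one (h : GoodPrime p ζ 𝔮) : sym p ζ 1 𝔮 = 0 := by
  haveI := h.max.isPrime
  have h1 : (1 : R) ∉ 𝔮 := fun hm => (Ideal.IsPrime.ne_top ‹_›) ((Ideal.eq_top_iff_one _).mpr hm)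
  rw [h.sym_eq_zero_iff h1]
  simp

theorem GoodPrime.sym_pow (h : GoodPrime p ζ 𝔮) {γ : R} (hγ : γ ∉ 𝔮) (n : ℕ) :
    sym p ζ (γ ^ n) 𝔮 = n * sym p ζ γ 𝔮 := by
  haveI := h.max.isPrime
  induction n with
  | zero => simpa using h.sym_one
  | succ n ih =>
    have hn : γ ^ n ∉ 𝔮 := fun hm => hγ (Ideal.IsPrime.mem_of_pow_mem ‹_› n hm)
    rw [pow_succ, h.sym_mul hn hγ, ih]
    push_cast
    ring

/-- `p`-th powers have trivial symbol -/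
theorem GoodPrime.sym_pow_p (h : GoodPrime p ζ 𝔮) {δ : R} (hδ : δ ∉ 𝔮) :
    sym p ζ (δ ^ p) 𝔮 = 0 := by
  rw [h.sym_pow hδ, ZMod.natCast_self, zero_mul]

/-- the symbol of `ζ ^ j · γ` when ... (the symbol only depends on `γ mod 𝔮`) -/
theorem GoodPrime.sym_congr (h : GoodPrime p ζ 𝔮) {γ δ : R} (hγ : γ ∉ 𝔮)
    (hγδ : γ - δ ∈ 𝔮) : sym p ζ γ 𝔮 = sym p ζ δ 𝔮 := by
  haveI : NeZero p := ⟨h.hp.ne_zero⟩
  have hδ : δ ∉ 𝔮 := by
    intro hm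
    apply hγ
    have := 𝔮.add_mem hγδ hm
    simpa using this
  have h2 := h.sym_spec hδ
  set N := (Nat.card (R ⧸ 𝔮) - 1) / p
  have h3 : γ ^ N - δ ^ N ∈ 𝔮 := Ideal.mem_of_dvd _ (sub_dvd_pow_sub_pow γ δ N) hγδ
  have h4 : γ ^ N - ζ ^ (sym p ζ δ 𝔮).val ∈ 𝔮 := by
    have := 𝔮.add_mem h3 h2
    simpa using this
  have := h.sym_eq hγ h4
  rwa [ZMod.natCast_val, ZMod.cast_id', id] at this

/-- If `γ ≡ c ^ p mod 𝔮` then the symbol vanishes. -/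
theorem GoodPrime.sym_eq_zero_of_pow (h : GoodPrime p ζ 𝔮) {γ c : R} (hγ : γ ∉ 𝔮)
    (hc : γ - c ^ p ∈ 𝔮) : sym p ζ γ 𝔮 = 0 := by
  haveI := h.max.isPrime
  have hc' : c ∉ 𝔮 := by
    intro hm
    apply hγ
    have := 𝔮.add_mem hc (𝔮.pow_mem_of_mem hm p h.hp.pos)
    simpa using this
  rw [h.sym_congr hγ hc, h.sym_pow_p hc']

/-- If the symbol vanishes then `γ ≡ c ^ p mod 𝔮` for some `c`. -/
theorem GoodPrime.exists_pow_of_sym_eq_zero (h : GoodPrime p ζ 𝔮) {γ : R} (hγ : γ ∉ 𝔮)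
    (h0 : sym p ζ γ 𝔮 = 0) : ∃ c : R, c ∉ 𝔮 ∧ γ - c ^ p ∈ 𝔮 := by
  haveI := h.max
  haveI := h.max.isPrime
  haveI := h.fin
  letI : Field (R ⧸ 𝔮) := Ideal.Quotient.field 𝔮
  letI : Fintype (R ⧸ 𝔮) := Fintype.ofFinite _
  have h1 := (h.sym_eq_zero_iff hγ).mp h0
  -- the unit group of the residue field is cyclic
  have hγ0 : (Ideal.Quotient.mk 𝔮 γ) ≠ 0 := fun h0 => hγ (Ideal.Quotient.eq_zero_iff_mem.mp h0)
  obtain ⟨g, hg⟩ := IsCyclic.exists_generator (α := (R ⧸ 𝔮)ˣ)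
  obtain ⟨n, hn⟩ : ∃ n : ℕ, g ^ n = Units.mk0 _ hγ0 := by
    have := hg (Units.mk0 _ hγ0)
    rw [Subgroup.mem_zpowers_iff] at this
    obtain ⟨k, hk⟩ := this
    refine ⟨(k % (orderOf g : ℤ)).toNat, ?_⟩
    rw [← zpow_natCast, Int.toNat_of_nonneg (Int.emod_nonneg _ (by
      have := orderOf_pos g; omega)), zpow_mod_orderOf, hk]
  have hord : orderOf g = Nat.card (R ⧸ 𝔮) - 1 := by
    rw [orderOf_eq_card_of_forall_mem_zpowers hg, Nat.card_units, Nat.card_eq_fintype_card]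
  set N := Nat.card (R ⧸ 𝔮) - 1 with hN
  have hpN : p ∣ N := h.dvd_card_sub_one
  -- γ^(N/p) = 1 means g^(n N/p) = 1, so N ∣ n N / p, so p ∣ n
  have h2 : (Units.mk0 _ hγ0) ^ (N / p) = 1 := by
    apply Units.ext
    rw [Units.val_pow_eq_pow_val, Units.val_mk0, Units.val_one, ← map_pow,
      ← map_one (Ideal.Quotient.mk 𝔮), Ideal.Quotient.eq]
    exact h1
  rw [← hn, ← pow_mul] at h2
  have h3 : N ∣ n * (N / p) := by
    have := orderOf_dvd_of_pow_eq_one h2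
    rwa [hord] at this
  have hNpos : 0 < N := by
    rcases Nat.eq_zero_or_pos N with h0 | h0
    · rw [h0] at hpN
      have : 0 < N / p ∨ True := Or.inr trivial
      -- N = 0 would mean card = 1 or 0; but ζ has order p ≥ 2 in the residue field
      exfalso
      have hcard : 1 < Nat.card (R ⧸ 𝔮) := by
        rw [Nat.card_eq_fintype_card]
        exact Fintype.one_lt_card
      omega
    · exact h0
  have h4 : p ∣ n := by
    obtain ⟨m, hm⟩ := hpN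
    have hm0 : 0 < m := by
      rcases Nat.eq_zero_or_pos m with h0 | h0
      · rw [h0, mul_zero] at hm; omega
      · exact h0
    rw [hm, Nat.mul_div_cancel_left _ h.hp.pos] at h3
    obtain ⟨t, ht⟩ := h3
    have : n = p * t := by
      have : n * m = p * t * m := by rw [ht]; ring
      exact Nat.eq_of_mul_eq_mul_right hm0 this
    exact ⟨t, this⟩
  obtain ⟨t, ht⟩ := h4
  obtain ⟨c, hc⟩ := Ideal.Quotient.mk_surjective ((g ^ t : (R ⧸ 𝔮)ˣ) : R ⧸ 𝔮)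
  refine ⟨c, ?_, ?_⟩
  · intro hm
    have : (Ideal.Quotient.mk 𝔮 c) = 0 := Ideal.Quotient.eq_zero_iff_mem.mpr hm
    rw [hc] at this
    exact (Units.ne_zero _) this
  · rw [← Ideal.Quotient.eq, map_pow, hc, ← Units.val_pow_eq_pow_val, ← pow_mul, mul_comm, ← ht,
      hn, Units.val_mk0]

end basic

end H3CR
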