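/-
T-CFT module CR (cyclotomic crossing, helper3 coordinates): INTERFACE.

Goal: `H14CFT.SecondInequality → H14CFT.NonSplitPrimeExists → H14CFT.TwoPrimeRelation p`.

Route ("Kummer language", no Artin symbols / no Galois groups of composita): `L = K(β)`, `β ^ p = α`;
Frobenius at `P` is read off from the power residue symbol `sym p ζ α P` (`Sym.lean`);
auxiliary prime `r ≡ 1 mod p` and the Jacobi-sum element `ρ` (`= g(χ)^p`, `χ` of order `p` mod `r`),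
`E = K((α^x ρ)^{1/p})`; over `E` the symbol of `α` is a class character (`ind ∘ absNorm`);
`SecondInequality` for `E(α^{1/p})/E` + norm down to `K`.  See NOTES/T-CFT-CR.md.

Every `def … : Prop` below is the exact statement of one work package; its owner proves
`theorem h<seat>_<name> … : H3CR.<Name> …`.
-/
import Mathlib
import Fermat.Agent.CFT.Defs
import Fermat.Agent.CFT.CR.Sym

set_option autoImplicit false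

namespace H3CR

open NumberField H14CFT
open scoped nonZeroDivisors

/-- **(B1) splitting criterion, hard direction.** `M = E(δ)`, `δ ^ p = γ`, `𝔮 ∤ pγ`,
`sym γ 𝔮 = 0` ⇒ `𝔮` splits completely in `M`. -/
def SplitHard (p : ℕ) : Prop :=
  ∀ (E M : Type) [Field E] [NumberField E] [Field M] [NumberField M] [Algebra E M] [IsGalois E M]
    (ζ γ : 𝓞 E) (δ : 𝓞 M) (𝔮 : Ideal (𝓞 E)),
    GoodPrime p ζ 𝔮 → γ ∉ 𝔮 → δ ^ p = algebraMap (𝓞 E) (𝓞 M) γ →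
    IntermediateField.adjoin E {(δ : M)} = ⊤ →
    sym p ζ γ 𝔮 = 0 → SplitsCompletely E M 𝔮

/-- **(B2) splitting criterion, easy direction.** -/
def SplitEasy (p : ℕ) : Prop :=
  ∀ (E M : Type) [Field E] [NumberField E] [Field M] [NumberField M] [Algebra E M] [IsGalois E M]
    (ζ γ : 𝓞 E) (δ : 𝓞 M) (𝔮 : Ideal (𝓞 E)),
    GoodPrime p ζ 𝔮 → γ ∉ 𝔮 → δ ^ p = algebraMap (𝓞 E) (𝓞 M) γ →
    SplitsCompletely E M 𝔮 → sym p ζ γ 𝔮 = 0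

/-- **(B3) Frobenius and the symbol.** If `σ` is a Frobenius at `𝔔 ∣ 𝔮` then
`σ δ = ζ ^ sym(γ, 𝔮) · δ`. -/
def FrobLink (p : ℕ) : Prop :=
  ∀ (E M : Type) [Field E] [NumberField E] [Field M] [NumberField M] [Algebra E M] [IsGalois E M]
    (ζ γ : 𝓞 E) (δ : 𝓞 M) (𝔮 : Ideal (𝓞 E)) (𝔔 : Ideal (𝓞 M)) (σ : M ≃ₐ[E] M),
    GoodPrime p ζ 𝔮 → γ ∉ 𝔮 → δ ^ p = algebraMap (𝓞 E) (𝓞 M) γ →
    𝔔.IsPrime → 𝔔.under (𝓞 E) = 𝔮 → IsArithFrobAt (𝓞 E) σ 𝔔 →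
    σ • δ = (algebraMap (𝓞 E) (𝓞 M) ζ) ^ (sym p ζ γ 𝔮).val * δ

/-- **(B4) symbols in towers.** For `γ ∈ 𝓞 E` and `𝔔 ∣ 𝔮` with `N𝔔 = N𝔮 ^ f`:
`sym_M(γ, 𝔔) = f · sym_E(γ, 𝔮)`. -/
def SymTower (p : ℕ) : Prop :=
  ∀ (E M : Type) [Field E] [NumberField E] [Field M] [NumberField M] [Algebra E M]
    (ζ γ : 𝓞 E) (𝔮 : Ideal (𝓞 E)) (𝔔 : Ideal (𝓞 M)) (f : ℕ),
    GoodPrime p ζ 𝔮 → γ ∉ 𝔮 → 𝔔.IsPrime → 𝔔.under (𝓞 E) = 𝔮 →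
    Ideal.absNorm 𝔔 = Ideal.absNorm 𝔮 ^ f →
    sym p (algebraMap (𝓞 E) (𝓞 M) ζ) (algebraMap (𝓞 E) (𝓞 M) γ) 𝔔 = f * sym p ζ γ 𝔮

/-- **(C) Kummer generator prime to `P₁ P₂`** (Lagrange resolvents mod `Q_i`). -/
def KummerGen (p : ℕ) : Prop :=
  ∀ (K L : Type) [Field K] [NumberField K] [Field L] [NumberField L] [Algebra K L] [IsGalois K L]
    (ζ : 𝓞 K), p.Prime → IsPrimitiveRoot ζ p → Module.finrank K L = p →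
    UnramifiedEverywhere K L →
    ∀ (P₁ P₂ : Ideal (𝓞 K)) (Q₁ Q₂ : Ideal (𝓞 L)) (σ₁ σ₂ : L ≃ₐ[K] L),
      P₁.IsPrime → P₂.IsPrime → P₁ ≠ ⊥ → P₂ ≠ ⊥ → (p : 𝓞 K) ∉ P₁ → (p : 𝓞 K) ∉ P₂ →
      Q₁.IsPrime → Q₂.IsPrime →
      Q₁.under (𝓞 K) = P₁ → Q₂.under (𝓞 K) = P₂ →
      IsArithFrobAt (𝓞 K) σ₁ Q₁ → IsArithFrobAt (𝓞 K) σ₂ Q₂ → σ₁ ≠ 1 → σ₂ ≠ 1 →
      ∃ (α : 𝓞 K) (β : 𝓞 L), β ^ p = algebraMap (𝓞 K) (𝓞 L) α ∧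
        IntermediateField.adjoin K {(β : L)} = ⊤ ∧ α ∉ P₁ ∧ α ∉ P₂

/-- **(D) Kummer–Chebotarev-lite** (from `NonSplitPrimeExists` applied to the tower
`E ⊂ E(γ₁^{1/p}) ⊂ E(γ₁^{1/p}, γ₂^{1/p}) ⊂ …(α^{1/p})`): if `α` is independent of `γ₁, γ₂`
modulo `p`-th powers, there is a prime of degree one with prescribed symbols `(0, 0, ≠ 0)`. -/
def KummerCheb (p : ℕ) : Prop :=
  NonSplitPrimeExists →
  ∀ (E : Type) [Field E] [NumberField E] (ζ γ₁ γ₂ α : 𝓞 E) (D : ℕ),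
    p.Prime → IsPrimitiveRoot ζ p → D ≠ 0 → γ₁ ≠ 0 → γ₂ ≠ 0 → α ≠ 0 →
    (∀ (a b : ℕ) (c : E), (α : E) ≠ (γ₁ : E) ^ a * (γ₂ : E) ^ b * c ^ p) →
    ∃ 𝔟 : Ideal (𝓞 E), 𝔟.IsPrime ∧ 𝔟 ≠ ⊥ ∧ (Ideal.absNorm 𝔟).Prime ∧ ¬ (Ideal.absNorm 𝔟 ∣ D) ∧
      (p : 𝓞 E) ∉ 𝔟 ∧ γ₁ ∉ 𝔟 ∧ γ₂ ∉ 𝔟 ∧ α ∉ 𝔟 ∧
      sym p ζ γ₁ 𝔟 = 0 ∧ sym p ζ γ₂ 𝔟 = 0 ∧ sym p ζ α 𝔟 ≠ 0

/-- **(E) the Jacobi-sum element** `ρ = g(χ)^p = r · ∏_{j=1}^{p-2} J(χ, χ^j)`, `χ` a character of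
order `p` of `(ℤ/r)ˣ` with values in `⟨ζ⟩`; `ind` is the discrete logarithm `χ(m) = ζ ^ ind m`.
`rho` is natural in the ring; `r ∣ ρ ∣ r^{p-1}`; reciprocity `sym(ρ, 𝔮) = ind(N𝔮)`
(Frobenius on the Gauss sum in a finite extension of `R ⧸ 𝔮`). -/
def JacobiElement (p r : ℕ) : Prop :=
  ∃ (ind : ℕ → ZMod p) (rho : ∀ (R : Type) [CommRing R], R → R),
    (∀ m n : ℕ, ¬ r ∣ m → ¬ r ∣ n → ind (m * n) = ind m + ind n) ∧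
    (∀ m n : ℕ, m ≡ n [MOD r] → ind m = ind n) ∧
    (∀ m : ℕ, ¬ r ∣ m → (ind m = 0 ↔ m ^ ((r - 1) / p) ≡ 1 [MOD r])) ∧
    (∀ (R S : Type) [CommRing R] [CommRing S] (φ : R →+* S) (ζ : R),
        φ (rho R ζ) = rho S (φ ζ)) ∧
    (∀ (R : Type) [CommRing R] [IsDomain R] (ζ : R), IsPrimitiveRoot ζ p → (r : R) ≠ 0 →
        (r : R) ∣ rho R ζ ∧ rho R ζ ∣ (r : R) ^ (p - 1)) ∧
    (∀ (R : Type) [CommRing R] [IsDomain R] (ζ : R) (𝔮 : Ideal R), GoodPrime p ζ 𝔮 →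
        (r : R) ∉ 𝔮 → sym p ζ (rho R ζ) 𝔮 = ind (Nat.card (R ⧸ 𝔮)))

/-- **(F) total ramification ⇒ norms are `p`-th powers mod `r`.** `K = ℚ(ζ_p)`, `E = K(δ)` of
degree `p`, `δ ^ p = γ = a · ρ` with `r ∣ ρ ∣ r^{p-1}` and `a` prime to `r`: then for `x ∈ 𝓞 E`
prime to `r`, `|N_{E/ℚ} x|` is a `p`-th power residue mod `r`. -/
def RamNorm (p : ℕ) : Prop :=
  ∀ (K E : Type) [Field K] [NumberField K] [Field E] [NumberField E] [Algebra K E]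
    [IsGalois K E] [IsCyclotomicExtension {p} ℚ K] (a ρ : 𝓞 K) (δ : 𝓞 E) (r : ℕ),
    p.Prime → p ≠ 2 → r.Prime → p ∣ r - 1 → Module.finrank K E = p →
    δ ^ p = algebraMap (𝓞 K) (𝓞 E) (a * ρ) →
    (r : 𝓞 K) ∣ ρ → ρ ∣ (r : 𝓞 K) ^ (p - 1) →
    (∀ 𝔯 : Ideal (𝓞 K), 𝔯.IsPrime → (r : 𝓞 K) ∈ 𝔯 → a ∉ 𝔯) →
    ∀ x : 𝓞 E, Nat.Coprime (Ideal.absNorm (Ideal.span {x})) r →
      (Ideal.absNorm (Ideal.span {x})) ^ ((r - 1) / p) ≡ 1 [MOD r]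

/-- **(G) the class character and the second inequality.** If `ind ∘ absNorm` kills principal
ideals prime to `r` and split primes (outside `D`), and is not identically zero, then every ideal
prime to `r` with `ind (N𝔄) = 0` lies in the subgroup generated by the split primes outside `D`. -/
def ClassChar (p : ℕ) : Prop :=
  SecondInequality →
  ∀ (E M : Type) [Field E] [NumberField E] [Field M] [NumberField M] [Algebra E M] [IsGalois E M]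
    (r D : ℕ) (ind : ℕ → ZMod p),
    p.Prime → r.Prime → D ≠ 0 → Module.finrank E M ≤ p →
    (∀ m n : ℕ, ¬ r ∣ m → ¬ r ∣ n → ind (m * n) = ind m + ind n) →
    (∀ m n : ℕ, m ≡ n [MOD r] → ind m = ind n) →
    (∀ x : 𝓞 E, Nat.Coprime (Ideal.absNorm (Ideal.span {x})) r →
      ind (Ideal.absNorm (Ideal.span {x})) = 0) →
    (∀ 𝔔 : Ideal (𝓞 E), 𝔔.IsPrime → 𝔔 ≠ ⊥ → ¬ (Ideal.absNorm 𝔔 ∣ D) →
      SplitsCompletely E M 𝔔 → Nat.Coprime (Ideal.absNorm 𝔔) r ∧ ind (Ideal.absNorm 𝔔) = 0) →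
    (∃ 𝔄₀ : Ideal (𝓞 E), 𝔄₀ ≠ ⊥ ∧ Nat.Coprime (Ideal.absNorm 𝔄₀) r ∧
      ind (Ideal.absNorm 𝔄₀) ≠ 0) →
    ∀ 𝔄 : (Ideal (𝓞 E))⁰, Nat.Coprime (Ideal.absNorm 𝔄.1) r → ind (Ideal.absNorm 𝔄.1) = 0 →
      ClassGroup.mk0 𝔄 ∈ Subgroup.closure
        {c | ∃ 𝔔 : (Ideal (𝓞 E))⁰, 𝔔.1.IsPrime ∧ ¬ (Ideal.absNorm 𝔔.1 ∣ D) ∧
          SplitsCompletely E M 𝔔.1 ∧ c = ClassGroup.mk0 𝔔}

/-- **(H) the norm on class groups.** -/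
def ClassNorm : Prop :=
  ∀ (K E : Type) [Field K] [NumberField K] [Field E] [NumberField E] [Algebra K E],
    ∃ ν : ClassGroup (𝓞 E) →* ClassGroup (𝓞 K),
      ∀ (𝔄 : (Ideal (𝓞 E))⁰) (𝔞 : (Ideal (𝓞 K))⁰), Ideal.relNorm (𝓞 K) 𝔄.1 = 𝔞.1 →
        ν (ClassGroup.mk0 𝔄) = ClassGroup.mk0 𝔞

end H3CR
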