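/-
T-CFT module CR, part B4 (helper3): the power residue symbol over rings of integers of number
fields, and its behaviour in towers.
-/
import Mathlib
import Fermat.Agent.CFT.Defs
import Fermat.Agent.CFT.CR.Sym
import Fermat.Agent.CFT.CR.Interface

set_option autoImplicit false
set_option linter.style.haveILetI false
set_option linter.unusedSectionVars false

namespace H3CR

open NumberField

section general

variable {R S : Type*} [CommRing R] [CommRing S] [IsDomain R] [IsDomain S]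

/-- the symbol in a tower, general form -/
theorem sym_tower_general {p : ℕ} (φ : R →+* S) {ζ γ : R} {𝔮 : Ideal R} {𝔔 : Ideal S}
    (h : GoodPrime p ζ 𝔮) (h' : GoodPrime p (φ ζ) 𝔔) (hγ : γ ∉ 𝔮) (hcomap : 𝔔.comap φ = 𝔮)
    (f : ℕ) (hcard : Nat.card (S ⧸ 𝔔) = Nat.card (R ⧸ 𝔮) ^ f) :
    sym p (φ ζ) (φ γ) 𝔔 = f * sym p ζ γ 𝔮 := by
  haveI : NeZero p := ⟨h.hp.ne_zero⟩
  have hγ' : φ γ ∉ 𝔔 := by
    intro hm
    apply hγ
    rw [← hcomap]
    exact Ideal.mem_comap.mpr hm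
  set N := Nat.card (R ⧸ 𝔮) with hN
  have hNpos : 0 < N := by
    haveI := h.fin
    exact Nat.card_pos
  obtain ⟨m, hm⟩ := h.dvd_card_sub_one
  rw [← hN] at hm
  have hN1 : N = p * m + 1 := by omega
  set T := ∑ j ∈ Finset.range f, N ^ j with hT
  have hgeom : N ^ f - 1 = (N - 1) * T := by
    have := Nat.geomSum_eq (m := N) (n := f)
    rcases Nat.lt_or_ge N 2 with h2 | h2
    · have h1 : N = 1 := by omega
      simp [h1]
    · have := Nat.geomSum_eq h2 f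
      rw [hT, this]
      have hd : (N - 1) ∣ N ^ f - 1 := by
        have := Nat.sub_dvd_pow_sub_pow N 1 f
        simpa using this
      rw [Nat.mul_div_cancel' hd]
  have hexp : (Nat.card (S ⧸ 𝔔) - 1) / p = ((N - 1) / p) * T := by
    rw [hcard, hgeom, hm, Nat.mul_div_cancel_left _ h.hp.pos, mul_assoc,
      Nat.mul_div_cancel_left _ h.hp.pos]
  have h1 := h.sym_spec hγ
  rw [← hN] at h1
  have h2 : (φ γ) ^ ((Nat.card (S ⧸ 𝔔) - 1) / p) - (φ ζ) ^ ((sym p ζ γ 𝔮).val * T) ∈ 𝔔 := by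
    rw [hexp, pow_mul, pow_mul]
    refine Ideal.mem_of_dvd _ (sub_dvd_pow_sub_pow _ _ T) ?_
    rw [← map_pow, ← map_pow, ← map_sub]
    have : γ ^ ((N - 1) / p) - ζ ^ (sym p ζ γ 𝔮).val ∈ 𝔔.comap φ := by rw [hcomap]; exact h1
    exact Ideal.mem_comap.mp this
  rw [h'.sym_eq hγ' h2]
  push_cast
  have hTp : (T : ZMod p) = f := by
    rw [hT]
    push_cast
    have : (N : ZMod p) = 1 := by
      rw [hN1]; push_cast; simp
    rw [this]
    simp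
  rw [hTp, ZMod.natCast_val, ZMod.cast_id', id, mul_comm]

end general

section numberField

variable {E : Type} [Field E] [NumberField E]

theorem card_quot_eq_absNorm (𝔮 : Ideal (𝓞 E)) : Nat.card (𝓞 E ⧸ 𝔮) = Ideal.absNorm 𝔮 := by
  rw [Ideal.absNorm_apply, Submodule.cardQuot_apply]

/-- a nonzero prime of `𝓞 E` not containing `p` is a good prime -/
theorem goodPrime_of_prime {p : ℕ} (hp : p.Prime) {ζ : 𝓞 E} (hζ : IsPrimitiveRoot ζ p)
    {𝔮 : Ideal (𝓞 E)} (h𝔮 : 𝔮.IsPrime) (h0 : 𝔮 ≠ ⊥) (hpq : (p : 𝓞 E) ∉ 𝔮) :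
    GoodPrime p ζ 𝔮 where
  hp := hp
  hζ := hζ
  max := h𝔮.isMaximal h0
  fin := by
    haveI := Ideal.finiteQuotientOfFreeOfNeBot 𝔮 h0
    infer_instance
  hpq := hpq

variable {M : Type} [Field M] [NumberField M] [Algebra E M]

theorem under_ne_bot_imp {𝔮 : Ideal (𝓞 E)} {𝔔 : Ideal (𝓞 M)} (hu : 𝔔.under (𝓞 E) = 𝔮)
    (h0 : 𝔮 ≠ ⊥) : 𝔔 ≠ ⊥ := by
  rintro rfl
  apply h0
  rw [← hu]
  exact Ideal.under_bot _ _

/-- a prime over a good prime is good -/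
theorem goodPrime_over {p : ℕ} {ζ : 𝓞 E} {𝔮 : Ideal (𝓞 E)} (h : GoodPrime p ζ 𝔮)
    {𝔔 : Ideal (𝓞 M)} (h𝔔 : 𝔔.IsPrime) (hu : 𝔔.under (𝓞 E) = 𝔮) (h0 : 𝔮 ≠ ⊥) :
    GoodPrime p (algebraMap (𝓞 E) (𝓞 M) ζ) 𝔔 := by
  refine goodPrime_of_prime h.hp ?_ h𝔔 (under_ne_bot_imp hu h0) ?_
  · exact h.hζ.map_of_injective (FaithfulSMul.algebraMap_injective (𝓞 E) (𝓞 M))
  · intro hm
    apply h.hpq
    rw [← hu, Ideal.under_def, Ideal.mem_comap]
    simpa using hm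

theorem goodPrime_ne_bot {p : ℕ} {ζ : 𝓞 E} {𝔮 : Ideal (𝓞 E)} (h : GoodPrime p ζ 𝔮) : 𝔮 ≠ ⊥ := by
  rintro rfl
  apply h.hpq
  -- `𝓞 E ⧸ ⊥` is infinite
  haveI := h.fin
  exfalso
  have : Infinite (𝓞 E ⧸ (⊥ : Ideal (𝓞 E))) :=
    Infinite.of_injective (Ideal.Quotient.mk (⊥ : Ideal (𝓞 E)))
      ((RingHom.injective_iff_ker_eq_bot _).mpr (by simp))
  exact not_finite (𝓞 E ⧸ (⊥ : Ideal (𝓞 E)))

/-- **(B4)** symbols in towers. -/
theorem h3cr_symTower (p : ℕ) : SymTower p := by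
  intro E M _ _ _ _ _ ζ γ 𝔮 𝔔 f h hγ h𝔔 hu hN
  have h0 := goodPrime_ne_bot h
  have h' := goodPrime_over (M := M) h h𝔔 hu h0
  refine sym_tower_general (algebraMap (𝓞 E) (𝓞 M)) h h' hγ ?_ f ?_
  · rw [← hu, Ideal.under_def]
  · rw [card_quot_eq_absNorm, card_quot_eq_absNorm, hN]

end numberField

end H3CR
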