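/-
T-CFT module CR (helper3): basic lemmas for the assembly.
-/
import Mathlib
import Fermat.Agent.CFT.Defs
import Fermat.Agent.CFT.CR.Sym
import Fermat.Agent.CFT.CR.SymNF
import Fermat.Agent.CFT.AN.H25SPNorm

set_option autoImplicit false
set_option linter.style.haveILetI false
set_option linter.unusedSectionVars false

namespace H3CR

open NumberField H14CFT
open scoped nonZeroDivisors

section ideals

variable {E : Type} [Field E] [NumberField E]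

/-- two distinct rational primes cannot lie in the same proper ideal -/
theorem h3a_natCast_notMem {R : Type*} [CommRing R] {I : Ideal R} (hI : I ≠ ⊤) {m n : ℕ}
    (hmn : Nat.Coprime m n) (hm : (m : R) ∈ I) : (n : R) ∉ I := by
  intro hn
  apply hI
  rw [Ideal.eq_top_iff_one]
  have h1 : ((m : ℤ) * Nat.gcdA m n + (n : ℤ) * Nat.gcdB m n : ℤ) = 1 := by
    have := Nat.gcd_eq_gcd_ab m n
    rw [hmn] at this
    exact_mod_cast this.symm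
  have h2 : ((1 : ℤ) : R) = (m : R) * ((Nat.gcdA m n : ℤ) : R) + (n : R) * ((Nat.gcdB m n : ℤ) : R) := by
    rw [← h1]; push_cast; ring
  have h3 : (1 : R) = (m : R) * ((Nat.gcdA m n : ℤ) : R) + (n : R) * ((Nat.gcdB m n : ℤ) : R) := by
    rw [← h2]; simp
  rw [h3]
  exact I.add_mem (I.mul_mem_right _ hm) (I.mul_mem_right _ hn)

/-- if `n ∈ 𝔔` then `N𝔔 ∣ n ^ [E:ℚ]` -/
theorem h3a_absNorm_dvd_pow {𝔔 : Ideal (𝓞 E)} {n : ℕ} (h : (n : 𝓞 E) ∈ 𝔔) :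
    Ideal.absNorm 𝔔 ∣ n ^ Module.finrank ℤ (𝓞 E) := by
  rw [← Ideal.absNorm_span_natCast]
  exact Ideal.absNorm_dvd_absNorm_of_le ((Ideal.span_singleton_le_iff_mem _).mpr h)

/-- a rational prime dividing the norm of a nonzero prime ideal lies in it -/
theorem h3a_natCast_mem_of_dvd_absNorm {𝔔 : Ideal (𝓞 E)} (h𝔔 : 𝔔.IsPrime) (h0 : 𝔔 ≠ ⊥) {r : ℕ}
    (hr : r.Prime) (h : r ∣ Ideal.absNorm 𝔔) : (r : 𝓞 E) ∈ 𝔔 := by
  haveI := h𝔔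
  haveI : Finite (𝓞 E ⧸ 𝔔) := Ideal.finiteQuotientOfFreeOfNeBot 𝔔 h0
  haveI : Fact r.Prime := ⟨hr⟩
  have hcard : r ∣ Nat.card (𝓞 E ⧸ 𝔔) := by rwa [card_quot_eq_absNorm]
  obtain ⟨x, hx⟩ := exists_prime_addOrderOf_dvd_card' (G := 𝓞 E ⧸ 𝔔) r hcard
  have hx0 : x ≠ 0 := by
    rintro rfl
    rw [addOrderOf_zero] at hx
    exact hr.one_lt.ne hx
  have h1 : r • x = 0 := by
    rw [← hx]; exact addOrderOf_nsmul_eq_zero x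
  obtain ⟨y, rfl⟩ := Ideal.Quotient.mk_surjective x
  have h2 : (r : 𝓞 E) * y ∈ 𝔔 := by
    rw [← Ideal.Quotient.eq_zero_iff_mem, map_mul, map_natCast, ← nsmul_eq_mul]
    exact h1
  rcases h𝔔.mem_or_mem h2 with h3 | h3
  · exact h3
  · exact absurd (Ideal.Quotient.eq_zero_iff_mem.mpr h3) hx0

/-- coprimality of the norm of a prime with a rational prime outside it -/
theorem h3a_coprime_absNorm {𝔔 : Ideal (𝓞 E)} (h𝔔 : 𝔔.IsPrime) (h0 : 𝔔 ≠ ⊥) {r : ℕ}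
    (hr : r.Prime) (h : (r : 𝓞 E) ∉ 𝔔) : Nat.Coprime (Ideal.absNorm 𝔔) r := by
  rw [Nat.coprime_comm, Nat.Prime.coprime_iff_not_dvd hr]
  exact fun hd => h (h3a_natCast_mem_of_dvd_absNorm h𝔔 h0 hr hd)

/-- an element of a prime ideal has norm in the ideal -/
theorem h3a_norm_mem_of_mem {K : Type} [Field K] [NumberField K] [Algebra K E]
    {α : 𝓞 K} {𝔔 : Ideal (𝓞 E)} (h : algebraMap (𝓞 K) (𝓞 E) α ∈ 𝔔) :
    ((Ideal.absNorm (Ideal.span {α}) : ℕ) : 𝓞 E) ∈ 𝔔 := by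
  have h1 : ((Ideal.absNorm (Ideal.span {α}) : ℕ) : 𝓞 K) ∈ Ideal.span {α} := Ideal.absNorm_mem _
  obtain ⟨c, hc⟩ := Ideal.mem_span_singleton'.mp h1
  have h2 : ((Ideal.absNorm (Ideal.span {α}) : ℕ) : 𝓞 E) =
      algebraMap (𝓞 K) (𝓞 E) c * algebraMap (𝓞 K) (𝓞 E) α := by
    rw [← map_mul, hc, map_natCast]
  rw [h2]
  exact 𝔔.mul_mem_left _ h

variable {K : Type} [Field K] [NumberField K] [Algebra K E]

/-- **(J2)** over a completely split prime there is a prime of degree one. -/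
theorem h3a_exists_prime_over_split {P : Ideal (𝓞 K)} (hP : P.IsPrime) (hP0 : P ≠ ⊥)
    (hs : SplitsCompletely K E P) :
    ∃ 𝔓 : Ideal (𝓞 E), 𝔓.IsPrime ∧ 𝔓 ≠ ⊥ ∧ 𝔓.under (𝓞 K) = P ∧
      Ideal.absNorm 𝔓 = Ideal.absNorm P ∧ Ideal.relNorm (𝓞 K) 𝔓 = P := by
  haveI := hP
  obtain ⟨⟨𝔓, h𝔓, hlies⟩⟩ : Nonempty (P.primesOver (𝓞 E)) := inferInstance
  haveI := h𝔓
  haveI := hlies
  have hu : 𝔓.under (𝓞 K) = P := hlies.over.symm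
  have h𝔓0 : 𝔓 ≠ ⊥ := under_ne_bot_imp hu hP0
  refine ⟨𝔓, h𝔓, h𝔓0, hu, H25SP.h25sp_splitNorm K E P 𝔓 hP hP0 h𝔓 hu hs, ?_⟩
  have h1 := H25SP.h25sp_ef_eq_one K E P 𝔓 hs
  have hf : 𝔓.inertiaDeg (𝓞 K) = 1 := Nat.eq_one_of_mul_eq_one_left h1
  haveI hPm : P.IsMaximal := hP.isMaximal hP0
  haveI h𝔓m : 𝔓.IsMaximal := h𝔓.isMaximal h𝔓0
  rw [Ideal.relNorm_eq_pow_of_isMaximal 𝔓 P, hf, pow_one]

/-- norm of a prime: `N𝔔 = N𝔮 ^ f`, `relNorm 𝔔 = 𝔮 ^ f`. -/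
theorem h3a_exists_inertia {𝔔 : Ideal (𝓞 E)} (h𝔔 : 𝔔.IsPrime) (h0 : 𝔔 ≠ ⊥) :
    ∃ f : ℕ, Ideal.absNorm 𝔔 = Ideal.absNorm (𝔔.under (𝓞 K)) ^ f ∧
      Ideal.relNorm (𝓞 K) 𝔔 = (𝔔.under (𝓞 K)) ^ f := by
  haveI := h𝔔
  set P := 𝔔.under (𝓞 K) with hP
  haveI hPp : P.IsPrime := inferInstance
  haveI hlies : 𝔔.LiesOver P := ⟨rfl⟩
  have hP0 : P ≠ ⊥ := Ideal.under_ne_bot (𝓞 K) h0
  haveI hPm : P.IsMaximal := hPp.isMaximal hP0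
  haveI h𝔔m : 𝔔.IsMaximal := h𝔔.isMaximal h0
  exact ⟨𝔔.inertiaDeg (𝓞 K), H25SP.h25sp_absNorm_eq_pow K E P 𝔔 hP0,
    Ideal.relNorm_eq_pow_of_isMaximal 𝔔 P⟩

end ideals

section zeta

/-- a primitive `p`-th root of unity in the ring of integers of `ℚ(ζ_p)` -/
theorem h3a_exists_zeta (p : ℕ) (hp : p.Prime) (K : Type) [Field K] [NumberField K]
    [IsCyclotomicExtension {p} ℚ K] : ∃ ζ : 𝓞 K, IsPrimitiveRoot ζ p := by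
  haveI : NeZero p := ⟨hp.ne_zero⟩
  have h := IsCyclotomicExtension.zeta_spec p ℚ K
  exact ⟨h.toInteger, h.toInteger_isPrimitiveRoot⟩

end zeta

section ind

variable {p r : ℕ} (ind : ℕ → ZMod p)
  (hmul : ∀ m n : ℕ, ¬ r ∣ m → ¬ r ∣ n → ind (m * n) = ind m + ind n)

include hmul in
theorem h3a_ind_one (hr : r.Prime) : ind 1 = 0 := by
  have h1 : ¬ r ∣ 1 := fun h => hr.one_lt.ne' (Nat.dvd_one.mp h)
  have := hmul 1 1 h1 h1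
  rw [mul_one] at this
  have h2 : ind 1 + 0 = ind 1 + ind 1 := by rw [add_zero]; exact this
  exact (add_left_cancel h2).symm

include hmul in
theorem h3a_ind_pow (hr : r.Prime) {m : ℕ} (hm : ¬ r ∣ m) (k : ℕ) :
    ind (m ^ k) = k * ind m := by
  induction k with
  | zero => simpa using h3a_ind_one ind hmul hr
  | succ k ih =>
    have hk : ¬ r ∣ m ^ k := fun h => hm (hr.dvd_of_dvd_pow h)
    rw [pow_succ, hmul _ _ hk hm, ih]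
    push_cast
    ring

end ind

section group

/-- in a commutative group, if `𝒩` contains all `p`-th powers, `g ^ A ∈ 𝒩` and `p ∤ A`,
then `g ∈ 𝒩`. -/
theorem h3a_mem_of_pow_mem {G : Type*} [CommGroup G] (𝒩 : Subgroup G) {p : ℕ} (hp : p.Prime)
    (hpow : ∀ d : G, d ^ p ∈ 𝒩) {g : G} {A : ℕ} (hA : ¬ p ∣ A) (hg : g ^ A ∈ 𝒩) : g ∈ 𝒩 := by
  have hcop : Nat.Coprime A p := (Nat.Coprime.symm ((Nat.Prime.coprime_iff_not_dvd hp).mpr hA))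
  have h1 : ((A : ℤ) * Nat.gcdA A p + (p : ℤ) * Nat.gcdB A p : ℤ) = 1 := by
    have := Nat.gcd_eq_gcd_ab A p
    rw [hcop] at this
    exact_mod_cast this.symm
  have h2 : g = (g ^ A) ^ (Nat.gcdA A p) * (g ^ p) ^ (Nat.gcdB A p) := by
    rw [← zpow_natCast g A, ← zpow_natCast g p, ← zpow_mul, ← zpow_mul, ← zpow_add, h1, zpow_one]
  rw [h2]
  exact 𝒩.mul_mem (𝒩.zpow_mem hg _) (𝒩.zpow_mem (hpow g) _)

/-- the combination step -/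
theorem h3a_combine {G : Type*} [CommGroup G] (𝒩 : Subgroup G) {p : ℕ} (hp : p.Prime)
    (hpow : ∀ d : G, d ^ p ∈ 𝒩) {x₁ x₂ b : G} {A B₁ B₂ a : ℕ} (hA : ¬ p ∣ A)
    (h₁ : x₁ ^ A * b ^ B₁ ∈ 𝒩) (h₂ : x₂ ^ A * b ^ B₂ ∈ 𝒩)
    (hB : (B₁ : ZMod p) = (a : ZMod p) * (B₂ : ZMod p)) :
    x₁ * (x₂ ^ a)⁻¹ ∈ 𝒩 := by
  apply h3a_mem_of_pow_mem 𝒩 hp hpow hA
  -- `a * B₂ - B₁ = p * k`
  have hdvd : (p : ℤ) ∣ (a * B₂ : ℕ) - (B₁ : ℕ) := by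
    rw [← ZMod.intCast_zmod_eq_zero_iff_dvd]
    push_cast
    rw [hB]; ring
  obtain ⟨k, hk⟩ := hdvd
  have h3 : (x₁ * (x₂ ^ a)⁻¹) ^ A =
      (x₁ ^ A * b ^ B₁) * ((x₂ ^ A * b ^ B₂) ^ a)⁻¹ * (b ^ p) ^ k := by
    have e1 : ((x₂ ^ A * b ^ B₂) ^ a)⁻¹ = ((x₂ ^ a)⁻¹) ^ A * (b ^ (a * B₂ : ℕ))⁻¹ := by
      rw [mul_pow, mul_inv, ← pow_mul, ← pow_mul, inv_pow, ← pow_mul, mul_comm A a,
        mul_comm B₂ a]
    have e2 : (b ^ p) ^ k = b ^ (a * B₂ : ℕ) * (b ^ B₁)⁻¹ := by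
      rw [← zpow_natCast b p, ← zpow_mul, ← hk, zpow_sub, zpow_natCast, zpow_natCast]
    rw [e1, e2, mul_pow]
    have : b ^ (a * B₂) * (b ^ (a * B₂))⁻¹ = 1 := mul_inv_cancel _
    calc x₁ ^ A * (x₂ ^ a)⁻¹ ^ A
        = x₁ ^ A * (x₂ ^ a)⁻¹ ^ A * ((b ^ B₁) * (b ^ B₁)⁻¹) *
            (b ^ (a * B₂) * (b ^ (a * B₂))⁻¹) := by
          rw [mul_inv_cancel, mul_inv_cancel, mul_one, mul_one]
      _ = x₁ ^ A * b ^ B₁ * ((x₂ ^ a)⁻¹ ^ A * (b ^ (a * B₂))⁻¹) *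
            (b ^ (a * B₂) * (b ^ B₁)⁻¹) := by
          simp only [mul_comm, mul_left_comm, mul_assoc]
  rw [h3]
  exact 𝒩.mul_mem (𝒩.mul_mem h₁ (𝒩.inv_mem (𝒩.pow_mem h₂ a))) (𝒩.zpow_mem (hpow b) k)

end group

end H3CR
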