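/-
T-CFT module CR, part B (helper3): Frobenius elements, splitting and the power residue symbol
for a Kummer extension `M = E(δ)`, `δ ^ p = γ`.
-/
import Mathlib
import Fermat.Agent.CFT.Defs
import Fermat.Agent.CFT.CR.Sym
import Fermat.Agent.CFT.CR.Interface
import Fermat.Agent.CFT.CR.SymNF

set_option autoImplicit false
set_option linter.style.haveILetI false
set_option linter.unusedSectionVars false

namespace H3CR

open NumberField H14CFT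
open scoped Pointwise

section domain

variable {S : Type*} [CommRing S] [IsDomain S]

/-- in a domain with a primitive `p`-th root of unity, `x ^ p = y ^ p` implies `x = ζ ^ j * y`. -/
theorem exists_pow_mul_of_pow_eq {p : ℕ} (hp : 0 < p) {ζ : S} (hζ : IsPrimitiveRoot ζ p)
    {x y : S} (h : x ^ p = y ^ p) : ∃ j < p, x = ζ ^ j * y := by
  have h1 := hζ.pow_sub_pow_eq_prod_sub_mul x y hp
  rw [h, sub_self, eq_comm, Finset.prod_eq_zero_iff] at h1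
  obtain ⟨η, hη, hx⟩ := h1
  haveI : NeZero p := ⟨hp.ne'⟩
  rw [Polynomial.mem_nthRootsFinset hp] at hη
  obtain ⟨j, hj, rfl⟩ := hζ.eq_pow_of_pow_eq_one hη
  exact ⟨j, hj, sub_eq_zero.mp hx⟩

/-- modulo a prime ideal: `x ^ p ≡ y ^ p` implies `x ≡ ζ ^ j * y`. -/
theorem exists_pow_mul_of_pow_sub_mem {p : ℕ} (hp : 0 < p) {ζ : S} (hζ : IsPrimitiveRoot ζ p)
    {𝔔 : Ideal S} (h𝔔 : 𝔔.IsPrime) {x y : S} (h : x ^ p - y ^ p ∈ 𝔔) :
    ∃ j < p, x - ζ ^ j * y ∈ 𝔔 := by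
  have h1 := hζ.pow_sub_pow_eq_prod_sub_mul x y hp
  rw [h1] at h
  obtain ⟨η, hη, hx⟩ := (Ideal.IsPrime.prod_mem_iff (hp := h𝔔)).mp h
  haveI : NeZero p := ⟨hp.ne'⟩
  rw [Polynomial.mem_nthRootsFinset hp] at hη
  obtain ⟨j, hj, rfl⟩ := hζ.eq_pow_of_pow_eq_one hη
  exact ⟨j, hj, hx⟩

end domain

variable {E M : Type} [Field E] [NumberField E] [Field M] [NumberField M] [Algebra E M]
  [IsGalois E M]

/-- `σ δ = ζ ^ j δ` for some `j`. -/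
theorem smul_root_eq {p : ℕ} {ζ γ : 𝓞 E} {δ : 𝓞 M} (hp : p.Prime) (hζ : IsPrimitiveRoot ζ p)
    (hδ : δ ^ p = algebraMap (𝓞 E) (𝓞 M) γ) (σ : M ≃ₐ[E] M) :
    ∃ j < p, σ • δ = (algebraMap (𝓞 E) (𝓞 M) ζ) ^ j * δ := by
  have hζ' : IsPrimitiveRoot (algebraMap (𝓞 E) (𝓞 M) ζ) p :=
    hζ.map_of_injective (FaithfulSMul.algebraMap_injective (𝓞 E) (𝓞 M))
  have h1 : (σ • δ) ^ p = δ ^ p := by
    rw [← smul_pow', hδ, smul_algebraMap]
  exact exists_pow_mul_of_pow_eq hp.pos hζ' h1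

theorem root_notMem {p : ℕ} {γ : 𝓞 E} {δ : 𝓞 M} {𝔮 : Ideal (𝓞 E)} {𝔔 : Ideal (𝓞 M)}
    (hp : p.Prime) (h𝔔 : 𝔔.IsPrime) (hu : 𝔔.under (𝓞 E) = 𝔮) (hγ : γ ∉ 𝔮)
    (hδ : δ ^ p = algebraMap (𝓞 E) (𝓞 M) γ) : δ ∉ 𝔔 := by
  intro hm
  apply hγ
  rw [← hu, Ideal.under_def, Ideal.mem_comap, ← hδ]
  exact 𝔔.pow_mem_of_mem hm p hp.pos

/-- **(B3)** Frobenius and the symbol. -/
theorem h3cr_frobLink (p : ℕ) : FrobLink p := by
  intro E M _ _ _ _ _ _ ζ γ δ 𝔮 𝔔 σ h hγ hδ h𝔔 hu hfrob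
  have hp := h.hp
  haveI : NeZero p := ⟨hp.ne_zero⟩
  have h0 := goodPrime_ne_bot h
  have h' := goodPrime_over (M := M) h h𝔔 hu h0
  obtain ⟨j, hj, hσ⟩ := smul_root_eq hp h.hζ hδ σ
  have hδ𝔔 := root_notMem hp h𝔔 hu hγ hδ
  set φ := algebraMap (𝓞 E) (𝓞 M) with hφ
  set N := Nat.card (𝓞 E ⧸ 𝔮) with hN
  -- the Frobenius congruence
  have hf : σ • δ - δ ^ N ∈ 𝔔 := by
    have := hfrob δ
    rw [hu] at this
    exact this
  obtain ⟨m, hm⟩ := h.dvd_card_sub_one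
  rw [← hN] at hm
  have hNpos : 0 < N := by
    haveI := h.fin
    exact Nat.card_pos
  have hN1 : N = p * m + 1 := by omega
  have hdiv : (N - 1) / p = m := by
    rw [hm, Nat.mul_div_cancel_left _ hp.pos]
  have hspec := h.sym_spec hγ
  rw [← hN, hdiv] at hspec
  set k := (sym p ζ γ 𝔮).val with hk
  -- δ ^ N = δ * φ γ ^ m
  have e1 : δ ^ N = δ * φ γ ^ m := by
    rw [hN1, pow_succ, pow_mul, hδ, mul_comm]
  have h2 : φ (γ ^ m - ζ ^ k) ∈ 𝔔 := by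
    have : γ ^ m - ζ ^ k ∈ 𝔔.under (𝓞 E) := by rw [hu]; exact hspec
    exact Ideal.mem_comap.mp this
  rw [map_sub, map_pow, map_pow] at h2
  have h3 : (φ ζ ^ j - φ ζ ^ k) * δ ∈ 𝔔 := by
    have e : (φ ζ ^ j - φ ζ ^ k) * δ = (σ • δ - δ ^ N) + δ * (φ γ ^ m - φ ζ ^ k) := by
      rw [hσ, e1]; ring
    rw [e]
    exact 𝔔.add_mem hf (𝔔.mul_mem_left _ h2)
  have h4 : φ ζ ^ j - φ ζ ^ k ∈ 𝔔 := (h𝔔.mem_or_mem h3).resolve_right hδ𝔔
  have h5 := h'.pow_congr h4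
  have h6 : φ ζ ^ j = φ ζ ^ k := by
    have hζ' := h'.hζ
    rw [ZMod.natCast_eq_natCast_iff] at h5
    exact pow_eq_pow_of_modEq h5 hζ'.pow_eq_one
  rw [hσ, h6]

/-- an automorphism fixing a generator is trivial -/
theorem eq_one_of_apply_eq {δ : M} (hgen : IntermediateField.adjoin E {δ} = ⊤)
    {σ : M ≃ₐ[E] M} (hσ : σ δ = δ) : σ = 1 := by
  have hint : IsIntegral E δ := Algebra.IsIntegral.isIntegral δ
  have h1 : Algebra.adjoin E {δ} = ⊤ := by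
    have := IntermediateField.adjoin_simple_toSubalgebra_of_isAlgebraic hint.isAlgebraic
    rw [hgen] at this
    rw [← this]
    rfl
  have h2 : (σ : M →ₐ[E] M) = AlgHom.id E M := by
    refine AlgHom.ext_of_adjoin_eq_top h1 ?_
    intro x hx
    rw [Set.mem_singleton_iff] at hx
    subst hx
    simpa using hσ
  ext x
  exact DFunLike.congr_fun h2 x

/-- the number of primes over `𝔮` times the order of a decomposition group is the degree -/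
theorem ncard_primesOver_mul_card_stabilizer {𝔮 : Ideal (𝓞 E)} [𝔮.IsPrime] (𝔔 : Ideal (𝓞 M))
    [𝔔.IsPrime] [𝔔.LiesOver 𝔮] :
    (𝔮.primesOver (𝓞 M)).ncard * Nat.card (MulAction.stabilizer (M ≃ₐ[E] M) 𝔔) =
      Module.finrank E M := by
  rw [← IsGalois.card_aut_eq_finrank E M,
    ← Algebra.IsInvariant.orbit_eq_primesOver (𝓞 E) (𝓞 M) (M ≃ₐ[E] M) 𝔮 𝔔]
  rw [← Nat.card_coe_set_eq, ← Nat.card_prod]
  exact Nat.card_congr (MulAction.orbitProdStabilizerEquivGroup (M ≃ₐ[E] M) 𝔔)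

/-- **(B2)** splitting criterion, easy direction. -/
theorem h3cr_splitEasy (p : ℕ) : SplitEasy p := by
  intro E M _ _ _ _ _ _ ζ γ δ 𝔮 h hγ hδ hsplit
  have hp := h.hp
  haveI : NeZero p := ⟨hp.ne_zero⟩
  haveI h𝔮 : 𝔮.IsPrime := h.max.isPrime
  have h0 := goodPrime_ne_bot h
  obtain ⟨⟨𝔔, h𝔔, hlies⟩⟩ : Nonempty (𝔮.primesOver (𝓞 M)) := inferInstance
  haveI := h𝔔
  haveI := hlies
  have hu : 𝔔.under (𝓞 E) = 𝔮 := hlies.over.symm
  have h' := goodPrime_over (M := M) h h𝔔 hu h0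
  have hcount := ncard_primesOver_mul_card_stabilizer (E := E) (M := M) (𝔮 := 𝔮) 𝔔
  unfold SplitsCompletely at hsplit
  rw [hsplit] at hcount
  have hpos : 0 < Module.finrank E M := Module.finrank_pos
  have hstab : Nat.card (MulAction.stabilizer (M ≃ₐ[E] M) 𝔔) = 1 := by
    have := Nat.eq_of_mul_eq_mul_left hpos (hcount.trans (mul_one _).symm)
    exact this
  haveI : Finite (𝓞 M ⧸ 𝔔) := h'.fin
  obtain ⟨σ, hσ⟩ := IsArithFrobAt.exists_of_isInvariant (𝓞 E) (M ≃ₐ[E] M) 𝔔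
  have hσ1 : σ = 1 := by
    have hmem := hσ.mem_stabilizer
    haveI : Subsingleton (MulAction.stabilizer (M ≃ₐ[E] M) 𝔔) :=
      (Nat.card_eq_one_iff_unique.mp hstab).1
    have := Subsingleton.elim (⟨σ, hmem⟩ : MulAction.stabilizer (M ≃ₐ[E] M) 𝔔) 1
    exact congrArg Subtype.val this
  have hlink := h3cr_frobLink p E M ζ γ δ 𝔮 𝔔 σ h hγ hδ h𝔔 hu hσ
  rw [hσ1, one_smul] at hlink
  have hδ0 : δ ≠ 0 := by
    intro h0'
    exact root_notMem hp h𝔔 hu hγ hδ (h0' ▸ 𝔔.zero_mem)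
  have h1 : (algebraMap (𝓞 E) (𝓞 M) ζ) ^ (sym p ζ γ 𝔮).val = 1 := by
    have : (1 : 𝓞 M) * δ = (algebraMap (𝓞 E) (𝓞 M) ζ) ^ (sym p ζ γ 𝔮).val * δ := by
      rw [one_mul]; exact hlink
    exact (mul_right_cancel₀ hδ0 this).symm
  have h2 : p ∣ (sym p ζ γ 𝔮).val := (h'.hζ.pow_eq_one_iff_dvd _).mp h1
  have h3 : (sym p ζ γ 𝔮).val = 0 :=
    Nat.eq_zero_of_dvd_of_lt h2 (ZMod.val_lt _)
  exact (ZMod.val_eq_zero _).mp h3

/-- **(B1)** splitting criterion, hard direction. -/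
theorem h3cr_splitHard (p : ℕ) : SplitHard p := by
  intro E M _ _ _ _ _ _ ζ γ δ 𝔮 h hγ hδ hgen hsym
  have hp := h.hp
  haveI : NeZero p := ⟨hp.ne_zero⟩
  haveI h𝔮 : 𝔮.IsPrime := h.max.isPrime
  have h0 := goodPrime_ne_bot h
  obtain ⟨⟨𝔔, h𝔔, hlies⟩⟩ : Nonempty (𝔮.primesOver (𝓞 M)) := inferInstance
  haveI := h𝔔
  haveI := hlies
  have hu : 𝔔.under (𝓞 E) = 𝔮 := hlies.over.symm
  have h' := goodPrime_over (M := M) h h𝔔 hu h0
  have hcount := ncard_primesOver_mul_card_stabilizer (E := E) (M := M) (𝔮 := 𝔮) 𝔔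
  set φ := algebraMap (𝓞 E) (𝓞 M) with hφ
  have hδ𝔔 := root_notMem hp h𝔔 hu hγ hδ
  -- γ ≡ c ^ p
  obtain ⟨c, hc, hcγ⟩ := h.exists_pow_of_sym_eq_zero hγ hsym
  have h1 : δ ^ p - (φ c) ^ p ∈ 𝔔 := by
    rw [hδ, ← map_pow, ← map_sub]
    have : γ - c ^ p ∈ 𝔔.under (𝓞 E) := by rw [hu]; exact hcγ
    exact Ideal.mem_comap.mp this
  obtain ⟨j, hj, hjm⟩ := exists_pow_mul_of_pow_sub_mem hp.pos h'.hζ h𝔔 h1
  -- the stabilizer is trivial
  have hstab : ∀ σ : M ≃ₐ[E] M, σ ∈ MulAction.stabilizer (M ≃ₐ[E] M) 𝔔 → σ = 1 := by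
    intro σ hσ
    rw [MulAction.mem_stabilizer_iff] at hσ
    obtain ⟨i, hi, hσδ⟩ := smul_root_eq hp h.hζ hδ σ
    have h2 : σ • (δ - φ ζ ^ j * φ c) ∈ 𝔔 := by
      have : σ • (δ - φ ζ ^ j * φ c) ∈ σ • 𝔔 := Ideal.smul_mem_pointwise_smul _ _ _ hjm
      rwa [hσ] at this
    have h3 : σ • (δ - φ ζ ^ j * φ c) = σ • δ - φ ζ ^ j * φ c := by
      rw [smul_sub, ← map_pow, ← map_mul, smul_algebraMap]
    rw [h3] at h2
    have h4 : σ • δ - δ ∈ 𝔔 := by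
      have := 𝔔.sub_mem h2 hjm
      simpa using this
    rw [hσδ] at h4
    have h5 : (φ ζ ^ i - φ ζ ^ 0) * δ ∈ 𝔔 := by
      have e : (φ ζ ^ i - φ ζ ^ 0) * δ = φ ζ ^ i * δ - δ := by ring
      rw [e]; exact h4
    have h6 : φ ζ ^ i - φ ζ ^ 0 ∈ 𝔔 := (h𝔔.mem_or_mem h5).resolve_right hδ𝔔
    have h7 := h'.pow_congr h6
    rw [Nat.cast_zero, ZMod.natCast_eq_zero_iff] at h7
    have hi0 : i = 0 := Nat.eq_zero_of_dvd_of_lt h7 hi
    rw [hi0, pow_zero, one_mul] at hσδ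
    apply eq_one_of_apply_eq hgen
    exact congrArg (fun x : 𝓞 M => (x : M)) hσδ
  have hcard : Nat.card (MulAction.stabilizer (M ≃ₐ[E] M) 𝔔) = 1 := by
    rw [Nat.card_eq_one_iff_unique]
    refine ⟨⟨fun a b => ?_⟩, ⟨1⟩⟩
    apply Subtype.ext
    rw [hstab a.1 a.2, hstab b.1 b.2]
  unfold SplitsCompletely
  rw [hcard, mul_one] at hcount
  exact hcount

end H3CR
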