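/-
T-CFT module CR (helper3): the local relation.
`[P]^A [𝔟]^B` is a norm class from `L` whenever `A·sym(α,P) + B·sym(α,𝔟) = 0`,
where `P` and `𝔟` split completely in the auxiliary Kummer extension `E = K((α^x ρ)^{1/p})`.
-/
import Mathlib
import Fermat.Agent.CFT.Defs
import Fermat.Agent.CFT.CR.Sym
import Fermat.Agent.CFT.CR.SymNF
import Fermat.Agent.CFT.CR.Interface
import Fermat.Agent.CFT.CR.AsmInterface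
import Fermat.Agent.CFT.CR.Split
import Fermat.Agent.CFT.CR.AsmBasic

set_option autoImplicit false
set_option linter.style.haveILetI false
set_option linter.unusedSectionVars false
set_option linter.unusedVariables false

namespace H3CR

open NumberField H14CFT
open scoped nonZeroDivisors

/-- the local relation, for abstract fields `E = K(δ)`, `M ∋ β'`. -/
theorem h3cr_local_abstract (p : ℕ)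
    (hSI : SecondInequality) (hRam : RamNorm p) (hCC : ClassChar p) (hCN : ClassNorm)
    (hNS : NormSplit p)
    (K L E M : Type) [Field K] [NumberField K] [Field L] [NumberField L] [Algebra K L]
    [IsGalois K L] [IsCyclotomicExtension {p} ℚ K]
    [Field E] [NumberField E] [Algebra K E] [IsGalois K E]
    [Field M] [NumberField M] [Algebra E M] [IsGalois E M]
    (hp : p.Prime) (hp2 : p ≠ 2)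
    (ζ α : 𝓞 K) (β : 𝓞 L) (δ : 𝓞 E) (β' : 𝓞 M)
    (hζ : IsPrimitiveRoot ζ p) (hβ : β ^ p = algebraMap (𝓞 K) (𝓞 L) α)
    (hgen : IntermediateField.adjoin K {(β : L)} = ⊤) (hα0 : α ≠ 0)
    (r : ℕ) (hr : r.Prime) (hpr : p ∣ r - 1)
    (ind : ℕ → ZMod p) (rho : ∀ (R : Type) [CommRing R], R → R)
    (hind_mul : ∀ m n : ℕ, ¬ r ∣ m → ¬ r ∣ n → ind (m * n) = ind m + ind n)
    (hind_congr : ∀ m n : ℕ, m ≡ n [MOD r] → ind m = ind n)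
    (hind_zero : ∀ m : ℕ, ¬ r ∣ m → (ind m = 0 ↔ m ^ ((r - 1) / p) ≡ 1 [MOD r]))
    (hrho_nat : ∀ (R S : Type) [CommRing R] [CommRing S] (φ : R →+* S) (ζ : R),
        φ (rho R ζ) = rho S (φ ζ))
    (hrho_dvd : ∀ (R : Type) [CommRing R] [IsDomain R] (ζ : R), IsPrimitiveRoot ζ p →
        (r : R) ≠ 0 → (r : R) ∣ rho R ζ ∧ rho R ζ ∣ (r : R) ^ (p - 1))
    (hrho_sym : ∀ (R : Type) [CommRing R] [IsDomain R] (ζ : R) (𝔮 : Ideal R), GoodPrime p ζ 𝔮 →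
        (r : R) ∉ 𝔮 → sym p ζ (rho R ζ) 𝔮 = ind (Nat.card (R ⧸ 𝔮)))
    (hαr : ∀ 𝔯 : Ideal (𝓞 K), 𝔯.IsPrime → (r : 𝓞 K) ∈ 𝔯 → α ∉ 𝔯)
    (x : ℕ)
    (hδ : δ ^ p = algebraMap (𝓞 K) (𝓞 E) (α ^ x * rho (𝓞 K) ζ))
    (hgenE : IntermediateField.adjoin K {(δ : E)} = ⊤)
    (hfinE : Module.finrank K E = p)
    (hβ' : β' ^ p = algebraMap (𝓞 E) (𝓞 M) (algebraMap (𝓞 K) (𝓞 E) α))
    (hfinM : Module.finrank E M ≤ p)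
    (P 𝔟 : (Ideal (𝓞 K))⁰) (hP : P.1.IsPrime) (h𝔟 : 𝔟.1.IsPrime)
    (hpP : (p : 𝓞 K) ∉ P.1) (hp𝔟 : (p : 𝓞 K) ∉ 𝔟.1)
    (hrP : (r : 𝓞 K) ∉ P.1) (hr𝔟 : (r : 𝓞 K) ∉ 𝔟.1)
    (hαP : α ∉ P.1) (hα𝔟 : α ∉ 𝔟.1)
    (hsP : sym p ζ (α ^ x * rho (𝓞 K) ζ) P.1 = 0)
    (hs𝔟 : sym p ζ (α ^ x * rho (𝓞 K) ζ) 𝔟.1 = 0)
    (hindP : ind (Ideal.absNorm P.1) ≠ 0)
    (A B : ℕ) (hAB : (A : ZMod p) * sym p ζ α P.1 + (B : ZMod p) * sym p ζ α 𝔟.1 = 0) :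
    ClassGroup.mk0 P ^ A * ClassGroup.mk0 𝔟 ^ B ∈ normClasses K L p := by
  classical
  haveI : NeZero p := ⟨hp.ne_zero⟩
  set ρ : 𝓞 K := rho (𝓞 K) ζ with hρ
  set γ : 𝓞 K := α ^ x * ρ with hγ
  set φ := algebraMap (𝓞 K) (𝓞 E) with hφ
  have hφinj : Function.Injective φ := FaithfulSMul.algebraMap_injective (𝓞 K) (𝓞 E)
  have hr0 : (r : 𝓞 K) ≠ 0 := Nat.cast_ne_zero.mpr hr.ne_zero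
  have hr0E : (r : 𝓞 E) ≠ 0 := Nat.cast_ne_zero.mpr hr.ne_zero
  obtain ⟨hρ1, hρ2⟩ := hrho_dvd (𝓞 K) ζ hζ hr0
  have hζE : IsPrimitiveRoot (φ ζ) p := hζ.map_of_injective hφinj
  have hρE : φ ρ = rho (𝓞 E) (φ ζ) := hrho_nat (𝓞 K) (𝓞 E) φ ζ
  obtain ⟨hρE1, hρE2⟩ := hrho_dvd (𝓞 E) (φ ζ) hζE hr0E
  rw [← hρE] at hρE1 hρE2
  have hP0 : P.1 ≠ ⊥ := nonZeroDivisors.coe_ne_zero P
  have h𝔟0 : 𝔟.1 ≠ ⊥ := nonZeroDivisors.coe_ne_zero 𝔟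
  have hgP : GoodPrime p ζ P.1 := goodPrime_of_prime hp hζ hP hP0 hpP
  have hg𝔟 : GoodPrime p ζ 𝔟.1 := goodPrime_of_prime hp hζ h𝔟 h𝔟0 hp𝔟
  -- `ρ` is prime to primes not containing `r`
  have hρnot : ∀ (𝔮 : Ideal (𝓞 K)), 𝔮.IsPrime → (r : 𝓞 K) ∉ 𝔮 → ρ ∉ 𝔮 := by
    intro 𝔮 h𝔮 hr𝔮 hm
    exact hr𝔮 (h𝔮.mem_of_pow_mem _ (Ideal.mem_of_dvd _ hρ2 hm))
  have hρnotE : ∀ (𝔮 : Ideal (𝓞 E)), 𝔮.IsPrime → (r : 𝓞 E) ∉ 𝔮 → φ ρ ∉ 𝔮 := by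
    intro 𝔮 h𝔮 hr𝔮 hm
    exact hr𝔮 (h𝔮.mem_of_pow_mem _ (Ideal.mem_of_dvd _ hρE2 hm))
  have hγnot : ∀ (𝔮 : Ideal (𝓞 K)), 𝔮.IsPrime → (r : 𝓞 K) ∉ 𝔮 → α ∉ 𝔮 → γ ∉ 𝔮 := by
    intro 𝔮 h𝔮 hr𝔮 hα𝔮 hm
    rcases h𝔮.mem_or_mem hm with h1 | h1
    · exact hα𝔮 (h𝔮.mem_of_pow_mem _ h1)
    · exact hρnot 𝔮 h𝔮 hr𝔮 h1
  -- the symbol of `ρ`
  have hindsym : ∀ (𝔮 : Ideal (𝓞 K)), GoodPrime p ζ 𝔮 → (r : 𝓞 K) ∉ 𝔮 → α ∉ 𝔮 →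
      sym p ζ γ 𝔮 = 0 → ind (Ideal.absNorm 𝔮) = - ((x : ZMod p) * sym p ζ α 𝔮) := by
    intro 𝔮 hg hr𝔮 hα𝔮 hs
    have h𝔮 : 𝔮.IsPrime := hg.max.isPrime
    have h1 := hrho_sym (𝓞 K) ζ 𝔮 hg hr𝔮
    rw [card_quot_eq_absNorm] at h1
    have hαx : α ^ x ∉ 𝔮 := fun hm => hα𝔮 (h𝔮.mem_of_pow_mem _ hm)
    rw [hγ, hg.sym_mul hαx (hρnot 𝔮 h𝔮 hr𝔮), hg.sym_pow hα𝔮, h1] at hs
    exact eq_neg_of_add_eq_zero_right hs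
  have hindP' := hindsym P.1 hgP hrP hαP hsP
  have hind𝔟' := hindsym 𝔟.1 hg𝔟 hr𝔟 hα𝔟 hs𝔟
  -- primes of degree one above `P` and `𝔟`
  have hsplitP : SplitsCompletely K E P.1 :=
    h3cr_splitHard p K E ζ γ δ P.1 hgP (hγnot P.1 hP hrP hαP) hδ hgenE hsP
  have hsplit𝔟 : SplitsCompletely K E 𝔟.1 :=
    h3cr_splitHard p K E ζ γ δ 𝔟.1 hg𝔟 (hγnot 𝔟.1 h𝔟 hr𝔟 hα𝔟) hδ hgenE hs𝔟
  obtain ⟨𝔓, h𝔓, h𝔓0, h𝔓u, h𝔓N, h𝔓rel⟩ := h3a_exists_prime_over_split (E := E) hP hP0 hsplitP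
  obtain ⟨𝔅, h𝔅, h𝔅0, h𝔅u, h𝔅N, h𝔅rel⟩ := h3a_exists_prime_over_split (E := E) h𝔟 h𝔟0 hsplit𝔟
  -- the modulus `D`
  set Nα : ℕ := Ideal.absNorm (Ideal.span {α}) with hNα
  have hNα0 : Nα ≠ 0 := by
    rw [hNα, Ne, Ideal.absNorm_eq_zero_iff, Ideal.span_singleton_eq_bot]
    exact hα0
  set D : ℕ := (p * r * Nα) ^ Module.finrank ℤ (𝓞 E) with hD
  have hD0 : D ≠ 0 := pow_ne_zero _ (mul_ne_zero (mul_ne_zero hp.ne_zero hr.ne_zero) hNα0)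
  have hDprop : ∀ 𝔔 : Ideal (𝓞 E), 𝔔.IsPrime → ¬ (Ideal.absNorm 𝔔 ∣ D) →
      (p : 𝓞 E) ∉ 𝔔 ∧ (r : 𝓞 E) ∉ 𝔔 ∧ φ α ∉ 𝔔 := by
    intro 𝔔 h𝔔 hnd
    have h1 : ((p * r * Nα : ℕ) : 𝓞 E) ∉ 𝔔 := fun hm => hnd (h3a_absNorm_dvd_pow hm)
    refine ⟨fun hm => h1 ?_, fun hm => h1 ?_, fun hm => h1 ?_⟩
    · push_cast
      exact 𝔔.mul_mem_right _ (𝔔.mul_mem_right _ hm)
    · push_cast
      exact 𝔔.mul_mem_right _ (𝔔.mul_mem_left _ hm)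
    · push_cast
      exact 𝔔.mul_mem_left _ (h3a_norm_mem_of_mem hm)
  -- claim 1: principal ideals
  have hαx : ∀ 𝔯 : Ideal (𝓞 K), 𝔯.IsPrime → (r : 𝓞 K) ∈ 𝔯 → α ^ x ∉ 𝔯 :=
    fun 𝔯 h𝔯 hr𝔯 hm => hαr 𝔯 h𝔯 hr𝔯 (h𝔯.mem_of_pow_mem _ hm)
  have hclaim1 : ∀ y : 𝓞 E, Nat.Coprime (Ideal.absNorm (Ideal.span {y})) r →
      ind (Ideal.absNorm (Ideal.span {y})) = 0 := by
    intro y hy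
    have h1 := hRam K E (α ^ x) ρ δ r hp hp2 hr hpr hfinE hδ hρ1 hρ2 hαx y hy
    have h2 : ¬ r ∣ Ideal.absNorm (Ideal.span {y}) :=
      (Nat.Prime.coprime_iff_not_dvd hr).mp hy.symm
    exact (hind_zero _ h2).mpr h1
  -- claim 2: split primes
  have hsymE : ∀ 𝔔 : Ideal (𝓞 E), 𝔔.IsPrime → 𝔔 ≠ ⊥ → (p : 𝓞 E) ∉ 𝔔 → (r : 𝓞 E) ∉ 𝔔 →
      φ α ∉ 𝔔 → ind (Ideal.absNorm 𝔔) = - ((x : ZMod p) * sym p (φ ζ) (φ α) 𝔔) := by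
    intro 𝔔 h𝔔 h𝔔0 hp𝔔 hr𝔔 hα𝔔
    have hg : GoodPrime p (φ ζ) 𝔔 := goodPrime_of_prime hp hζE h𝔔 h𝔔0 hp𝔔
    have h1 := hrho_sym (𝓞 E) (φ ζ) 𝔔 hg hr𝔔
    rw [card_quot_eq_absNorm, ← hρE] at h1
    have hαx' : φ α ^ x ∉ 𝔔 := fun hm => hα𝔔 (h𝔔.mem_of_pow_mem _ hm)
    have hγE : φ γ = φ α ^ x * φ ρ := by rw [hγ, map_mul, map_pow]
    have hδ𝔔 : δ ∉ 𝔔 := by
      intro hm
      have : φ γ ∈ 𝔔 := by rw [← hδ]; exact 𝔔.pow_mem_of_mem hm p hp.pos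
      rw [hγE] at this
      rcases h𝔔.mem_or_mem this with h2 | h2
      · exact hαx' h2
      · exact hρnotE 𝔔 h𝔔 hr𝔔 h2
    have h3 : sym p (φ ζ) (φ γ) 𝔔 = 0 := by
      rw [← hδ]; exact hg.sym_pow_p hδ𝔔
    rw [hγE, hg.sym_mul hαx' (hρnotE 𝔔 h𝔔 hr𝔔), hg.sym_pow hα𝔔, h1] at h3
    exact eq_neg_of_add_eq_zero_right h3
  have hclaim2 : ∀ 𝔔 : Ideal (𝓞 E), 𝔔.IsPrime → 𝔔 ≠ ⊥ → ¬ (Ideal.absNorm 𝔔 ∣ D) →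
      SplitsCompletely E M 𝔔 → Nat.Coprime (Ideal.absNorm 𝔔) r ∧ ind (Ideal.absNorm 𝔔) = 0 := by
    intro 𝔔 h𝔔 h𝔔0 hnd hsplit
    obtain ⟨hp𝔔, hr𝔔, hα𝔔⟩ := hDprop 𝔔 h𝔔 hnd
    refine ⟨h3a_coprime_absNorm h𝔔 h𝔔0 hr hr𝔔, ?_⟩
    have hg : GoodPrime p (φ ζ) 𝔔 := goodPrime_of_prime hp hζE h𝔔 h𝔔0 hp𝔔
    have h1 := h3cr_splitEasy p E M (φ ζ) (φ α) β' 𝔔 hg hα𝔔 hβ' hsplit
    rw [hsymE 𝔔 h𝔔 h𝔔0 hp𝔔 hr𝔔 hα𝔔, h1, mul_zero, neg_zero]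
  -- the ideal `𝔄 = 𝔓^A 𝔅^B`
  have hcopP : Nat.Coprime (Ideal.absNorm P.1) r := h3a_coprime_absNorm hP hP0 hr hrP
  have hcop𝔟 : Nat.Coprime (Ideal.absNorm 𝔟.1) r := h3a_coprime_absNorm h𝔟 h𝔟0 hr hr𝔟
  have hndP : ¬ r ∣ Ideal.absNorm P.1 := (Nat.Prime.coprime_iff_not_dvd hr).mp hcopP.symm
  have hnd𝔟 : ¬ r ∣ Ideal.absNorm 𝔟.1 := (Nat.Prime.coprime_iff_not_dvd hr).mp hcop𝔟.symm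
  let 𝔓' : (Ideal (𝓞 E))⁰ := ⟨𝔓, mem_nonZeroDivisors_of_ne_zero h𝔓0⟩
  let 𝔅' : (Ideal (𝓞 E))⁰ := ⟨𝔅, mem_nonZeroDivisors_of_ne_zero h𝔅0⟩
  set 𝔄 : (Ideal (𝓞 E))⁰ := 𝔓' ^ A * 𝔅' ^ B with h𝔄
  have h𝔄val : 𝔄.1 = 𝔓 ^ A * 𝔅 ^ B := by
    rw [h𝔄]; simp [𝔓', 𝔅']
  have h𝔄N : Ideal.absNorm 𝔄.1 = Ideal.absNorm P.1 ^ A * Ideal.absNorm 𝔟.1 ^ B := by
    rw [h𝔄val, map_mul, map_pow, map_pow, h𝔓N, h𝔅N]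
  have h𝔄cop : Nat.Coprime (Ideal.absNorm 𝔄.1) r := by
    rw [h𝔄N]
    exact Nat.Coprime.mul_left (Nat.Coprime.pow_left _ hcopP) (Nat.Coprime.pow_left _ hcop𝔟)
  have h𝔄ind : ind (Ideal.absNorm 𝔄.1) = 0 := by
    have hA' : ¬ r ∣ Ideal.absNorm P.1 ^ A := fun h => hndP (hr.dvd_of_dvd_pow h)
    have hB' : ¬ r ∣ Ideal.absNorm 𝔟.1 ^ B := fun h => hnd𝔟 (hr.dvd_of_dvd_pow h)
    rw [h𝔄N, hind_mul _ _ hA' hB', h3a_ind_pow ind hind_mul hr hndP,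
      h3a_ind_pow ind hind_mul hr hnd𝔟, hindP', hind𝔟']
    linear_combination (-(x : ZMod p)) * hAB
  -- the class character
  have h𝔄₀ : ∃ 𝔄₀ : Ideal (𝓞 E), 𝔄₀ ≠ ⊥ ∧ Nat.Coprime (Ideal.absNorm 𝔄₀) r ∧
      ind (Ideal.absNorm 𝔄₀) ≠ 0 := by
    refine ⟨𝔓, h𝔓0, ?_, ?_⟩
    · rw [h𝔓N]; exact hcopP
    · rw [h𝔓N]; exact hindP
  have hmem := hCC hSI E M r D ind hp hr hD0 hfinM hind_mul hind_congr hclaim1 hclaim2 h𝔄₀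
    𝔄 h𝔄cop h𝔄ind
  -- the norm
  obtain ⟨ν, hν⟩ := hCN K E
  have hDprop' : ∀ 𝔔 : Ideal (𝓞 E), 𝔔.IsPrime → ¬ (Ideal.absNorm 𝔔 ∣ D) →
      (p : 𝓞 E) ∉ 𝔔 ∧ algebraMap (𝓞 K) (𝓞 E) α ∉ 𝔔 :=
    fun 𝔔 h𝔔 hnd => ⟨(hDprop 𝔔 h𝔔 hnd).1, (hDprop 𝔔 h𝔔 hnd).2.2⟩
  have hfinal := hNS K L E M ζ α β β' D ν hp hζ hβ hgen hβ' hν hDprop' _ hmem
  have hrel : Ideal.relNorm (𝓞 K) 𝔄.1 = (P ^ A * 𝔟 ^ B : (Ideal (𝓞 K))⁰).1 := by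
    rw [h𝔄val, map_mul, map_pow, map_pow, h𝔓rel, h𝔅rel]
    simp
  rw [hν 𝔄 (P ^ A * 𝔟 ^ B) hrel, map_mul, map_pow, map_pow] at hfinal
  exact hfinal

end H3CR
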