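/-
T-CFT module CR (helper3): the Kummer extension `E(γ^{1/p})` of a number field `E ∋ ζ_p`,
realised as the splitting field of `X ^ p - γ`, with its structure as a number field.
-/
import Mathlib
import Fermat.Agent.CFT.Defs
import Fermat.Agent.CFT.CR.Sym

set_option autoImplicit false
set_option linter.style.haveILetI false
set_option linter.unusedSectionVars false

namespace H3CR

open NumberField Polynomial

section field

variable (E : Type) [Field E] (p : ℕ) (γ : E)

/-- The Kummer extension `E(γ^{1/p})`: the splitting field of `X ^ p - γ`. -/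
abbrev KumField : Type := (X ^ p - C γ : E[X]).SplittingField

variable {E p γ}

theorem kum_poly_ne_zero (hp : 0 < p) : (X ^ p - C γ : E[X]) ≠ 0 :=
  X_pow_sub_C_ne_zero hp γ

/-- a root of `X ^ p - γ` in the Kummer extension -/
theorem kum_exists_root (hp : 0 < p) : ∃ δ : KumField E p γ, δ ^ p = algebraMap E _ γ := by
  have hsplit := SplittingField.splits (X ^ p - C γ : E[X])
  have hdeg : ((X ^ p - C γ : E[X]).map (algebraMap E (KumField E p γ))).degree ≠ 0 := by
    rw [degree_map, degree_X_pow_sub_C hp]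
    exact_mod_cast hp.ne'
  obtain ⟨δ, hδ⟩ := Polynomial.Splits.exists_eval_eq_zero hsplit hdeg
  refine ⟨δ, ?_⟩
  simpa [sub_eq_zero] using hδ

/-- every root of `X ^ p - γ` generates the Kummer extension (if `E` contains a primitive
`p`-th root of unity). -/
theorem kum_adjoin_eq_top (hp : 0 < p) {ζ : E} (hζ : IsPrimitiveRoot ζ p)
    {δ : KumField E p γ} (hδ : δ ^ p = algebraMap E _ γ) :
    IntermediateField.adjoin E {δ} = ⊤ := by
  have hroots : (X ^ p - C γ : E[X]).rootSet (KumField E p γ) ⊆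
      (IntermediateField.adjoin E {δ} : Set (KumField E p γ)) := by
    intro η hη
    rw [mem_rootSet_of_ne (kum_poly_ne_zero hp)] at hη
    have hη' : η ^ p = algebraMap E _ γ := by simpa [sub_eq_zero] using hη
    have hζ' : IsPrimitiveRoot (algebraMap E (KumField E p γ) ζ) p :=
      hζ.map_of_injective (algebraMap E (KumField E p γ)).injective
    have h1 : η ^ p = δ ^ p := by rw [hη', hδ]
    have h2 := hζ'.pow_sub_pow_eq_prod_sub_mul η δ hp
    rw [h1, sub_self, eq_comm, Finset.prod_eq_zero_iff] at h2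
    obtain ⟨ξ, hξ, hx⟩ := h2
    haveI : NeZero p := ⟨hp.ne'⟩
    rw [Polynomial.mem_nthRootsFinset hp] at hξ
    obtain ⟨j, -, rfl⟩ := hζ'.eq_pow_of_pow_eq_one hξ
    rw [sub_eq_zero] at hx
    rw [hx]
    refine mul_mem (pow_mem (IntermediateField.algebraMap_mem _ ζ) j) ?_
    exact IntermediateField.mem_adjoin_simple_self E δ
  have h3 := IsSplittingField.adjoin_rootSet (KumField E p γ) (X ^ p - C γ : E[X])
  rw [eq_top_iff]
  intro x _
  have hx : x ∈ Algebra.adjoin E ((X ^ p - C γ : E[X]).rootSet (KumField E p γ)) := by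
    rw [h3]; trivial
  exact Algebra.adjoin_le (S := (IntermediateField.adjoin E {δ}).toSubalgebra) hroots hx

theorem kum_isGalois [CharZero E] (hp : 0 < p) (hγ : γ ≠ 0) : IsGalois E (KumField E p γ) :=
  IsGalois.of_separable_splitting_field (p := (X ^ p - C γ : E[X]))
    (separable_X_pow_sub_C γ (Nat.cast_ne_zero.mpr hp.ne') hγ)

theorem kum_finrank_le (hp : 0 < p) {ζ : E} (hζ : IsPrimitiveRoot ζ p) :
    Module.finrank E (KumField E p γ) ≤ p := by
  obtain ⟨δ, hδ⟩ := kum_exists_root (E := E) (p := p) (γ := γ) hp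
  have htop := kum_adjoin_eq_top hp hζ hδ
  have hint : IsIntegral E δ := Algebra.IsIntegral.isIntegral δ
  have h1 : Module.finrank E (IntermediateField.adjoin E {δ}) = (minpoly E δ).natDegree :=
    IntermediateField.adjoin.finrank hint
  have h2 : (minpoly E δ).natDegree ≤ p := by
    have hdvd : minpoly E δ ∣ (X ^ p - C γ : E[X]) := by
      apply minpoly.dvd
      simp [hδ]
    have := natDegree_le_of_dvd hdvd (kum_poly_ne_zero hp)
    rwa [natDegree_X_pow_sub_C] at this
  rw [htop] at h1
  rw [← h1] at h2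
  rwa [IntermediateField.finrank_top'] at h2

theorem kum_finrank_eq (hp : p.Prime) {ζ : E} (hζ : IsPrimitiveRoot ζ p)
    (hγ : ∀ c : E, c ^ p ≠ γ) : Module.finrank E (KumField E p γ) = p := by
  have H : Irreducible (X ^ p - C γ : E[X]) := (X_pow_sub_C_irreducible_iff_of_prime hp).mpr hγ
  exact finrank_of_isSplittingField_X_pow_sub_C
    ⟨ζ, (mem_primitiveRoots hp.pos).mpr hζ⟩ H (KumField E p γ)

/-- **Kummer descent**: if `x ∈ E` becomes a `p`-th power in `E(γ^{1/p})` then
`x = γ ^ a * c ^ p` with `c ∈ E`. -/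
theorem kum_descent (hp : p.Prime) {ζ : E} (hζ : IsPrimitiveRoot ζ p) (hγ0 : γ ≠ 0)
    {x : E} {y : KumField E p γ} (hy : y ^ p = algebraMap E _ x) :
    ∃ (a : ℕ) (c : E), x = γ ^ a * c ^ p := by
  haveI : NeZero p := ⟨hp.ne_zero⟩
  by_cases hγ : ∀ c : E, c ^ p ≠ γ
  · -- irreducible case
    have H : Irreducible (X ^ p - C γ : E[X]) :=
      (X_pow_sub_C_irreducible_iff_of_prime hp).mpr hγ
    have hK : (primitiveRoots p E).Nonempty := ⟨ζ, (mem_primitiveRoots hp.pos).mpr hζ⟩
    haveI : IsGalois E (KumField E p γ) :=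
      isGalois_of_isSplittingField_X_pow_sub_C hK H (KumField E p γ)
    obtain ⟨δ, hδ⟩ := kum_exists_root (E := E) (p := p) (γ := γ) hp.pos
    set σ : KumField E p γ ≃ₐ[E] KumField E p γ :=
      (autEquivZmod H (KumField E p γ) hζ).symm (Multiplicative.ofAdd ((1 : ℕ) : ZMod p)) with hσ
    have hσδ : σ δ = ζ • δ := by
      have := autEquivZmod_symm_apply_natCast H (KumField E p γ) hδ hζ 1
      rw [pow_one] at this
      rw [hσ]
      exact this
    have hζ' : IsPrimitiveRoot (algebraMap E (KumField E p γ) ζ) p :=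
      hζ.map_of_injective (algebraMap E (KumField E p γ)).injective
    -- σ y = ζ^a y
    have h1 : (σ y) ^ p = y ^ p := by
      rw [← map_pow, hy, AlgEquiv.commutes]
    have h2 := hζ'.pow_sub_pow_eq_prod_sub_mul (σ y) y hp.pos
    rw [h1, sub_self, eq_comm, Finset.prod_eq_zero_iff] at h2
    obtain ⟨ξ, hξ, hx⟩ := h2
    rw [Polynomial.mem_nthRootsFinset hp.pos] at hξ
    obtain ⟨a, -, rfl⟩ := hζ'.eq_pow_of_pow_eq_one hξ
    rw [sub_eq_zero] at hx
    have hδ0 : δ ≠ 0 := by
      intro h0
      rw [h0, zero_pow hp.ne_zero] at hδ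
      exact hγ0 ((map_eq_zero _).mp hδ.symm)
    -- z = y / δ^a is fixed by σ
    set z := y / δ ^ a with hz
    have hζ0 : algebraMap E (KumField E p γ) ζ ≠ 0 :=
      hζ'.ne_zero hp.ne_zero
    have hσz : σ z = z := by
      rw [hz, map_div₀, map_pow, hσδ, hx, Algebra.smul_def, mul_pow]
      have h3 : (algebraMap E (KumField E p γ) ζ) ^ a ≠ 0 := pow_ne_zero _ hζ0
      have h4 : δ ^ a ≠ 0 := pow_ne_zero _ hδ0
      rw [mul_div_mul_left _ _ h3]
    -- hence by every automorphism
    have hfix : ∀ τ : KumField E p γ ≃ₐ[E] KumField E p γ, τ z = z := by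
      intro τ
      obtain ⟨m, hm⟩ : ∃ m : ℕ, τ = σ ^ m := by
        refine ⟨((autEquivZmod H (KumField E p γ) hζ) τ).toAdd.val, ?_⟩
        apply (autEquivZmod H (KumField E p γ) hζ).injective
        rw [map_pow, hσ, MulEquiv.apply_symm_apply, ← ofAdd_nsmul]
        simp
      rw [hm]
      clear hm
      induction m with
      | zero => simp
      | succ m ih => rw [pow_succ, AlgEquiv.mul_apply, hσz, ih]
    have hmem : z ∈ (⊥ : IntermediateField E (KumField E p γ)) := by
      rw [← IsGalois.fixedField_top (F := E) (E := KumField E p γ)]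
      intro τ
      exact hfix τ.1
    obtain ⟨c, hc⟩ := IntermediateField.mem_bot.mp hmem
    refine ⟨a, c, ?_⟩
    apply (algebraMap E (KumField E p γ)).injective
    rw [← hy, map_mul, map_pow, map_pow, hc, ← hδ, hz, div_pow, ← pow_mul, ← pow_mul,
      mul_comm p a]
    have h4 : δ ^ (a * p) ≠ 0 := pow_ne_zero _ hδ0
    rw [mul_div_cancel₀ _ h4]
  · -- γ is a p-th power: the extension is trivial
    push Not at hγ
    obtain ⟨c₀, hc₀⟩ := hγ
    have hsplits : (X ^ p - C γ : E[X]).Splits := by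
      rw [← hc₀]
      exact X_pow_sub_C_splits_of_isPrimitiveRoot hζ rfl
    have hbot := IsSplittingField.splits_iff (KumField E p γ) (X ^ p - C γ : E[X])
    have h1 : (⊥ : Subalgebra E (KumField E p γ)) = ⊤ := (hbot.mp hsplits).symm
    have hy' : y ∈ (⊥ : Subalgebra E (KumField E p γ)) := by rw [h1]; trivial
    obtain ⟨c, hc⟩ := Algebra.mem_bot.mp hy'
    refine ⟨0, c, ?_⟩
    apply (algebraMap E (KumField E p γ)).injective
    rw [← hy, ← hc]
    simp

end field

section numberField

variable (E : Type) [Field E] [NumberField E] (p : ℕ) (γ : E)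

instance kumField_numberField : NumberField (KumField E p γ) :=
  NumberField.of_module_finite E _

variable {E p}

/-- an integral root of `X ^ p - γ` for `γ ∈ 𝓞 E`. -/
theorem kum_exists_int_root (hp : 0 < p) (γ : 𝓞 E) :
    ∃ δ : 𝓞 (KumField E p (γ : E)), δ ^ p = algebraMap (𝓞 E) (𝓞 (KumField E p (γ : E))) γ := by
  obtain ⟨δ, hδ⟩ := kum_exists_root (E := E) (p := p) (γ := (γ : E)) hp
  have hint : IsIntegral ℤ δ := by
    have h1 : IsIntegral ℤ (δ ^ p) := by
      rw [hδ]
      exact (RingOfIntegers.isIntegral_coe γ).map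
        (IsScalarTower.toAlgHom ℤ E (KumField E p (γ : E)))
    exact IsIntegral.of_pow hp h1
  refine ⟨⟨δ, hint⟩, ?_⟩
  apply RingOfIntegers.ext
  have h1 : (((⟨δ, hint⟩ : 𝓞 (KumField E p (γ : E))) ^ p : 𝓞 (KumField E p (γ : E))) :
      KumField E p (γ : E)) = δ ^ p := by
    simp
  exact h1.trans (hδ.trans rfl)

end numberField

end H3CR
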