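/-
T-CFT module CR (helper3): the local relation, with the Kummer extensions plugged in.
-/
import Mathlib
import Fermat.Agent.CFT.CR.AsmLocal
import Fermat.Agent.CFT.CR.KumExt

set_option autoImplicit false
set_option linter.style.haveILetI false
set_option linter.unusedSectionVars false
set_option linter.unusedVariables false

namespace H3CR

open NumberField H14CFT
open scoped nonZeroDivisors

/-- the local relation. -/
theorem h3cr_local (p : ℕ)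
    (hSI : SecondInequality) (hRam : RamNorm p) (hCC : ClassChar p) (hCN : ClassNorm)
    (hNS : NormSplit p)
    (K L : Type) [Field K] [NumberField K] [Field L] [NumberField L] [Algebra K L]
    [IsGalois K L] [IsCyclotomicExtension {p} ℚ K]
    (hp : p.Prime) (hp2 : p ≠ 2)
    (ζ α : 𝓞 K) (β : 𝓞 L)
    (hζ : IsPrimitiveRoot ζ p) (hβ : β ^ p = algebraMap (𝓞 K) (𝓞 L) α)
    (hgen : IntermediateField.adjoin K {(β : L)} = ⊤) (hα0 : α ≠ 0)
    (r : ℕ) (hr : r.Prime) (hpr : p ∣ r - 1)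
    (ind : ℕ → ZMod p) (rho : ∀ (R : Type) [CommRing R], R → R)
    (hind_mul : ∀ m n : ℕ, ¬ r ∣ m → ¬ r ∣ n → ind (m * n) = ind m + ind n)
    (hind_congr : ∀ m n : ℕ, m ≡ n [MOD r] → ind m = ind n)
    (hind_zero : ∀ m : ℕ, ¬ r ∣ m → (ind m = 0 ↔ m ^ ((r - 1) / p) ≡ 1 [MOD r]))
    (hrho_nat : ∀ (R S : Type) [CommRing R] [CommRing S] (φ : R →+* S) (ζ : R),
        φ (rho R ζ) = rho S (φ ζ))
    (hrho_dvd : ∀ (R : Type) [CommRing R] [IsDomain R] (ζ : R), IsPrimitiveRoot ζ p →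
        (r : R) ≠ 0 → (r : R) ∣ rho R ζ ∧ rho R ζ ∣ (r : R) ^ (p - 1))
    (hrho_sym : ∀ (R : Type) [CommRing R] [IsDomain R] (ζ : R) (𝔮 : Ideal R), GoodPrime p ζ 𝔮 →
        (r : R) ∉ 𝔮 → sym p ζ (rho R ζ) 𝔮 = ind (Nat.card (R ⧸ 𝔮)))
    (hαr : ∀ 𝔯 : Ideal (𝓞 K), 𝔯.IsPrime → (r : 𝓞 K) ∈ 𝔯 → α ∉ 𝔯)
    (x : ℕ)
    (hγ : ∀ c : K, c ^ p ≠ ((α ^ x * rho (𝓞 K) ζ : 𝓞 K) : K))
    (P 𝔟 : (Ideal (𝓞 K))⁰) (hP : P.1.IsPrime) (h𝔟 : 𝔟.1.IsPrime)
    (hpP : (p : 𝓞 K) ∉ P.1) (hp𝔟 : (p : 𝓞 K) ∉ 𝔟.1)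
    (hrP : (r : 𝓞 K) ∉ P.1) (hr𝔟 : (r : 𝓞 K) ∉ 𝔟.1)
    (hαP : α ∉ P.1) (hα𝔟 : α ∉ 𝔟.1)
    (hsP : sym p ζ (α ^ x * rho (𝓞 K) ζ) P.1 = 0)
    (hs𝔟 : sym p ζ (α ^ x * rho (𝓞 K) ζ) 𝔟.1 = 0)
    (hindP : ind (Ideal.absNorm P.1) ≠ 0)
    (A B : ℕ) (hAB : (A : ZMod p) * sym p ζ α P.1 + (B : ZMod p) * sym p ζ α 𝔟.1 = 0) :
    ClassGroup.mk0 P ^ A * ClassGroup.mk0 𝔟 ^ B ∈ normClasses K L p := by
  classical
  haveI : NeZero p := ⟨hp.ne_zero⟩
  set γ : 𝓞 K := α ^ x * rho (𝓞 K) ζ with hγdef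
  have hγ0 : (γ : K) ≠ 0 := by
    intro h0
    exact hγ 0 (by rw [zero_pow hp.ne_zero, h0])
  have hζK : IsPrimitiveRoot (ζ : K) p :=
    hζ.map_of_injective (FaithfulSMul.algebraMap_injective (𝓞 K) K)
  -- the field `E`
  haveI : IsGalois K (KumField K p (γ : K)) := kum_isGalois hp.pos hγ0
  obtain ⟨δ, hδ⟩ := kum_exists_int_root (E := K) hp.pos γ
  have hδ' : (δ : KumField K p (γ : K)) ^ p = algebraMap K _ (γ : K) := by
    have := congrArg (fun y : 𝓞 (KumField K p (γ : K)) => (y : KumField K p (γ : K))) hδ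
    simp only [map_pow] at this
    exact this
  have hgenE : IntermediateField.adjoin K {(δ : KumField K p (γ : K))} = ⊤ :=
    kum_adjoin_eq_top hp.pos hζK hδ'
  have hfinE : Module.finrank K (KumField K p (γ : K)) = p := kum_finrank_eq hp hζK hγ
  -- the field `M`
  set αE : 𝓞 (KumField K p (γ : K)) := algebraMap (𝓞 K) (𝓞 (KumField K p (γ : K))) α with hαE
  have hαE0 : (αE : KumField K p (γ : K)) ≠ 0 := by
    intro h0
    apply hα0
    have h1 : αE = 0 := by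
      apply RingOfIntegers.coe_injective
      simpa using h0
    exact (FaithfulSMul.algebraMap_injective (𝓞 K) (𝓞 (KumField K p (γ : K))))
      (by rw [← hαE, h1, map_zero])
  haveI : IsGalois (KumField K p (γ : K)) (KumField (KumField K p (γ : K)) p (αE : _)) :=
    kum_isGalois hp.pos hαE0
  obtain ⟨β', hβ'⟩ := kum_exists_int_root (E := KumField K p (γ : K)) hp.pos αE
  have hζE : IsPrimitiveRoot (algebraMap K (KumField K p (γ : K)) (ζ : K)) p :=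
    hζK.map_of_injective (algebraMap K (KumField K p (γ : K))).injective
  have hfinM : Module.finrank (KumField K p (γ : K))
      (KumField (KumField K p (γ : K)) p (αE : _)) ≤ p := kum_finrank_le hp.pos hζE
  exact h3cr_local_abstract p hSI hRam hCC hCN hNS K L (KumField K p (γ : K))
    (KumField (KumField K p (γ : K)) p (αE : _)) hp hp2 ζ α β δ β' hζ hβ hgen hα0 r hr hpr
    ind rho hind_mul hind_congr hind_zero hrho_nat hrho_dvd hrho_sym hαr x hδ hgenE hfinE hβ'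
    hfinM P 𝔟 hP h𝔟 hpP hp𝔟 hrP hr𝔟 hαP hα𝔟 hsP hs𝔟 hindP A B hAB

end H3CR
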