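/-
T-CFT module CR (helper3): the final wiring.
`TwoPrimeRelation p` from the packages B–H and the assembly slices J1–J8.
-/
import Mathlib
import Fermat.Agent.CFT.CR.AsmLocalKum

set_option autoImplicit false
set_option linter.style.haveILetI false
set_option linter.unusedSectionVars false
set_option linter.unusedVariables false

namespace H3CR

open NumberField H14CFT
open scoped nonZeroDivisors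

/-- `α` is not a `p`-th power in `K` if `K(α^{1/p})` has degree `p`. -/
theorem h3a_not_pow {p : ℕ} (hp : p.Prime) {K L : Type} [Field K] [NumberField K] [Field L]
    [NumberField L] [Algebra K L] {ζ α : 𝓞 K} {β : 𝓞 L} (hζ : IsPrimitiveRoot ζ p)
    (hβ : β ^ p = algebraMap (𝓞 K) (𝓞 L) α) (hgen : IntermediateField.adjoin K {(β : L)} = ⊤)
    (hfin : Module.finrank K L = p) : ∀ c : K, c ^ p ≠ (α : K) := by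
  intro c hc
  have hζL : IsPrimitiveRoot (algebraMap K L (ζ : K)) p :=
    (hζ.map_of_injective (FaithfulSMul.algebraMap_injective (𝓞 K) K)).map_of_injective
      (algebraMap K L).injective
  have h1 : (β : L) ^ p = (algebraMap K L c) ^ p := by
    have := congrArg (fun y : 𝓞 L => (y : L)) hβ
    simp only [map_pow] at this
    rw [this, ← map_pow, hc]
    rfl
  obtain ⟨j, -, hj⟩ := exists_pow_mul_of_pow_eq hp.pos hζL h1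
  have hmem : (β : L) ∈ (⊥ : IntermediateField K L) := by
    rw [IntermediateField.mem_bot]
    exact ⟨(ζ : K) ^ j * c, by rw [hj, map_mul, map_pow]⟩
  have h2 : IntermediateField.adjoin K {(β : L)} = ⊥ := by
    rw [IntermediateField.adjoin_simple_eq_bot_iff]
    exact hmem
  rw [hgen] at h2
  have h3 : Module.finrank K L = 1 := by
    rw [← IntermediateField.finrank_top', h2, IntermediateField.finrank_bot]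
  rw [hfin] at h3
  exact hp.one_lt.ne' h3

/-- **Module CR**: the two-prime relation, from all the packages. -/
theorem h3cr_twoPrimeRelation_of (p : ℕ)
    (hSI : SecondInequality) (hNSP : NonSplitPrimeExists)
    (hKG : KummerGen p) (hKC : KummerCheb p)
    (hJac : ∀ r : ℕ, p.Prime → p ≠ 2 → r.Prime → p ∣ r - 1 → JacobiElement p r)
    (hRam : RamNorm p) (hCC : ClassChar p) (hCN : ClassNorm)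
    (hF1 : FrobOneSplit) (hAux : AuxPrime p) (hVI : ValIndep p) (hFS : FrobSym p)
    (hNS : NormSplit p) :
    TwoPrimeRelation p := by
  intro K L _ _ _ _ _ _ _ hp hp2 hfin hunr P₁ P₂ Q₁ Q₂ σ₁ σ₂ a hP₁ hP₂ hq₁ hq₂ hq₁p hq₂p
    hQ₁ hQ₂ hu₁ hu₂ hF₁ hF₂ hσ
  classical
  haveI : Fact p.Prime := ⟨hp⟩
  haveI : NeZero p := ⟨hp.ne_zero⟩
  set 𝒩 := normClasses K L p with h𝒩
  have hpow : ∀ d : ClassGroup (𝓞 K), d ^ p ∈ 𝒩 := fun d =>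
    Subgroup.subset_closure (Or.inr ⟨d, rfl⟩)
  have hsplitmem : ∀ P : (Ideal (𝓞 K))⁰, P.1.IsPrime → SplitsCompletely K L P.1 →
      ClassGroup.mk0 P ∈ 𝒩 := fun P hP hs =>
    Subgroup.subset_closure (Or.inl ⟨P, hP, hs, rfl⟩)
  have hP₁0 : P₁.1 ≠ ⊥ := nonZeroDivisors.coe_ne_zero P₁
  have hP₂0 : P₂.1 ≠ ⊥ := nonZeroDivisors.coe_ne_zero P₂
  set q₁ := Ideal.absNorm P₁.1 with hq₁def
  set q₂ := Ideal.absNorm P₂.1 with hq₂def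
  have hq₁mem : (q₁ : 𝓞 K) ∈ P₁.1 := Ideal.absNorm_mem _
  have hq₂mem : (q₂ : 𝓞 K) ∈ P₂.1 := Ideal.absNorm_mem _
  have hpP₁ : (p : 𝓞 K) ∉ P₁.1 :=
    h3a_natCast_notMem hP₁.ne_top ((Nat.coprime_primes hq₁ hp).mpr hq₁p) hq₁mem
  have hpP₂ : (p : 𝓞 K) ∉ P₂.1 :=
    h3a_natCast_notMem hP₂.ne_top ((Nat.coprime_primes hq₂ hp).mpr hq₂p) hq₂mem
  -- trivial cases
  by_cases h2 : σ₂ = 1
  · have h1 : σ₁ = 1 := by rw [hσ, h2, one_pow]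
    rw [h1] at hF₁
    rw [h2] at hF₂
    have hs₁ := hF1 K L hunr P₁.1 Q₁ hP₁ hP₁0 hQ₁ hu₁ hF₁
    have hs₂ := hF1 K L hunr P₂.1 Q₂ hP₂ hP₂0 hQ₂ hu₂ hF₂
    exact 𝒩.mul_mem (hsplitmem P₁ hP₁ hs₁) (𝒩.inv_mem (𝒩.pow_mem (hsplitmem P₂ hP₂ hs₂) a))
  by_cases h1 : σ₁ = 1
  · rw [h1] at hF₁
    have hs₁ := hF1 K L hunr P₁.1 Q₁ hP₁ hP₁0 hQ₁ hu₁ hF₁
    have hord : orderOf σ₂ = p := by
      have hdvd : orderOf σ₂ ∣ p := by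
        have := orderOf_dvd_natCard σ₂
        rwa [IsGalois.card_aut_eq_finrank, hfin] at this
      rcases (Nat.dvd_prime hp).mp hdvd with h | h
      · exact absurd (orderOf_eq_one_iff.mp h) h2
      · exact h
    have hpa : p ∣ a := by
      rw [← hord]
      exact orderOf_dvd_of_pow_eq_one (by rw [← hσ, h1])
    obtain ⟨k, hk⟩ := hpa
    have : ClassGroup.mk0 P₂ ^ a ∈ 𝒩 := by
      rw [hk, mul_comm, pow_mul]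
      exact hpow _
    exact 𝒩.mul_mem (hsplitmem P₁ hP₁ hs₁) (𝒩.inv_mem this)
  -- main case
  obtain ⟨ζ, hζ⟩ := h3a_exists_zeta p hp K
  obtain ⟨α, β, hβ, hgen, hαP₁, hαP₂⟩ := hKG K L ζ hp hζ hfin hunr P₁.1 P₂.1 Q₁ Q₂ σ₁ σ₂
    hP₁ hP₂ hP₁0 hP₂0 hpP₁ hpP₂ hQ₁ hQ₂ hu₁ hu₂ hF₁ hF₂ h1 h2
  have hgP₁ : GoodPrime p ζ P₁.1 := goodPrime_of_prime hp hζ hP₁ hP₁0 hpP₁
  have hgP₂ : GoodPrime p ζ P₂.1 := goodPrime_of_prime hp hζ hP₂ hP₂0 hpP₂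
  obtain ⟨hrel, hu₁0, hu₂0⟩ := hFS K L ζ α β P₁.1 P₂.1 Q₁ Q₂ σ₁ σ₂ a hgP₁ hgP₂ hαP₁ hαP₂
    hβ hgen hQ₁ hQ₂ hu₁ hu₂ hF₁ hF₂ hσ h1 h2
  set u₁ := sym p ζ α P₁.1 with hu₁def
  set u₂ := sym p ζ α P₂.1 with hu₂def
  have hα0 : α ≠ 0 := fun h => hαP₁ (h ▸ P₁.1.zero_mem)
  have hαpow : ∀ c : K, c ^ p ≠ (α : K) := h3a_not_pow hp hζ hβ hgen hfin
  set Nα : ℕ := Ideal.absNorm (Ideal.span {α}) with hNα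
  have hNα0 : Nα ≠ 0 := by
    rw [hNα, Ne, Ideal.absNorm_eq_zero_iff, Ideal.span_singleton_eq_bot]
    exact hα0
  have hNαmem : ∀ 𝔯 : Ideal (𝓞 K), α ∈ 𝔯 → (Nα : 𝓞 K) ∈ 𝔯 := by
    intro 𝔯 hm
    have h1 : (Nα : 𝓞 K) ∈ Ideal.span {α} := Ideal.absNorm_mem _
    exact (Ideal.span_singleton_le_iff_mem _).mpr hm h1
  -- auxiliary primes
  have hD₁ : p * q₁ * q₂ * Nα ≠ 0 :=
    mul_ne_zero (mul_ne_zero (mul_ne_zero hp.ne_zero hq₁.ne_zero) hq₂.ne_zero) hNα0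
  obtain ⟨r₁, hr₁, hpr₁, hr₁D, hr₁q⟩ := hAux hNSP hKC q₁ (p * q₁ * q₂ * Nα) hp hp2 hq₁ hD₁
  have hD₂ : p * q₁ * q₂ * Nα * r₁ ≠ 0 := mul_ne_zero hD₁ hr₁.ne_zero
  obtain ⟨r₂, hr₂, hpr₂, hr₂D, hr₂q⟩ := hAux hNSP hKC q₂ (p * q₁ * q₂ * Nα * r₁) hp hp2 hq₂ hD₂
  have hr₁p : ¬ r₁ ∣ p := fun h => hr₁D (Dvd.dvd.mul_right (Dvd.dvd.mul_right (Dvd.dvd.mul_right h _) _) _)
  have hr₁q₁ : ¬ r₁ ∣ q₁ := fun h => hr₁D (Dvd.dvd.mul_right (Dvd.dvd.mul_right (Dvd.dvd.mul_left h _) _) _)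
  have hr₁N : ¬ r₁ ∣ Nα := fun h => hr₁D (Dvd.dvd.mul_left h _)
  have hr₂p : ¬ r₂ ∣ p := fun h => hr₂D (Dvd.dvd.mul_right (Dvd.dvd.mul_right (Dvd.dvd.mul_right (Dvd.dvd.mul_right h _) _) _) _)
  have hr₂q₂ : ¬ r₂ ∣ q₂ := fun h => hr₂D (Dvd.dvd.mul_right (Dvd.dvd.mul_right (Dvd.dvd.mul_left h _) _) _)
  have hr₂N : ¬ r₂ ∣ Nα := fun h => hr₂D (Dvd.dvd.mul_right (Dvd.dvd.mul_left h _) _)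
  have hr₂r₁ : ¬ r₂ ∣ r₁ := fun h => hr₂D (Dvd.dvd.mul_left h _)
  have hr₁nep : r₁ ≠ p := fun h => hr₁p (h ▸ dvd_rfl)
  have hr₂nep : r₂ ≠ p := fun h => hr₂p (h ▸ dvd_rfl)
  have hr₁r₂ : r₁ ≠ r₂ := fun h => hr₂r₁ (h ▸ dvd_rfl)
  have hrP₁ : (r₁ : 𝓞 K) ∉ P₁.1 :=
    h3a_natCast_notMem hP₁.ne_top
      ((Nat.coprime_primes hq₁ hr₁).mpr (fun h => hr₁q₁ (h ▸ dvd_rfl))) hq₁mem
  have hrP₂ : (r₂ : 𝓞 K) ∉ P₂.1 :=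
    h3a_natCast_notMem hP₂.ne_top
      ((Nat.coprime_primes hq₂ hr₂).mpr (fun h => hr₂q₂ (h ▸ dvd_rfl))) hq₂mem
  have hαr₁ : ∀ 𝔯 : Ideal (𝓞 K), 𝔯.IsPrime → (r₁ : 𝓞 K) ∈ 𝔯 → α ∉ 𝔯 := by
    intro 𝔯 h𝔯 hr hm
    exact h3a_natCast_notMem h𝔯.ne_top ((Nat.Prime.coprime_iff_not_dvd hr₁).mpr hr₁N) hr
      (hNαmem 𝔯 hm)
  have hαr₂ : ∀ 𝔯 : Ideal (𝓞 K), 𝔯.IsPrime → (r₂ : 𝓞 K) ∈ 𝔯 → α ∉ 𝔯 := by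
    intro 𝔯 h𝔯 hr hm
    exact h3a_natCast_notMem h𝔯.ne_top ((Nat.Prime.coprime_iff_not_dvd hr₂).mpr hr₂N) hr
      (hNαmem 𝔯 hm)
  -- Jacobi elements
  obtain ⟨ind₁, rho₁, hmul₁, hcongr₁, hzero₁, hnat₁, hdvd₁, hsym₁⟩ := hJac r₁ hp hp2 hr₁ hpr₁
  obtain ⟨ind₂, rho₂, hmul₂, hcongr₂, hzero₂, hnat₂, hdvd₂, hsym₂⟩ := hJac r₂ hp hp2 hr₂ hpr₂
  have hindq₁ : ind₁ q₁ ≠ 0 := fun h => hr₁q ((hzero₁ q₁ hr₁q₁).mp h)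
  have hindq₂ : ind₂ q₂ ≠ 0 := fun h => hr₂q ((hzero₂ q₂ hr₂q₂).mp h)
  have hr₁0 : (r₁ : 𝓞 K) ≠ 0 := Nat.cast_ne_zero.mpr hr₁.ne_zero
  have hr₂0 : (r₂ : 𝓞 K) ≠ 0 := Nat.cast_ne_zero.mpr hr₂.ne_zero
  obtain ⟨hρ₁a, hρ₁b⟩ := hdvd₁ (𝓞 K) ζ hζ hr₁0
  obtain ⟨hρ₂a, hρ₂b⟩ := hdvd₂ (𝓞 K) ζ hζ hr₂0
  set ρ₁ : 𝓞 K := rho₁ (𝓞 K) ζ with hρ₁
  set ρ₂ : 𝓞 K := rho₂ (𝓞 K) ζ with hρ₂
  -- the exponents `x_i`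
  set x₁ : ℕ := (-(ind₁ q₁) * u₁⁻¹).val with hx₁
  set x₂ : ℕ := (-(ind₂ q₂) * u₂⁻¹).val with hx₂
  have hx₁' : (x₁ : ZMod p) * u₁ + ind₁ q₁ = 0 := by
    rw [hx₁, ZMod.natCast_zmod_val, mul_assoc, inv_mul_cancel₀ hu₁0]; ring
  have hx₂' : (x₂ : ZMod p) * u₂ + ind₂ q₂ = 0 := by
    rw [hx₂, ZMod.natCast_zmod_val, mul_assoc, inv_mul_cancel₀ hu₂0]; ring
  have hρnot : ∀ {r : ℕ} {ρ : 𝓞 K} (𝔮 : Ideal (𝓞 K)), 𝔮.IsPrime → ρ ∣ (r : 𝓞 K) ^ (p - 1) →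
      (r : 𝓞 K) ∉ 𝔮 → ρ ∉ 𝔮 := by
    intro r ρ 𝔮 h𝔮 hdvd hr𝔮 hm
    exact hr𝔮 (h𝔮.mem_of_pow_mem _ (Ideal.mem_of_dvd _ hdvd hm))
  have hsP₁ : sym p ζ (α ^ x₁ * ρ₁) P₁.1 = 0 := by
    have hαx : α ^ x₁ ∉ P₁.1 := fun hm => hαP₁ (hP₁.mem_of_pow_mem _ hm)
    have h1 := hsym₁ (𝓞 K) ζ P₁.1 hgP₁ hrP₁
    rw [card_quot_eq_absNorm] at h1
    rw [hgP₁.sym_mul hαx (hρnot P₁.1 hP₁ hρ₁b hrP₁), hgP₁.sym_pow hαP₁, h1]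
    exact hx₁'
  have hsP₂ : sym p ζ (α ^ x₂ * ρ₂) P₂.1 = 0 := by
    have hαx : α ^ x₂ ∉ P₂.1 := fun hm => hαP₂ (hP₂.mem_of_pow_mem _ hm)
    have h1 := hsym₂ (𝓞 K) ζ P₂.1 hgP₂ hrP₂
    rw [card_quot_eq_absNorm] at h1
    rw [hgP₂.sym_mul hαx (hρnot P₂.1 hP₂ hρ₂b hrP₂), hgP₂.sym_pow hαP₂, h1]
    exact hx₂'
  -- independence
  obtain ⟨hγ₁, hindep⟩ := hVI K α ρ₁ ρ₂ r₁ r₂ x₁ x₂ hp hr₁ hr₂ hr₁r₂ hr₁nep hr₂nep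
    hρ₁a hρ₁b hρ₂a hρ₂b hαr₁ hαr₂ hαpow
  obtain ⟨hγ₂, -⟩ := hVI K α ρ₂ ρ₁ r₂ r₁ x₂ x₁ hp hr₂ hr₁ hr₁r₂.symm hr₂nep hr₁nep
    hρ₂a hρ₂b hρ₁a hρ₁b hαr₂ hαr₁ hαpow
  have hγ₁0 : α ^ x₁ * ρ₁ ≠ 0 := by
    intro h0
    apply hγ₁ 0
    rw [zero_pow hp.ne_zero, h0]
    rfl
  have hγ₂0 : α ^ x₂ * ρ₂ ≠ 0 := by
    intro h0
    apply hγ₂ 0
    rw [zero_pow hp.ne_zero, h0]
    rfl
  -- the bridging prime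
  obtain ⟨𝔟, h𝔟, h𝔟0, h𝔟N, -, hp𝔟, hγ₁𝔟, hγ₂𝔟, hα𝔟, hs𝔟₁, hs𝔟₂, hw⟩ :=
    hKC hNSP K ζ (α ^ x₁ * ρ₁) (α ^ x₂ * ρ₂) α 1 hp hζ one_ne_zero hγ₁0 hγ₂0 hα0 hindep
  set w := sym p ζ α 𝔟 with hwdef
  have hr₁𝔟 : (r₁ : 𝓞 K) ∉ 𝔟 := by
    intro hm
    apply hγ₁𝔟
    exact 𝔟.mul_mem_left _ (Ideal.mem_of_dvd _ hρ₁a hm)
  have hr₂𝔟 : (r₂ : 𝓞 K) ∉ 𝔟 := by
    intro hm
    apply hγ₂𝔟
    exact 𝔟.mul_mem_left _ (Ideal.mem_of_dvd _ hρ₂a hm)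
  let 𝔟' : (Ideal (𝓞 K))⁰ := ⟨𝔟, mem_nonZeroDivisors_of_ne_zero h𝔟0⟩
  -- the two local relations
  set A : ℕ := w.val with hA
  set B₁ : ℕ := (-u₁).val with hB₁
  set B₂ : ℕ := (-u₂).val with hB₂
  have hAB₁ : (A : ZMod p) * sym p ζ α P₁.1 + (B₁ : ZMod p) * sym p ζ α 𝔟'.1 = 0 := by
    rw [hA, hB₁, ZMod.natCast_zmod_val, ZMod.natCast_zmod_val]
    show w * u₁ + -u₁ * w = 0
    ring
  have hAB₂ : (A : ZMod p) * sym p ζ α P₂.1 + (B₂ : ZMod p) * sym p ζ α 𝔟'.1 = 0 := by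
    rw [hA, hB₂, ZMod.natCast_zmod_val, ZMod.natCast_zmod_val]
    show w * u₂ + -u₂ * w = 0
    ring
  have hloc₁ := h3cr_local p hSI hRam hCC hCN hNS K L hp hp2 ζ α β hζ hβ hgen hα0 r₁ hr₁ hpr₁
    ind₁ rho₁ hmul₁ hcongr₁ hzero₁ hnat₁ hdvd₁ hsym₁ hαr₁ x₁ hγ₁ P₁ 𝔟' hP₁ h𝔟 hpP₁ hp𝔟
    hrP₁ hr₁𝔟 hαP₁ hα𝔟 hsP₁ hs𝔟₁ hindq₁ A B₁ hAB₁
  have hloc₂ := h3cr_local p hSI hRam hCC hCN hNS K L hp hp2 ζ α β hζ hβ hgen hα0 r₂ hr₂ hpr₂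
    ind₂ rho₂ hmul₂ hcongr₂ hzero₂ hnat₂ hdvd₂ hsym₂ hαr₂ x₂ hγ₂ P₂ 𝔟' hP₂ h𝔟 hpP₂ hp𝔟
    hrP₂ hr₂𝔟 hαP₂ hα𝔟 hsP₂ hs𝔟₂ hindq₂ A B₂ hAB₂
  -- combine
  have hAp : ¬ p ∣ A := by
    intro hd
    have h0 : A = 0 := Nat.eq_zero_of_dvd_of_lt hd (ZMod.val_lt w)
    exact hw ((ZMod.val_eq_zero w).mp h0)
  have hB : (B₁ : ZMod p) = (a : ZMod p) * (B₂ : ZMod p) := by
    rw [hB₁, hB₂, ZMod.natCast_zmod_val, ZMod.natCast_zmod_val, hrel]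
    ring
  exact h3a_combine 𝒩 hp hpow hAp hloc₁ hloc₂ hB

end H3CR
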