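/-
T-CFT module CR (helper3): INTERFACE of the assembly slices J1, J3, J4 (exact statements).
Owners prove `theorem h<seat>_<name> … : H3CR.<Name> …` in their own files.
-/
import Mathlib
import Fermat.Agent.CFT.Defs
import Fermat.Agent.CFT.CR.Sym
import Fermat.Agent.CFT.CR.Interface

set_option autoImplicit false

namespace H3CR

open NumberField H14CFT
open scoped nonZeroDivisors

/-- **(J1) trivial Frobenius ⇒ complete splitting.**  If `L/K` is Galois and unramified and the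
Frobenius at `Q ∣ P` is trivial (`x ^ N(P) ≡ x mod Q` for all `x ∈ 𝓞 L`), then `P` splits
completely: the residue field of `Q` has at most `N(P)` elements, so the decomposition group
acts trivially on it, so it is contained in the inertia group, which is trivial; conclude with
`H3CR.ncard_primesOver_mul_card_stabilizer` (`CR/Split.lean`). -/
def FrobOneSplit : Prop :=
  ∀ (K L : Type) [Field K] [NumberField K] [Field L] [NumberField L] [Algebra K L] [IsGalois K L],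
    UnramifiedEverywhere K L →
    ∀ (P : Ideal (𝓞 K)) (Q : Ideal (𝓞 L)), P.IsPrime → P ≠ ⊥ → Q.IsPrime →
      Q.under (𝓞 K) = P → IsArithFrobAt (𝓞 K) (1 : L ≃ₐ[K] L) Q → SplitsCompletely K L P

/-- **(J3) auxiliary primes.**  For primes `p ≠ 2`, `q` and `D ≠ 0` there is a prime
`r ≡ 1 mod p`, `r ∤ D`, such that `q` is not a `p`-th power residue mod `r`.
(Apply `KummerCheb p` to `K = CyclotomicField p ℚ`, `γ₁ = γ₂ = 1`, `α = q`: the prime `𝔟` has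
prime norm `r`, `p ∣ r - 1` by `GoodPrime.dvd_card_sub_one`, and `sym(q, 𝔟) ≠ 0`.  Independence:
`q` is not a `p`-th power in `K` since `N_{K/ℚ}(q) = q^{p-1}` and `p ∤ p - 1`.) -/
def AuxPrime (p : ℕ) : Prop :=
  NonSplitPrimeExists → KummerCheb p →
  ∀ (q D : ℕ), p.Prime → p ≠ 2 → q.Prime → D ≠ 0 →
    ∃ r : ℕ, r.Prime ∧ p ∣ r - 1 ∧ ¬ r ∣ D ∧ ¬ (q ^ ((r - 1) / p) ≡ 1 [MOD r])

/-- **(J4) independence by valuations.**  `K = ℚ(ζ_p)`, `r₁ ≠ r₂` primes `≠ p` (hence unramified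
in `K`), `r_i ∣ ρ_i ∣ r_i^{p-1}`, `α` prime to `r₁ r₂` and not a `p`-th power in `K`.  Then
`γ₁ = α^{x₁} ρ₁` is not a `p`-th power, and `α` is independent of `γ₁, γ₂` modulo `p`-th powers.
(Valuation at a prime `𝔯₁ ∣ r₁`: `v(ρ₁) ∈ [1, p-1]`, `v(ρ₂) = v(α) = 0`.) -/
def ValIndep (p : ℕ) : Prop :=
  ∀ (K : Type) [Field K] [NumberField K] [IsCyclotomicExtension {p} ℚ K]
    (α ρ₁ ρ₂ : 𝓞 K) (r₁ r₂ x₁ x₂ : ℕ),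
    p.Prime → r₁.Prime → r₂.Prime → r₁ ≠ r₂ → r₁ ≠ p → r₂ ≠ p →
    (r₁ : 𝓞 K) ∣ ρ₁ → ρ₁ ∣ (r₁ : 𝓞 K) ^ (p - 1) →
    (r₂ : 𝓞 K) ∣ ρ₂ → ρ₂ ∣ (r₂ : 𝓞 K) ^ (p - 1) →
    (∀ 𝔯 : Ideal (𝓞 K), 𝔯.IsPrime → (r₁ : 𝓞 K) ∈ 𝔯 → α ∉ 𝔯) →
    (∀ 𝔯 : Ideal (𝓞 K), 𝔯.IsPrime → (r₂ : 𝓞 K) ∈ 𝔯 → α ∉ 𝔯) →
    (∀ c : K, c ^ p ≠ (α : K)) →
    (∀ c : K, c ^ p ≠ ((α ^ x₁ * ρ₁ : 𝓞 K) : K)) ∧
    (∀ (a b : ℕ) (c : K),
      (α : K) ≠ ((α ^ x₁ * ρ₁ : 𝓞 K) : K) ^ a * ((α ^ x₂ * ρ₂ : 𝓞 K) : K) ^ b * c ^ p)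

/-- **(J5) Frobenius relation ⇒ symbol relation.**  From `FrobLink` (`h3cr_frobLink`):
`σ_i β = ζ^{u_i} β` with `u_i = sym(α, P_i)`; `σ₁ = σ₂ ^ a` gives `u₁ = a u₂`, and `σ_i ≠ 1` gives
`u_i ≠ 0` (else `σ_i β = β`, `H3CR.eq_one_of_apply_eq`). -/
def FrobSym (p : ℕ) : Prop :=
  ∀ (K L : Type) [Field K] [NumberField K] [Field L] [NumberField L] [Algebra K L] [IsGalois K L]
    (ζ α : 𝓞 K) (β : 𝓞 L) (P₁ P₂ : Ideal (𝓞 K)) (Q₁ Q₂ : Ideal (𝓞 L)) (σ₁ σ₂ : L ≃ₐ[K] L) (a : ℕ),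
    GoodPrime p ζ P₁ → GoodPrime p ζ P₂ → α ∉ P₁ → α ∉ P₂ →
    β ^ p = algebraMap (𝓞 K) (𝓞 L) α → IntermediateField.adjoin K {(β : L)} = ⊤ →
    Q₁.IsPrime → Q₂.IsPrime → Q₁.under (𝓞 K) = P₁ → Q₂.under (𝓞 K) = P₂ →
    IsArithFrobAt (𝓞 K) σ₁ Q₁ → IsArithFrobAt (𝓞 K) σ₂ Q₂ →
    σ₁ = σ₂ ^ a → σ₁ ≠ 1 → σ₂ ≠ 1 →
    sym p ζ α P₁ = (a : ZMod p) * sym p ζ α P₂ ∧ sym p ζ α P₁ ≠ 0 ∧ sym p ζ α P₂ ≠ 0

/-- **(J8) the norm of the split-prime subgroup lands in the norm classes.**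
`K ⊂ L = K(β)`, `β^p = α`; `K ⊂ E ⊂ M ∋ β'`, `β'^p = α`, `M/E` Galois; `ν` the class norm
`Cl(E) → Cl(K)` (package H).  A prime `𝔔` of `E` outside `D` (so `𝔔 ∤ pα`) which splits completely
in `M` has `sym_E(α, 𝔔) = 0` (`h3cr_splitEasy`), `= f · sym_K(α, 𝔮)` (`h3cr_symTower`, `𝔮 = 𝔔 ∩ K`,
`N𝔔 = N𝔮^f`: `H25SP.h25sp_absNorm_eq_pow`), and `relNorm 𝔔 = 𝔮^f`
(`Ideal.relNorm_eq_pow_of_isMaximal`).  If `p ∣ f` then `[𝔮]^f` is a `p`-th power; otherwise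
`sym_K(α, 𝔮) = 0` and `𝔮` splits completely in `L` (`h3cr_splitHard`). -/
def NormSplit (p : ℕ) : Prop :=
  ∀ (K L E M : Type) [Field K] [NumberField K] [Field L] [NumberField L] [Algebra K L]
    [IsGalois K L] [Field E] [NumberField E] [Algebra K E] [Field M] [NumberField M]
    [Algebra E M] [IsGalois E M]
    (ζ α : 𝓞 K) (β : 𝓞 L) (β' : 𝓞 M) (D : ℕ) (ν : ClassGroup (𝓞 E) →* ClassGroup (𝓞 K)),
    p.Prime → IsPrimitiveRoot ζ p →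
    β ^ p = algebraMap (𝓞 K) (𝓞 L) α → IntermediateField.adjoin K {(β : L)} = ⊤ →
    β' ^ p = algebraMap (𝓞 E) (𝓞 M) (algebraMap (𝓞 K) (𝓞 E) α) →
    (∀ (𝔄 : (Ideal (𝓞 E))⁰) (𝔞 : (Ideal (𝓞 K))⁰), Ideal.relNorm (𝓞 K) 𝔄.1 = 𝔞.1 →
      ν (ClassGroup.mk0 𝔄) = ClassGroup.mk0 𝔞) →
    (∀ 𝔔 : Ideal (𝓞 E), 𝔔.IsPrime → ¬ (Ideal.absNorm 𝔔 ∣ D) →
      (p : 𝓞 E) ∉ 𝔔 ∧ algebraMap (𝓞 K) (𝓞 E) α ∉ 𝔔) →
    ∀ c ∈ Subgroup.closure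
        {c | ∃ 𝔔 : (Ideal (𝓞 E))⁰, 𝔔.1.IsPrime ∧ ¬ (Ideal.absNorm 𝔔.1 ∣ D) ∧
          SplitsCompletely E M 𝔔.1 ∧ c = ClassGroup.mk0 𝔔},
      ν c ∈ normClasses K L p

end H3CR
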