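import Fermat.Agent.CFT.Main
import Fermat.Agent.CFT.CR.AsmInterface

/-!
# T-CFT CR, slice J1 (helper14): trivial Frobenius ⇒ complete splitting

Direct consequence of `H14CFT.h14_splits_of_frob_one` (module MAIN).
-/

set_option autoImplicit false

namespace H14CFT

open NumberField

theorem h14_frobOneSplit : H3CR.FrobOneSplit := by
  intro K L _ _ _ _ _ _ hunr P Q hP hP0 hQ hQP hfrob
  haveI := hQ
  have hQ0 : Q ≠ ⊥ := by
    intro h
    apply hP0
    rw [← hQP, h]
    exact Ideal.under_bot _ _
  have := h14_splits_of_frob_one hunr Q hQ0 hfrob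
  rwa [hQP] at this

end H14CFT
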