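/-
T-CFT module CR, package F (helper18): total ramification ⇒ norms are `p`-th powers mod `r`.
-/
import Mathlib
import Fermat.Agent.CFT.CR.Interface

set_option autoImplicit false
set_option linter.unusedSectionVars false
set_option linter.unusedVariables false

namespace H18CR

open NumberField H14CFT IsDedekindDomain
open scoped Pointwise nonZeroDivisors

section Valuation

variable {A B : Type} [CommRing A] [IsDedekindDomain A] [CommRing B] [IsDedekindDomain B]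
  [Algebra A B] [Module.IsTorsionFree A B]

/-- If `δ ^ p = γ` and `v(γ) = s` with `0 < s < p`, then `p ∣ e(w/v)`. -/
theorem h18cr_dvd_ramificationIdx' (v : HeightOneSpectrum A) (w : HeightOneSpectrum B)
    [w.asIdeal.LiesOver v.asIdeal] (p : ℕ) (hp : p.Prime) (γ : A) (δ : B)
    (hδ : δ ^ p = algebraMap A B γ) (s : ℕ) (hs1 : 1 ≤ s) (hsp : s < p)
    (hv : v.intValuation γ = WithZero.exp (-(s : ℤ))) :
    p ∣ v.asIdeal.ramificationIdx' w.asIdeal := by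
  have h := HeightOneSpectrum.intValuation_liesOver v w γ
  rw [← hδ, map_pow, hv] at h
  have h2 := congrArg WithZero.log h
  rw [WithZero.log_pow, WithZero.log_pow, WithZero.log_exp] at h2
  simp only [nsmul_eq_mul] at h2
  -- e * (-s) = p * log (w δ)
  have h3 : (p : ℤ) ∣ (v.asIdeal.ramificationIdx' w.asIdeal : ℤ) * (s : ℤ) := by
    refine ⟨-(w.intValuation δ).log, ?_⟩
    linarith
  have h4 : (p : ℤ) ∣ (v.asIdeal.ramificationIdx' w.asIdeal : ℤ) := by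
    have hcop : IsCoprime (p : ℤ) (s : ℤ) := by
      rw [Int.isCoprime_iff_gcd_eq_one, Int.gcd_natCast_natCast]
      exact (Nat.Prime.coprime_iff_not_dvd hp).mpr (Nat.not_dvd_of_pos_of_lt hs1 hsp)
    exact hcop.dvd_of_dvd_mul_right h3
  exact_mod_cast h4

/-- The valuation of `a ρ` when `r ∣ ρ ∣ r ^ (p-1)`, `v(r) = 1`, `v(a) = 0`. -/
theorem h18cr_intValuation_mul (v : HeightOneSpectrum A) (p : ℕ) (hp : 2 ≤ p) (a ρ r : A)
    (hr : v.intValuation r = WithZero.exp (-1 : ℤ)) (h1 : r ∣ ρ) (h2 : ρ ∣ r ^ (p - 1))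
    (ha : a ∉ v.asIdeal) :
    ∃ s : ℕ, 1 ≤ s ∧ s < p ∧ v.intValuation (a * ρ) = WithZero.exp (-(s : ℤ)) := by
  have hr0 : r ≠ 0 := by
    rintro rfl
    rw [map_zero] at hr
    exact WithZero.exp_ne_zero hr.symm
  have hρ0 : ρ ≠ 0 := by
    rintro rfl
    exact pow_ne_zero _ hr0 (zero_dvd_iff.mp h2)
  have hva : v.intValuation a = 1 := HeightOneSpectrum.intValuation_eq_one_iff.mpr ha
  have hvρ0 : v.intValuation ρ ≠ 0 := v.intValuation_ne_zero ρ hρ0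
  have hle : v.intValuation ρ ≤ WithZero.exp (-1 : ℤ) := by
    obtain ⟨u, rfl⟩ := h1
    rw [map_mul, hr]
    exact mul_le_of_le_one_right' (v.intValuation_le_one u)
  have hge : WithZero.exp (-((p - 1 : ℕ) : ℤ)) ≤ v.intValuation ρ := by
    obtain ⟨u, hu⟩ := h2
    have h3 := congrArg v.intValuation hu
    rw [map_pow, hr, map_mul, ← WithZero.exp_nsmul] at h3
    have h4 : ((p - 1) • (-1 : ℤ)) = -((p - 1 : ℕ) : ℤ) := by simp
    rw [h4] at h3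
    rw [h3]
    exact mul_le_of_le_one_right' (v.intValuation_le_one u)
  have hlog1 : (v.intValuation ρ).log ≤ -1 := by
    have := (WithZero.log_le_log hvρ0 (WithZero.exp_ne_zero)).mpr hle
    rwa [WithZero.log_exp] at this
  have hlog2 : -((p - 1 : ℕ) : ℤ) ≤ (v.intValuation ρ).log := by
    have := (WithZero.log_le_log (WithZero.exp_ne_zero) hvρ0).mpr hge
    rwa [WithZero.log_exp] at this
  refine ⟨(-(v.intValuation ρ).log).toNat, ?_, ?_, ?_⟩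
  · omega
  · have : ((p - 1 : ℕ) : ℤ) = (p : ℤ) - 1 := by
      rw [Nat.cast_sub (by omega)]; simp
    omega
  · rw [map_mul, hva, one_mul]
    have h5 : ((-(v.intValuation ρ).log).toNat : ℤ) = -(v.intValuation ρ).log :=
      Int.toNat_of_nonneg (by omega)
    rw [h5, neg_neg, WithZero.exp_log hvρ0]

end Valuation

section Cyclotomic

variable (p r : ℕ) (K : Type) [Field K] [NumberField K] [IsCyclotomicExtension {p} ℚ K]

/-- A prime of `𝓞 K` containing the rational prime `r` lies over `(r)`. -/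
theorem h18cr_liesOver_span {F : Type} [Field F] [NumberField F] (hr : r.Prime)
    (P : Ideal (𝓞 F)) [P.IsPrime] (hrP : (r : 𝓞 F) ∈ P) :
    P.LiesOver (Ideal.span {(r : ℤ)}) := by
  constructor
  have hprime : (Ideal.span {(r : ℤ)}).IsMaximal :=
    PrincipalIdealRing.isMaximal_of_irreducible
      (Nat.prime_iff_prime_int.mp hr).irreducible
  have hle : Ideal.span {(r : ℤ)} ≤ P.under ℤ := by
    rw [Ideal.span_singleton_le_iff_mem, Ideal.under, Ideal.mem_comap]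
    simpa using hrP
  have hne : P.under ℤ ≠ ⊤ := by
    have : (P.under ℤ).IsPrime := inferInstance
    exact this.ne_top
  exact hprime.eq_of_le hne hle

theorem h18cr_intValuation_natCast (hp : p.Prime) (hr : r.Prime) (hrp : r ≠ p)
    (v : HeightOneSpectrum (𝓞 K)) (hrv : (r : 𝓞 K) ∈ v.asIdeal) :
    v.intValuation (r : 𝓞 K) = WithZero.exp (-1 : ℤ) := by
  have : Fact r.Prime := ⟨hr⟩
  have : NeZero p := ⟨hp.ne_zero⟩
  have hlo : v.asIdeal.LiesOver (Ideal.span {(r : ℤ)}) := h18cr_liesOver_span r hr v.asIdeal hrv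
  have hr0 : (Ideal.span {(r : ℤ)}) ≠ ⊥ := by
    rw [Ne, Ideal.span_singleton_eq_bot]
    exact_mod_cast hr.ne_zero
  have hprime : (Ideal.span {(r : ℤ)}).IsPrime :=
    (Ideal.span_singleton_prime (by exact_mod_cast hr.ne_zero)).mpr (Nat.prime_iff_prime_int.mp hr)
  let vZ : HeightOneSpectrum ℤ := ⟨Ideal.span {(r : ℤ)}, hprime, hr0⟩
  have : v.asIdeal.LiesOver vZ.asIdeal := hlo
  have h := HeightOneSpectrum.intValuation_liesOver vZ v (r : ℤ)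
  have h1 : vZ.intValuation (r : ℤ) = WithZero.exp (-1 : ℤ) :=
    vZ.intValuation_singleton (by exact_mod_cast hr.ne_zero) rfl
  have h2 : vZ.asIdeal.ramificationIdx' v.asIdeal = 1 := by
    rw [Ideal.ramificationIdx'_eq_ramificationIdx (Ideal.span {(r : ℤ)}) v.asIdeal hr0]
    exact IsCyclotomicExtension.Rat.ramificationIdx_eq_of_not_dvd r K v.asIdeal
      (fun hdvd => hrp ((Nat.prime_dvd_prime_iff_eq hr hp).mp hdvd))
  rw [h1, h2, pow_one] at h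
  rw [h]
  simp

theorem h18cr_inertiaDeg_cyclotomic (hp : p.Prime) (hr : r.Prime) (hpr : p ∣ r - 1)
    (P : Ideal (𝓞 K)) [P.IsPrime] (hrP : (r : 𝓞 K) ∈ P) :
    P.inertiaDeg ℤ = 1 := by
  have : Fact r.Prime := ⟨hr⟩
  have : NeZero p := ⟨hp.ne_zero⟩
  have hlo : P.LiesOver (Ideal.span {(r : ℤ)}) := h18cr_liesOver_span r hr P hrP
  have hrp : ¬ r ∣ p := by
    intro hdvd
    have heq := (Nat.prime_dvd_prime_iff_eq hr hp).mp hdvd
    have hle := Nat.le_of_dvd (Nat.sub_pos_of_lt hr.one_lt) hpr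
    have h1 := hr.one_lt
    omega
  rw [IsCyclotomicExtension.Rat.inertiaDeg_eq_of_not_dvd r K P hrp, orderOf_eq_one_iff]
  have h1 : r = (r - 1) + 1 := by have := hr.one_lt; omega
  rw [h1, Nat.cast_add, (ZMod.natCast_eq_zero_iff _ _).mpr hpr]
  simp

end Cyclotomic

section TotallyRamified

variable (p r : ℕ) (K E : Type) [Field K] [NumberField K] [Field E] [NumberField E] [Algebra K E]
  [IsGalois K E] [IsCyclotomicExtension {p} ℚ K]

/-- Every prime `ℜ` of `𝓞 E` over `r` is fixed by `Gal(E/K)` and has residue field `𝔽_r`. -/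
theorem h18cr_totally_ramified (hp : p.Prime) (hr : r.Prime) (hpr : p ∣ r - 1)
    (hdeg : Module.finrank K E = p) (a ρ : 𝓞 K) (δ : 𝓞 E)
    (hδ : δ ^ p = algebraMap (𝓞 K) (𝓞 E) (a * ρ))
    (h1 : (r : 𝓞 K) ∣ ρ) (h2 : ρ ∣ (r : 𝓞 K) ^ (p - 1))
    (ha : ∀ 𝔯 : Ideal (𝓞 K), 𝔯.IsPrime → (r : 𝓞 K) ∈ 𝔯 → a ∉ 𝔯)
    (ℜ : Ideal (𝓞 E)) [hℜ : ℜ.IsPrime] (hrℜ : (r : 𝓞 E) ∈ ℜ) :
    (∀ σ : E ≃ₐ[K] E, σ • ℜ = ℜ) ∧ Ideal.absNorm ℜ = r := by
  have hrp : r ≠ p := by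
    intro heq
    have hle := Nat.le_of_dvd (Nat.sub_pos_of_lt hr.one_lt) hpr
    have := hr.one_lt
    omega
  -- the prime below
  set 𝔯 : Ideal (𝓞 K) := ℜ.under (𝓞 K) with h𝔯
  have h𝔯prime : 𝔯.IsPrime := inferInstance
  have hr𝔯 : (r : 𝓞 K) ∈ 𝔯 := by
    rw [h𝔯, Ideal.under, Ideal.mem_comap]
    simpa using hrℜ
  have hrK0 : (r : 𝓞 K) ≠ 0 := by exact_mod_cast hr.ne_zero
  have h𝔯0 : 𝔯 ≠ ⊥ := fun h => hrK0 (by rw [h] at hr𝔯; exact hr𝔯)
  have hrE0 : (r : 𝓞 E) ≠ 0 := by exact_mod_cast hr.ne_zero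
  have hℜ0 : ℜ ≠ ⊥ := fun h => hrE0 (by rw [h] at hrℜ; exact hrℜ)
  have hlo : ℜ.LiesOver 𝔯 := ⟨rfl⟩
  let v : HeightOneSpectrum (𝓞 K) := ⟨𝔯, h𝔯prime, h𝔯0⟩
  let w : HeightOneSpectrum (𝓞 E) := ⟨ℜ, hℜ, hℜ0⟩
  have hlo' : w.asIdeal.LiesOver v.asIdeal := hlo
  have hvr : v.intValuation (r : 𝓞 K) = WithZero.exp (-1 : ℤ) :=
    h18cr_intValuation_natCast p r K hp hr hrp v hr𝔯
  obtain ⟨s, hs1, hsp, hvs⟩ :=
    h18cr_intValuation_mul v p hp.two_le a ρ (r : 𝓞 K) hvr h1 h2 (ha 𝔯 h𝔯prime hr𝔯)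
  have hdiv : p ∣ 𝔯.ramificationIdx' ℜ :=
    h18cr_dvd_ramificationIdx' v w p hp (a * ρ) δ hδ s hs1 hsp hvs
  rw [Ideal.ramificationIdx'_eq_ramificationIdx 𝔯 ℜ h𝔯0] at hdiv
  -- the fundamental identity
  have hfund := Ideal.ncard_primesOver_mul_ramificationIdxIn_mul_inertiaDegIn 𝔯 (𝓞 E) (E ≃ₐ[K] E)
  rw [Ideal.ramificationIdxIn_eq_ramificationIdx 𝔯 ℜ (E ≃ₐ[K] E),
    Ideal.inertiaDegIn_eq_inertiaDeg 𝔯 ℜ (E ≃ₐ[K] E), IsGalois.card_aut_eq_finrank, hdeg] at hfund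
  obtain ⟨e₁, he₁⟩ := hdiv
  rw [he₁] at hfund
  have hp0 : 0 < p := hp.pos
  have hprod : (𝔯.primesOver (𝓞 E)).ncard * (e₁ * ℜ.inertiaDeg (𝓞 K)) = 1 := by
    have : p * ((𝔯.primesOver (𝓞 E)).ncard * (e₁ * ℜ.inertiaDeg (𝓞 K))) = p * 1 := by
      rw [mul_one]
      calc p * ((𝔯.primesOver (𝓞 E)).ncard * (e₁ * ℜ.inertiaDeg (𝓞 K)))
          = (𝔯.primesOver (𝓞 E)).ncard * (p * e₁ * ℜ.inertiaDeg (𝓞 K)) := by ring
        _ = p := hfund
    exact Nat.eq_of_mul_eq_mul_left hp0 this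
  have hg : (𝔯.primesOver (𝓞 E)).ncard = 1 := Nat.eq_one_of_mul_eq_one_right hprod
  have hf : ℜ.inertiaDeg (𝓞 K) = 1 := by
    have := Nat.eq_one_of_mul_eq_one_left hprod
    exact Nat.eq_one_of_mul_eq_one_left this
  refine ⟨fun σ => ?_, ?_⟩
  · obtain ⟨P₀, hP₀⟩ := Set.ncard_eq_one.mp hg
    have hmem1 : ℜ ∈ 𝔯.primesOver (𝓞 E) := ⟨hℜ, hlo⟩
    have hmem2 : σ • ℜ ∈ 𝔯.primesOver (𝓞 E) := ⟨inferInstance, inferInstance⟩
    rw [hP₀, Set.mem_singleton_iff] at hmem1 hmem2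
    exact hmem2.trans hmem1.symm
  · have hloZ : ℜ.LiesOver (Ideal.span {(r : ℤ)}) := h18cr_liesOver_span r hr ℜ hrℜ
    have hfZ : ℜ.inertiaDeg ℤ = 1 := by
      rw [Ideal.inertiaDeg_tower 𝔯 ℜ, hf, mul_one]
      exact h18cr_inertiaDeg_cyclotomic p r K hp hr hpr 𝔯 hr𝔯
    have hmaxZ : (Ideal.span {(r : ℤ)}).IsMaximal :=
      PrincipalIdealRing.isMaximal_of_irreducible (Nat.prime_iff_prime_int.mp hr).irreducible
    have hmaxℜ : ℜ.IsMaximal := Ring.DimensionLEOne.maximalOfPrime hℜ0 hℜ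
    rw [Ideal.absNorm_eq_pow_inertiaDeg ℜ (Nat.prime_iff_prime_int.mp hr),
      Ideal.inertiaDeg'_eq_inertiaDeg (Ideal.span {(r : ℤ)}) ℜ, hfZ, pow_one, Int.natAbs_natCast]

end TotallyRamified

section Residue

/-- If `N(P) = r` is prime, every element is congruent to a rational integer mod `P`. -/
theorem h18cr_exists_int_sub_mem {F : Type} [Field F] [NumberField F] (r : ℕ) (hr : r.Prime)
    (P : Ideal (𝓞 F)) (hP : Ideal.absNorm P = r) (x : 𝓞 F) :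
    ∃ c : ℤ, x - (c : 𝓞 F) ∈ P := by
  have : Fact r.Prime := ⟨hr⟩
  have hcard : Nat.card (𝓞 F ⧸ P) = r := by
    rw [← hP, Ideal.absNorm_apply, Submodule.cardQuot_apply]
  have hne : (1 : 𝓞 F ⧸ P) ≠ 0 := by
    intro h
    have hsub : Subsingleton (𝓞 F ⧸ P) :=
      ⟨fun a b => by rw [← mul_one a, ← mul_one b, h, mul_zero, mul_zero]⟩
    have := Nat.card_eq_one_iff_unique.mpr ⟨hsub, ⟨0⟩⟩
    rw [hcard] at this
    exact hr.one_lt.ne' this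
  have htop := zmultiples_eq_top_of_prime_card hcard hne
  have hmem : Ideal.Quotient.mk P x ∈ AddSubgroup.zmultiples (1 : 𝓞 F ⧸ P) := by
    rw [htop]
    exact AddSubgroup.mem_top _
  obtain ⟨c, hc⟩ := AddSubgroup.mem_zmultiples_iff.mp hmem
  refine ⟨c, ?_⟩
  rw [← Ideal.Quotient.eq, ← hc, map_intCast]
  simp

end Residue

section Norms

variable (p r : ℕ) (K E : Type) [Field K] [NumberField K] [Field E] [NumberField E] [Algebra K E]
  [IsGalois K E] [IsCyclotomicExtension {p} ℚ K]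

/-- The relative norm of `x` is a `p`-th power modulo every prime of `𝓞 K` over `r`. -/
theorem h18cr_relnorm_congr (hp : p.Prime) (hr : r.Prime) (hpr : p ∣ r - 1)
    (hdeg : Module.finrank K E = p) (a ρ : 𝓞 K) (δ : 𝓞 E)
    (hδ : δ ^ p = algebraMap (𝓞 K) (𝓞 E) (a * ρ))
    (h1 : (r : 𝓞 K) ∣ ρ) (h2 : ρ ∣ (r : 𝓞 K) ^ (p - 1))
    (ha : ∀ 𝔯 : Ideal (𝓞 K), 𝔯.IsPrime → (r : 𝓞 K) ∈ 𝔯 → a ∉ 𝔯)
    (x : 𝓞 E) (𝔯 : Ideal (𝓞 K)) [h𝔯 : 𝔯.IsPrime] (hr𝔯 : (r : 𝓞 K) ∈ 𝔯) :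
    ∃ c : ℤ, RingOfIntegers.norm K x - (c : 𝓞 K) ^ p ∈ 𝔯 := by
  obtain ⟨⟨ℜ, hℜ, hlo⟩⟩ := Ideal.nonempty_primesOver (S := 𝓞 E) 𝔯
  have hunder : 𝔯 = ℜ.under (𝓞 K) := hlo.over
  have hrℜ : (r : 𝓞 E) ∈ ℜ := by
    have : (r : 𝓞 K) ∈ ℜ.under (𝓞 K) := hunder ▸ hr𝔯
    rw [Ideal.under, Ideal.mem_comap] at this
    simpa using this
  obtain ⟨hfix, hnorm⟩ := h18cr_totally_ramified p r K E hp hr hpr hdeg a ρ δ hδ h1 h2 ha ℜ hrℜ
  obtain ⟨c, hc⟩ := h18cr_exists_int_sub_mem r hr ℜ hnorm x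
  refine ⟨c, ?_⟩
  -- each conjugate is congruent to `c`
  have hconj : ∀ σ : E ≃ₐ[K] E, Ideal.Quotient.mk ℜ (σ • x) = Ideal.Quotient.mk ℜ (c : 𝓞 E) := by
    intro σ
    rw [Ideal.Quotient.eq]
    have h3 : σ • (x - (c : 𝓞 E)) ∈ σ • ℜ := Ideal.smul_mem_pointwise_smul_iff.mpr hc
    rw [hfix σ, smul_sub] at h3
    have h4 : σ • (c : 𝓞 E) = (c : 𝓞 E) :=
      map_intCast (MulSemiringAction.toRingHom (E ≃ₐ[K] E) (𝓞 E) σ) c
    rwa [h4] at h3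
  have hprod : algebraMap (𝓞 K) (𝓞 E) (RingOfIntegers.norm K x) = ∏ σ : E ≃ₐ[K] E, σ • x := by
    apply RingOfIntegers.ext
    rw [RingOfIntegers.coe_algebraMap_norm, Algebra.norm_eq_prod_automorphisms]
    simp only [map_prod]
    rfl
  have hcardG : Fintype.card (E ≃ₐ[K] E) = p := by
    rw [← Nat.card_eq_fintype_card, IsGalois.card_aut_eq_finrank, hdeg]
  have hmem : algebraMap (𝓞 K) (𝓞 E) (RingOfIntegers.norm K x - (c : 𝓞 K) ^ p) ∈ ℜ := by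
    rw [map_sub, map_pow, map_intCast, ← Ideal.Quotient.eq, hprod, map_prod]
    simp only [hconj, Finset.prod_const, Finset.card_univ, hcardG, map_pow]
  rw [hunder]
  exact hmem

/-- The absolute norm of `x` is a `p`-th power modulo `r`. -/
theorem h18cr_norm_congr (hp : p.Prime) (hr : r.Prime) (hpr : p ∣ r - 1)
    (hdeg : Module.finrank K E = p) (a ρ : 𝓞 K) (δ : 𝓞 E)
    (hδ : δ ^ p = algebraMap (𝓞 K) (𝓞 E) (a * ρ))
    (h1 : (r : 𝓞 K) ∣ ρ) (h2 : ρ ∣ (r : 𝓞 K) ^ (p - 1))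
    (ha : ∀ 𝔯 : Ideal (𝓞 K), 𝔯.IsPrime → (r : 𝓞 K) ∈ 𝔯 → a ∉ 𝔯)
    (x : 𝓞 E) :
    ∃ C : ℤ, (r : ℤ) ∣ Algebra.norm ℤ x - C ^ p := by
  have : NeZero p := ⟨hp.ne_zero⟩
  have hgal : IsGalois ℚ K := IsCyclotomicExtension.isGalois {p} ℚ K
  set y : 𝓞 K := RingOfIntegers.norm K x with hy
  have hnorm : Algebra.norm ℤ x = Algebra.norm ℤ y := by
    have h : ((Algebra.norm ℤ x : ℤ) : ℚ) = ((Algebra.norm ℤ y : ℤ) : ℚ) := by
      rw [Algebra.coe_norm_int, Algebra.coe_norm_int, hy, RingOfIntegers.coe_norm,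
        Algebra.norm_norm]
    exact_mod_cast h
  have hr0 : (Ideal.span {(r : ℤ)}) ≠ ⊥ := by
    rw [Ne, Ideal.span_singleton_eq_bot]
    exact_mod_cast hr.ne_zero
  have hprimeZ : (Ideal.span {(r : ℤ)}).IsPrime :=
    (Ideal.span_singleton_prime (by exact_mod_cast hr.ne_zero)).mpr (Nat.prime_iff_prime_int.mp hr)
  obtain ⟨⟨𝔯₀, h𝔯₀, hlo⟩⟩ := Ideal.nonempty_primesOver (S := 𝓞 K) (Ideal.span {(r : ℤ)})
  have hr𝔯₀ : (r : 𝓞 K) ∈ 𝔯₀ := by
    have h : (r : ℤ) ∈ 𝔯₀.under ℤ := by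
      rw [← hlo.over]
      exact Ideal.mem_span_singleton_self _
    rw [Ideal.under, Ideal.mem_comap] at h
    simpa using h
  have key : ∀ τ : K ≃ₐ[ℚ] K, ∃ c : ℤ, τ • y - (c : 𝓞 K) ^ p ∈ 𝔯₀ := by
    intro τ
    have hprime' : (τ⁻¹ • 𝔯₀).IsPrime := inferInstance
    have hmem' : (r : 𝓞 K) ∈ τ⁻¹ • 𝔯₀ := by
      have h : τ⁻¹ • (r : 𝓞 K) ∈ τ⁻¹ • 𝔯₀ := Ideal.smul_mem_pointwise_smul_iff.mpr hr𝔯₀
      have h4 : τ⁻¹ • (r : 𝓞 K) = (r : 𝓞 K) :=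
        map_natCast (MulSemiringAction.toRingHom (K ≃ₐ[ℚ] K) (𝓞 K) τ⁻¹) r
      rwa [h4] at h
    obtain ⟨c, hc⟩ :=
      h18cr_relnorm_congr p r K E hp hr hpr hdeg a ρ δ hδ h1 h2 ha x (τ⁻¹ • 𝔯₀) hmem'
    refine ⟨c, ?_⟩
    have h : τ • (y - (c : 𝓞 K) ^ p) ∈ τ • (τ⁻¹ • 𝔯₀) :=
      Ideal.smul_mem_pointwise_smul_iff.mpr hc
    rw [smul_inv_smul, smul_sub] at h
    have h4 : τ • ((c : 𝓞 K) ^ p) = (c : 𝓞 K) ^ p := by
      have := map_pow (MulSemiringAction.toRingHom (K ≃ₐ[ℚ] K) (𝓞 K) τ) (c : 𝓞 K) p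
      rw [map_intCast] at this
      exact this
    rwa [h4] at h
  choose c hc using key
  refine ⟨∏ τ : K ≃ₐ[ℚ] K, c τ, ?_⟩
  have hprod : ((Algebra.norm ℤ y : ℤ) : 𝓞 K) = ∏ τ : K ≃ₐ[ℚ] K, τ • y := by
    apply RingOfIntegers.ext
    have h5 : (((Algebra.norm ℤ y : ℤ) : 𝓞 K) : K) = algebraMap ℚ K (Algebra.norm ℚ (y : K)) := by
      rw [← Algebra.coe_norm_int]
      simp
    rw [h5, Algebra.norm_eq_prod_automorphisms]
    simp only [map_prod]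
    rfl
  have hmem : ((Algebra.norm ℤ y - (∏ τ : K ≃ₐ[ℚ] K, c τ) ^ p : ℤ) : 𝓞 K) ∈ 𝔯₀ := by
    rw [Int.cast_sub, hprod, ← Ideal.Quotient.eq]
    simp only [Int.cast_pow, Int.cast_prod, map_prod, map_pow]
    rw [← Finset.prod_pow]
    refine Finset.prod_congr rfl (fun τ _ => ?_)
    have := Ideal.Quotient.eq.mpr (hc τ)
    simpa using this
  have hmem2 : (Algebra.norm ℤ y - (∏ τ : K ≃ₐ[ℚ] K, c τ) ^ p) ∈ 𝔯₀.under ℤ := by
    rw [Ideal.under, Ideal.mem_comap]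
    simpa using hmem
  rw [← hlo.over, Ideal.mem_span_singleton] at hmem2
  rw [hnorm]
  exact hmem2

end Norms

section Final

/-- **Package (F)**: total ramification ⇒ norms are `p`-th powers mod `r`. -/
theorem h18cr_ramNorm (p : ℕ) : H3CR.RamNorm p := by
  intro K E _ _ _ _ _ _ _ a ρ δ r hp hp2 hr hpr hdeg hδ h1 h2 ha x hcop
  obtain ⟨C, hC⟩ := h18cr_norm_congr p r K E hp hr hpr hdeg a ρ δ hδ h1 h2 ha x
  rw [Ideal.absNorm_span_singleton] at hcop ⊢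
  set n := Algebra.norm ℤ x with hn
  have : Fact r.Prime := ⟨hr⟩
  have hp3 : 3 ≤ p := by
    have := hp.two_le
    omega
  have hr1 := hr.one_lt
  have hpodd : p % 2 = 1 := by
    rcases hp.eq_two_or_odd with h | h
    · exact absurd h hp2
    · exact h
  have hrodd : r % 2 = 1 := by
    rcases hr.eq_two_or_odd with h | h
    · exfalso
      have hle := Nat.le_of_dvd (Nat.sub_pos_of_lt hr1) hpr
      omega
    · exact h
  obtain ⟨k, hk⟩ := hpr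
  have hkdiv : (r - 1) / p = k := by
    rw [hk]
    exact Nat.mul_div_cancel_left k hp.pos
  have hkeven : Even k := by
    rcases Nat.even_or_odd k with h | h
    · exact h
    · exfalso
      have hodd : Odd (p * k) := (Nat.odd_iff.mpr hpodd).mul h
      rw [← hk] at hodd
      have := Nat.odd_iff.mp hodd
      omega
  rw [hkdiv]
  -- work in `ZMod r`
  rw [← ZMod.natCast_eq_natCast_iff]
  push_cast
  have hnC : (n : ZMod r) = (C : ZMod r) ^ p := by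
    have := (ZMod.intCast_zmod_eq_zero_iff_dvd (n - C ^ p) r).mpr hC
    push_cast at this
    exact sub_eq_zero.mp this
  have hn0 : (n : ZMod r) ≠ 0 := by
    intro h0
    have hdvd : (r : ℤ) ∣ n := (ZMod.intCast_zmod_eq_zero_iff_dvd n r).mp h0
    have hdvd' : r ∣ n.natAbs := Int.natCast_dvd.mp hdvd
    have := Nat.Coprime.eq_one_of_dvd hcop.symm hdvd'
    omega
  have hC0 : (C : ZMod r) ≠ 0 := by
    intro h0
    rw [h0, zero_pow hp.ne_zero] at hnC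
    exact hn0 hnC
  have habs : ((n.natAbs : ℕ) : ZMod r) ^ k = (n : ZMod r) ^ k := by
    have h6 : ((n.natAbs : ℕ) : ℤ) ^ k = n ^ k := by
      rw [Int.natCast_natAbs]
      exact Even.pow_abs hkeven n
    have := congrArg (fun z : ℤ => (z : ZMod r)) h6
    simpa using this
  rw [habs, hnC, ← pow_mul, ← hk]
  exact ZMod.pow_card_sub_one_eq_one hC0

end Final

end H18CR
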