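import Fermat.Agent.CFT.CR.AsmInterface
import Fermat.Agent.CFT.CR.AsmBasic
import Fermat.Agent.CFT.CR.H18RamNorm

/-!
# T-CFT CR, slice J4 (helper14, backup of helper6): independence by valuations
-/

set_option autoImplicit false
set_option linter.unusedSectionVars false

namespace H14CFT

open NumberField IsDedekindDomain H3CR H18CR

section valindep

variable {p : ℕ} {K : Type} [Field K] [NumberField K] [IsCyclotomicExtension {p} ℚ K]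

/-- a prime of `𝓞 K` containing the rational prime `r` -/
lemma h14vi_exists_prime (r : ℕ) (hr : r.Prime) :
    ∃ v : HeightOneSpectrum (𝓞 K), (r : 𝓞 K) ∈ v.asIdeal := by
  have hprime : (Ideal.span {(r : ℤ)}).IsPrime :=
    (Ideal.span_singleton_prime (by exact_mod_cast hr.ne_zero)).mpr (Nat.prime_iff_prime_int.mp hr)
  obtain ⟨Q, -, hQ1, hQ2⟩ := Ideal.exists_ideal_over_prime_of_isIntegral
    (Ideal.span {(r : ℤ)}) (⊥ : Ideal (𝓞 K)) (by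
      rw [← RingHom.ker_eq_comap_bot,
        (RingHom.injective_iff_ker_eq_bot _).mp (FaithfulSMul.algebraMap_injective ℤ (𝓞 K))]
      exact bot_le)
  have hmem : (r : 𝓞 K) ∈ Q := by
    have h1 : (r : ℤ) ∈ Q.comap (algebraMap ℤ (𝓞 K)) := by
      rw [hQ2]
      exact Ideal.subset_span rfl
    simpa using h1
  have hQ0 : Q ≠ ⊥ := by
    intro h
    rw [h, Ideal.mem_bot] at hmem
    exact hr.ne_zero (by exact_mod_cast hmem)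
  exact ⟨⟨Q, hQ1, hQ0⟩, hmem⟩

/-- the valuation data at a prime over `r₁`. -/
lemma h14vi_val (hp : p.Prime) (r₁ r₂ : ℕ) (hr₁ : r₁.Prime) (hr₂ : r₂.Prime) (h12 : r₁ ≠ r₂)
    (hr₁p : r₁ ≠ p) (α ρ₁ ρ₂ : 𝓞 K) (x₁ x₂ : ℕ)
    (h1 : (r₁ : 𝓞 K) ∣ ρ₁) (h2 : ρ₁ ∣ (r₁ : 𝓞 K) ^ (p - 1))
    (h4 : ρ₂ ∣ (r₂ : 𝓞 K) ^ (p - 1))
    (hα : ∀ 𝔯 : Ideal (𝓞 K), 𝔯.IsPrime → (r₁ : 𝓞 K) ∈ 𝔯 → α ∉ 𝔯) :
    ∃ (v : HeightOneSpectrum (𝓞 K)) (s : ℕ), 1 ≤ s ∧ s < p ∧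
      v.valuation K ((α ^ x₁ * ρ₁ : 𝓞 K) : K) = WithZero.exp (-(s : ℤ)) ∧
      v.valuation K ((α ^ x₂ * ρ₂ : 𝓞 K) : K) = 1 ∧
      v.valuation K (α : K) = 1 := by
  obtain ⟨v, hv⟩ := h14vi_exists_prime (K := K) r₁ hr₁
  have hαv : α ∉ v.asIdeal := hα v.asIdeal v.isPrime hv
  have hvr := h18cr_intValuation_natCast p r₁ K hp hr₁ hr₁p v hv
  have hαx : ∀ x : ℕ, α ^ x ∉ v.asIdeal := fun x h => hαv (v.isPrime.mem_of_pow_mem x h)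
  obtain ⟨s, hs1, hsp, hs⟩ := h18cr_intValuation_mul v p hp.two_le (α ^ x₁) ρ₁ (r₁ : 𝓞 K)
    hvr h1 h2 (hαx x₁)
  have hr₂v : (r₂ : 𝓞 K) ∉ v.asIdeal :=
    h3a_natCast_notMem v.isPrime.ne_top ((Nat.coprime_primes hr₁ hr₂).mpr h12) hv
  have hρ₂ : ρ₂ ∉ v.asIdeal := by
    intro h
    obtain ⟨u, hu⟩ := h4
    have : (r₂ : 𝓞 K) ^ (p - 1) ∈ v.asIdeal := by
      rw [hu]
      exact v.asIdeal.mul_mem_right _ h
    exact hr₂v (v.isPrime.mem_of_pow_mem _ this)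
  have hγ₂ : α ^ x₂ * ρ₂ ∉ v.asIdeal := by
    intro h
    rcases v.isPrime.mem_or_mem h with h | h
    · exact hαx x₂ h
    · exact hρ₂ h
  refine ⟨v, s, hs1, hsp, ?_, ?_, ?_⟩
  · have := v.valuation_of_algebraMap (K := K) (α ^ x₁ * ρ₁)
    rw [← hs]
    exact this
  · have := v.valuation_of_algebraMap (K := K) (α ^ x₂ * ρ₂)
    rw [HeightOneSpectrum.intValuation_eq_one_iff.mpr hγ₂] at this
    exact this
  · have := v.valuation_of_algebraMap (K := K) α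
    rw [HeightOneSpectrum.intValuation_eq_one_iff.mpr hαv] at this
    exact this

/-- if `w(x)^a * w(c)^p = 1` with `w x = exp (-s)`, `0 < s < p`, then `p ∣ a`. -/
lemma h14vi_dvd (hp : p.Prime) (v : HeightOneSpectrum (𝓞 K)) (x c : K) (s a : ℕ)
    (hs1 : 1 ≤ s) (hsp : s < p)
    (hx : v.valuation K x = WithZero.exp (-(s : ℤ)))
    (h : v.valuation K x ^ a * v.valuation K c ^ p = 1) : p ∣ a := by
  have hc0 : v.valuation K c ≠ 0 := by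
    intro h0
    rw [h0, zero_pow hp.ne_zero, mul_zero] at h
    exact zero_ne_one h
  rw [hx] at h
  have h2 := congrArg WithZero.log h
  rw [WithZero.log_mul (pow_ne_zero _ WithZero.exp_ne_zero) (pow_ne_zero _ hc0),
    WithZero.log_pow, WithZero.log_pow, WithZero.log_exp, WithZero.log_one] at h2
  simp only [nsmul_eq_mul] at h2
  have h3 : (p : ℤ) ∣ (s : ℤ) * (a : ℤ) := by
    refine ⟨(v.valuation K c).log, ?_⟩
    linarith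
  have hcop : IsCoprime (p : ℤ) (s : ℤ) := by
    rw [Int.isCoprime_iff_gcd_eq_one, Int.gcd_natCast_natCast]
    exact (Nat.Prime.coprime_iff_not_dvd hp).mpr (Nat.not_dvd_of_pos_of_lt hs1 hsp)
  have h4 : (p : ℤ) ∣ (a : ℤ) := hcop.dvd_of_dvd_mul_left h3
  exact_mod_cast h4

end valindep

theorem h14_valIndep (p : ℕ) : H3CR.ValIndep p := by
  intro K _ _ _ α ρ₁ ρ₂ r₁ r₂ x₁ x₂ hp hr₁ hr₂ h12 hr₁p hr₂p h1 h2 h3 h4 hα₁ hα₂ hαpow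
  obtain ⟨v₁, s₁, hs₁1, hs₁p, hv₁γ₁, hv₁γ₂, hv₁α⟩ :=
    h14vi_val hp r₁ r₂ hr₁ hr₂ h12 hr₁p α ρ₁ ρ₂ x₁ x₂ h1 h2 h4 hα₁
  obtain ⟨v₂, s₂, hs₂1, hs₂p, hv₂γ₂, hv₂γ₁, hv₂α⟩ :=
    h14vi_val hp r₂ r₁ hr₂ hr₁ h12.symm hr₂p α ρ₂ ρ₁ x₂ x₁ h3 h4 h2 hα₂
  refine ⟨?_, ?_⟩
  · intro c hc
    have hc0 : v₁.valuation K c ≠ 0 := by
      intro h0
      have := congrArg (v₁.valuation K) hc
      rw [map_pow, h0, zero_pow hp.ne_zero, hv₁γ₁] at this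
      exact WithZero.exp_ne_zero this.symm
    have h5 : v₁.valuation K ((α ^ x₁ * ρ₁ : 𝓞 K) : K) ^ 1 * v₁.valuation K (c⁻¹) ^ p = 1 := by
      rw [pow_one, ← hc, map_pow, map_inv₀, ← mul_pow, mul_inv_cancel₀ hc0, one_pow]
    have := h14vi_dvd hp v₁ _ _ s₁ 1 hs₁1 hs₁p hv₁γ₁ h5
    have h6 := Nat.le_of_dvd one_pos this
    have := hp.two_le
    omega
  · intro a b c hc
    have hw₁ := congrArg (v₁.valuation K) hc
    rw [map_mul, map_mul, map_pow, map_pow, map_pow, hv₁α, hv₁γ₂, one_pow, mul_one] at hw₁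
    have hpa : p ∣ a := h14vi_dvd hp v₁ _ c s₁ a hs₁1 hs₁p hv₁γ₁ hw₁.symm
    have hw₂ := congrArg (v₂.valuation K) hc
    rw [map_mul, map_mul, map_pow, map_pow, map_pow, hv₂α, hv₂γ₁, one_pow, one_mul] at hw₂
    have hpb : p ∣ b := h14vi_dvd hp v₂ _ c s₂ b hs₂1 hs₂p hv₂γ₂ hw₂.symm
    obtain ⟨a', rfl⟩ := hpa
    obtain ⟨b', rfl⟩ := hpb
    apply hαpow (((α ^ x₁ * ρ₁ : 𝓞 K) : K) ^ a' * ((α ^ x₂ * ρ₂ : 𝓞 K) : K) ^ b' * c)
    rw [hc]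
    ring

end H14CFT
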