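/-
T-CFT module CR, package H (helper18): the norm on class groups.

`ν : ClassGroup (𝓞 E) →* ClassGroup (𝓞 K)` with `ν [𝔄] = [N_{E/K} 𝔄]`.
-/
import Mathlib
import Fermat.Agent.CFT.CR.Interface

set_option autoImplicit false

namespace H18CR

open NumberField H14CFT
open scoped nonZeroDivisors

section General

variable {R S : Type} [CommRing R] [IsDedekindDomain R] [CommRing S] [IsDedekindDomain S]
  [Algebra R S] [Module.Finite R S] [Module.IsTorsionFree R S]

/-- The relative norm of a nonzero ideal, as a nonzero ideal. -/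
noncomputable def h18cr_relNorm0 (I : (Ideal S)⁰) : (Ideal R)⁰ :=
  ⟨Ideal.relNorm R I.1, mem_nonZeroDivisors_iff_ne_zero.mpr (fun h =>
    (mem_nonZeroDivisors_iff_ne_zero.mp I.2) (Ideal.relNorm_eq_bot_iff.mp h))⟩

@[simp] theorem h18cr_relNorm0_coe (I : (Ideal S)⁰) :
    (h18cr_relNorm0 (R := R) I : Ideal R) = Ideal.relNorm R I.1 := rfl

theorem h18cr_relNorm0_mul (I J : (Ideal S)⁰) :
    h18cr_relNorm0 (R := R) (I * J) = h18cr_relNorm0 I * h18cr_relNorm0 J := by
  apply Subtype.ext
  simp [h18cr_relNorm0]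

theorem h18cr_relNorm0_one : h18cr_relNorm0 (R := R) (1 : (Ideal S)⁰) = 1 := by
  apply Subtype.ext
  simp [h18cr_relNorm0]

/-- The norm respects ideal classes. -/
theorem h18cr_mk0_relNorm0_congr {I J : (Ideal S)⁰} (h : ClassGroup.mk0 I = ClassGroup.mk0 J) :
    ClassGroup.mk0 (h18cr_relNorm0 (R := R) I) = ClassGroup.mk0 (h18cr_relNorm0 (R := R) J) := by
  rw [ClassGroup.mk0_eq_mk0_iff] at h ⊢
  obtain ⟨x, y, hx, hy, hxy⟩ := h
  refine ⟨Algebra.intNorm R S x, Algebra.intNorm R S y, ?_, ?_, ?_⟩
  · rwa [Ne, Algebra.intNorm_eq_zero]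
  · rwa [Ne, Algebra.intNorm_eq_zero]
  · have := congrArg (Ideal.relNorm R) hxy
    rw [map_mul, map_mul, Ideal.relNorm_singleton, Ideal.relNorm_singleton] at this
    exact this

/-- The norm on ideal class groups. -/
noncomputable def h18cr_classNorm : ClassGroup S →* ClassGroup R where
  toFun c := ClassGroup.mk0 (h18cr_relNorm0 (R := R) (Classical.choose (ClassGroup.mk0_surjective c)))
  map_one' := by
    have h := Classical.choose_spec (ClassGroup.mk0_surjective (1 : ClassGroup S))
    have h1 : ClassGroup.mk0 (Classical.choose (ClassGroup.mk0_surjective (1 : ClassGroup S))) =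
        ClassGroup.mk0 (1 : (Ideal S)⁰) := by rw [h, map_one]
    rw [h18cr_mk0_relNorm0_congr (R := R) h1, h18cr_relNorm0_one, map_one]
  map_mul' c d := by
    have hc := Classical.choose_spec (ClassGroup.mk0_surjective c)
    have hd := Classical.choose_spec (ClassGroup.mk0_surjective d)
    have hcd := Classical.choose_spec (ClassGroup.mk0_surjective (c * d))
    have h1 : ClassGroup.mk0 (Classical.choose (ClassGroup.mk0_surjective (c * d))) =
        ClassGroup.mk0 (Classical.choose (ClassGroup.mk0_surjective c) *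
          Classical.choose (ClassGroup.mk0_surjective d)) := by
      rw [hcd, map_mul, hc, hd]
    rw [h18cr_mk0_relNorm0_congr (R := R) h1, h18cr_relNorm0_mul, map_mul]

theorem h18cr_classNorm_mk0 (I : (Ideal S)⁰) :
    h18cr_classNorm (R := R) (ClassGroup.mk0 I) = ClassGroup.mk0 (h18cr_relNorm0 (R := R) I) := by
  have h := Classical.choose_spec (ClassGroup.mk0_surjective (ClassGroup.mk0 I))
  exact h18cr_mk0_relNorm0_congr (R := R) h

end General

/-- **Package H**: the norm on class groups of number fields. -/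
theorem h18cr_classNorm_holds : H3CR.ClassNorm := by
  intro K E _ _ _ _ _
  refine ⟨h18cr_classNorm (R := 𝓞 K) (S := 𝓞 E), fun 𝔄 𝔞 h => ?_⟩
  rw [h18cr_classNorm_mk0]
  congr 1
  exact Subtype.ext h

end H18CR
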