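/-
T-CFT module CR, package D (helper22), part 2: the arithmetic step.
Given the tower `E ⊂ M₂ ∋ γ₁^{1/p}, γ₂^{1/p}`, `M₃ = M₂(α^{1/p})` Galois of degree `> 1` over `M₂`,
a degree-one prime of `M₂` which does not split completely in `M₃` gives a degree-one prime `𝔟`
of `E` with symbols `(0, 0, ≠ 0)`.
-/
import Mathlib
import Fermat.Agent.CFT.Defs
import Fermat.Agent.CFT.CR.Sym
import Fermat.Agent.CFT.CR.Interface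
import Fermat.Agent.CFT.CR.SymNF

set_option autoImplicit false
set_option linter.style.haveILetI false
set_option linter.unusedSectionVars false

namespace H22CR

open NumberField H14CFT H3CR

/-- membership in a prime of norm `ℓ` forces `ℓ ∣ N(x)`. -/
theorem h22c_absNorm_dvd_of_mem {E : Type} [Field E] [NumberField E] {𝔟 : Ideal (𝓞 E)} {x : 𝓞 E}
    (hx : x ∈ 𝔟) : Ideal.absNorm 𝔟 ∣ Ideal.absNorm (Ideal.span {x}) :=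
  Ideal.absNorm_dvd_absNorm_of_le ((Ideal.span_singleton_le_iff_mem 𝔟).mpr hx)

theorem h22c_absNorm_span_ne_zero {E : Type} [Field E] [NumberField E] {x : 𝓞 E} (hx : x ≠ 0) :
    Ideal.absNorm (Ideal.span {x}) ≠ 0 := by
  rw [Ne, Ideal.absNorm_eq_zero_iff, Ideal.span_singleton_eq_bot]
  exact hx

theorem h22c_arith (p : ℕ) (hNS : NonSplitPrimeExists) (hB1 : SplitHard p)
    (E M₂ M₃ : Type) [Field E] [NumberField E] [Field M₂] [NumberField M₂] [Field M₃]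
    [NumberField M₃] [Algebra E M₂] [Algebra M₂ M₃] [IsGalois M₂ M₃]
    (ζ γ₁ γ₂ α : 𝓞 E) (δ₁ δ₂ : 𝓞 M₂) (β : 𝓞 M₃) (D : ℕ)
    (hp : p.Prime) (hζ : IsPrimitiveRoot ζ p) (hD : D ≠ 0)
    (hγ₁ : γ₁ ≠ 0) (hγ₂ : γ₂ ≠ 0) (hα : α ≠ 0)
    (hδ₁ : δ₁ ^ p = algebraMap (𝓞 E) (𝓞 M₂) γ₁) (hδ₂ : δ₂ ^ p = algebraMap (𝓞 E) (𝓞 M₂) γ₂)
    (hβ : β ^ p = algebraMap (𝓞 M₂) (𝓞 M₃) (algebraMap (𝓞 E) (𝓞 M₂) α))
    (hgen : IntermediateField.adjoin M₂ {(β : M₃)} = ⊤) (hdeg : 1 < Module.finrank M₂ M₃) :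
    ∃ 𝔟 : Ideal (𝓞 E), 𝔟.IsPrime ∧ 𝔟 ≠ ⊥ ∧ (Ideal.absNorm 𝔟).Prime ∧ ¬ (Ideal.absNorm 𝔟 ∣ D) ∧
      (p : 𝓞 E) ∉ 𝔟 ∧ γ₁ ∉ 𝔟 ∧ γ₂ ∉ 𝔟 ∧ α ∉ 𝔟 ∧
      sym p ζ γ₁ 𝔟 = 0 ∧ sym p ζ γ₂ 𝔟 = 0 ∧ sym p ζ α 𝔟 ≠ 0 := by
  have hp0 : (p : 𝓞 E) ≠ 0 := by
    exact_mod_cast hp.ne_zero
  set Np := Ideal.absNorm (Ideal.span {(p : 𝓞 E)}) with hNp
  set N1 := Ideal.absNorm (Ideal.span {γ₁}) with hN1
  set N2 := Ideal.absNorm (Ideal.span {γ₂}) with hN2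
  set Nα := Ideal.absNorm (Ideal.span {α}) with hNα
  have hNp0 : Np ≠ 0 := h22c_absNorm_span_ne_zero hp0
  have hN10 : N1 ≠ 0 := h22c_absNorm_span_ne_zero hγ₁
  have hN20 : N2 ≠ 0 := h22c_absNorm_span_ne_zero hγ₂
  have hNα0 : Nα ≠ 0 := h22c_absNorm_span_ne_zero hα
  have hD' : D * Np * N1 * N2 * Nα ≠ 0 := by positivity
  obtain ⟨𝔅, h𝔅p, h𝔅0, hℓ, hℓD, hns⟩ := hNS M₂ M₃ (D * Np * N1 * N2 * Nα) hD' hdeg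
  set ℓ := Ideal.absNorm 𝔅 with hℓdef
  set φ := algebraMap (𝓞 E) (𝓞 M₂) with hφ
  set 𝔟 : Ideal (𝓞 E) := 𝔅.under (𝓞 E) with h𝔟def
  have h𝔟p : 𝔟.IsPrime := Ideal.IsPrime.under (𝓞 E) 𝔅
  -- the residue field map
  set ψ : 𝓞 E ⧸ 𝔟 →+* 𝓞 M₂ ⧸ 𝔅 := Ideal.quotientMap 𝔅 φ le_rfl with hψ
  have hψinj : Function.Injective ψ := Ideal.quotientMap_injective
  have hcard𝔅 : Nat.card (𝓞 M₂ ⧸ 𝔅) = ℓ := card_quot_eq_absNorm 𝔅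
  have hcard𝔟 : Nat.card (𝓞 E ⧸ 𝔟) = Ideal.absNorm 𝔟 := card_quot_eq_absNorm 𝔟
  haveI : Finite (𝓞 M₂ ⧸ 𝔅) := Nat.finite_of_card_ne_zero (by rw [hcard𝔅]; exact hℓ.ne_zero)
  have hdvd : Ideal.absNorm 𝔟 ∣ ℓ := by
    rw [← hcard𝔟, ← hcard𝔅]
    exact AddSubgroup.card_dvd_of_injective ψ.toAddMonoidHom hψinj
  have hne1 : Ideal.absNorm 𝔟 ≠ 1 := by
    rw [Ne, Ideal.absNorm_eq_one_iff]
    exact h𝔟p.ne_top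
  have hnorm : Ideal.absNorm 𝔟 = ℓ := ((Nat.dvd_prime hℓ).mp hdvd).resolve_left hne1
  have h𝔟0 : 𝔟 ≠ ⊥ := by
    intro h0
    rw [h0, Ideal.absNorm_bot] at hnorm
    exact hℓ.ne_zero hnorm.symm
  have hnotmem : ∀ x : 𝓞 E, Ideal.absNorm (Ideal.span {x}) ∣ D * Np * N1 * N2 * Nα → x ∉ 𝔟 := by
    intro x hx hmem
    apply hℓD
    rw [← hnorm]
    exact (h22c_absNorm_dvd_of_mem hmem).trans hx
  have hp𝔟 : (p : 𝓞 E) ∉ 𝔟 := hnotmem _ ⟨D * N1 * N2 * Nα, by rw [← hNp]; ring⟩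
  have h1𝔟 : γ₁ ∉ 𝔟 := hnotmem _ ⟨D * Np * N2 * Nα, by rw [← hN1]; ring⟩
  have h2𝔟 : γ₂ ∉ 𝔟 := hnotmem _ ⟨D * Np * N1 * Nα, by rw [← hN2]; ring⟩
  have hα𝔟 : α ∉ 𝔟 := hnotmem _ ⟨D * Np * N1 * N2, by rw [← hNα]; ring⟩
  have hgood : GoodPrime p ζ 𝔟 := goodPrime_of_prime hp hζ h𝔟p h𝔟0 hp𝔟
  have hgood' : GoodPrime p (φ ζ) 𝔅 := goodPrime_over (M := M₂) hgood h𝔅p rfl h𝔟0
  -- surjectivity of the residue field map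
  have hψsurj : Function.Surjective ψ := by
    have hcardeq : Nat.card (𝓞 E ⧸ 𝔟) = Nat.card (𝓞 M₂ ⧸ 𝔅) := by
      rw [hcard𝔟, hcard𝔅, hnorm]
    exact ((Nat.bijective_iff_injective_and_card ψ).mpr ⟨hψinj, hcardeq⟩).2
  have hroot : ∀ (γ : 𝓞 E) (δ : 𝓞 M₂), γ ∉ 𝔟 → δ ^ p = φ γ → sym p ζ γ 𝔟 = 0 := by
    intro γ δ hγ hδ
    obtain ⟨c', hc'⟩ := hψsurj (Ideal.Quotient.mk 𝔅 δ)
    obtain ⟨c, rfl⟩ := Ideal.Quotient.mk_surjective c'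
    rw [hψ, Ideal.quotientMap_mk, Ideal.Quotient.eq] at hc'
    refine hgood.sym_eq_zero_of_pow hγ (c := c) ?_
    have h1 : φ (γ - c ^ p) ∈ 𝔅 := by
      rw [map_sub, map_pow, ← hδ]
      have h2 : δ ^ p - φ c ^ p = -(φ c ^ p - δ ^ p) := by ring
      rw [h2]
      exact 𝔅.neg_mem (Ideal.mem_of_dvd _ (sub_dvd_pow_sub_pow _ _ p) hc')
    exact Ideal.mem_comap.mpr h1
  refine ⟨𝔟, h𝔟p, h𝔟0, hnorm ▸ hℓ, ?_, hp𝔟, h1𝔟, h2𝔟, hα𝔟, hroot γ₁ δ₁ h1𝔟 hδ₁,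
    hroot γ₂ δ₂ h2𝔟 hδ₂, ?_⟩
  · intro hd
    apply hℓD
    rw [hnorm] at hd
    exact hd.trans ⟨Np * N1 * N2 * Nα, by ring⟩
  · intro hsym
    apply hns
    obtain ⟨c, hc, hαc⟩ := hgood.exists_pow_of_sym_eq_zero hα𝔟 hsym
    have hα' : φ α ∉ 𝔅 := fun hm => hα𝔟 (Ideal.mem_comap.mpr hm)
    have hsym' : sym p (φ ζ) (φ α) 𝔅 = 0 := by
      refine hgood'.sym_eq_zero_of_pow hα' (c := φ c) ?_
      rw [← map_pow, ← map_sub]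
      exact Ideal.mem_comap.mp hαc
    exact hB1 M₂ M₃ (φ ζ) (φ α) β 𝔅 hgood' hα' hβ hgen hsym'

end H22CR
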