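/-
T-CFT module CR, package D (helper22), part 1: Kummer theory for one step
`M = ` splitting field of `X ^ p - γ` over `E ∋ ζ_p`: an element of `E` that becomes a `p`-th
power in `M` is of the form `γ ^ k * c ^ p`.
-/
import Mathlib

set_option autoImplicit false
set_option linter.style.haveILetI false
set_option linter.unusedSectionVars false

namespace H22CR

open Polynomial

section kummer

variable {K L : Type*} [Field K] [Field L] [Algebra K L]

/-- in a domain with a primitive `p`-th root of unity, `x ^ p = y ^ p` implies `x = ζ ^ j * y`. -/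
theorem h22c_exists_pow_mul_of_pow_eq {S : Type*} [CommRing S] [IsDomain S] {p : ℕ} (hp : 0 < p)
    {ζ : S} (hζ : IsPrimitiveRoot ζ p) {x y : S} (h : x ^ p = y ^ p) : ∃ j < p, x = ζ ^ j * y := by
  have h1 := hζ.pow_sub_pow_eq_prod_sub_mul x y hp
  rw [h, sub_self, eq_comm, Finset.prod_eq_zero_iff] at h1
  obtain ⟨η, hη, hx⟩ := h1
  haveI : NeZero p := ⟨hp.ne'⟩
  rw [Polynomial.mem_nthRootsFinset hp] at hη
  obtain ⟨j, hj, rfl⟩ := hζ.eq_pow_of_pow_eq_one hη
  exact ⟨j, hj, sub_eq_zero.mp hx⟩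

/-- If `X ^ p - γ` has a root in `K ∋ ζ_p`, its splitting field is `K`. -/
theorem h22c_surjective_of_root {p : ℕ} (hp : 0 < p) {ζ : K} (hζ : IsPrimitiveRoot ζ p) {γ d : K}
    (hd : d ^ p = γ) [IsSplittingField K L (X ^ p - C γ)] :
    Function.Surjective (algebraMap K L) := by
  have hs : (X ^ p - C γ).Splits := X_pow_sub_C_splits_of_isPrimitiveRoot hζ hd
  have h1 : Algebra.adjoin K ((X ^ p - C γ).rootSet L) = ⊤ :=
    IsSplittingField.adjoin_rootSet L (X ^ p - C γ)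
  have h2 : Algebra.adjoin K ((X ^ p - C γ).rootSet L) = (Algebra.ofId K L).range := by
    rw [Splits.adjoin_rootSet_eq_range (A := K) (by simpa using hs)]
    exact Subsingleton.elim _ _
  rw [h1] at h2
  intro x
  have : x ∈ (Algebra.ofId K L).range := by rw [← h2]; trivial
  obtain ⟨y, hy⟩ := this
  exact ⟨y, hy⟩

/-- **Kummer's lemma**, one step. -/
theorem h22c_kummer {p : ℕ} (hp : p.Prime) {ζ : K} (hζ : IsPrimitiveRoot ζ p) {γ : K}
    (hγ : γ ≠ 0) [IsSplittingField K L (X ^ p - C γ)] {α : K} {β : L}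
    (hβ : β ^ p = algebraMap K L α) : ∃ (k : ℕ) (c : K), α = γ ^ k * c ^ p := by
  haveI : NeZero p := ⟨hp.ne_zero⟩
  by_cases hred : ∃ d : K, d ^ p = γ
  · obtain ⟨d, hd⟩ := hred
    obtain ⟨c, hc⟩ := h22c_surjective_of_root (L := L) hp.pos hζ hd β
    refine ⟨0, c, ?_⟩
    apply (algebraMap K L).injective
    rw [pow_zero, one_mul, map_pow, hc, hβ]
  · have H : Irreducible (X ^ p - C γ) :=
      X_pow_sub_C_irreducible_of_prime hp (fun b hb => hred ⟨b, hb⟩)
    have hζne : (primitiveRoots p K).Nonempty := ⟨ζ, (mem_primitiveRoots hp.pos).mpr hζ⟩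
    haveI : IsGalois K L := isGalois_of_isSplittingField_X_pow_sub_C hζne H L
    haveI : FiniteDimensional K L := Polynomial.IsSplittingField.finiteDimensional L (X ^ p - C γ)
    -- a root `δ`
    set δ : L := rootOfSplitsXPowSubC hp.pos γ L with hδdef
    have hδ : δ ^ p = algebraMap K L γ := rootOfSplitsXPowSubC_pow γ L
    have hδ0 : δ ≠ 0 := by
      intro h0
      rw [h0, zero_pow hp.ne_zero, eq_comm, map_eq_zero] at hδ
      exact hγ hδ
    have hζL : IsPrimitiveRoot (algebraMap K L ζ) p :=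
      hζ.map_of_injective (algebraMap K L).injective
    set σ : L ≃ₐ[K] L := (autEquivZmod H L hζ).symm (Multiplicative.ofAdd ((1 : ℕ) : ZMod p))
      with hσdef
    have hσδ : σ δ = algebraMap K L ζ * δ := by
      have := autEquivZmod_symm_apply_natCast H L hδ hζ 1
      rw [pow_one, Algebra.smul_def] at this
      exact this
    -- `σ β = ζ ^ k β`
    have h1 : (σ β) ^ p = β ^ p := by
      rw [← map_pow, hβ, AlgEquiv.commutes]
    obtain ⟨k, -, hk⟩ := h22c_exists_pow_mul_of_pow_eq hp.pos hζL h1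
    -- every automorphism is a power of `σ`
    have hgen : ∀ τ : L ≃ₐ[K] L, ∃ m : ℕ, τ = σ ^ m := by
      intro τ
      obtain ⟨x, hx⟩ := (autEquivZmod H L hζ).symm.surjective τ
      refine ⟨(Multiplicative.toAdd x).val, ?_⟩
      rw [hσdef, ← map_pow, ← hx]
      congr 1
      rw [← ofAdd_nsmul, Nat.cast_one, nsmul_eq_mul, mul_one, ZMod.natCast_val, ZMod.cast_id', id,
        ofAdd_toAdd]
    set c : L := β / δ ^ k with hcdef
    have hσc : σ c = c := by
      rw [hcdef, map_div₀, map_pow, hk, hσδ, mul_pow, mul_div_mul_left]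
      exact pow_ne_zero _ (hζL.ne_zero hp.ne_zero)
    have hpow : ∀ m : ℕ, (σ ^ m) c = c := by
      intro m
      induction m with
      | zero => simp
      | succ m ih => rw [pow_succ, AlgEquiv.mul_apply, hσc, ih]
    have hfix : ∀ τ : L ≃ₐ[K] L, τ c = c := by
      intro τ
      obtain ⟨m, rfl⟩ := hgen τ
      exact hpow m
    have hmem : c ∈ (⊥ : IntermediateField K L) := (IsGalois.mem_bot_iff_fixed c).mpr hfix
    rw [IntermediateField.mem_bot] at hmem
    obtain ⟨c₀, hc₀⟩ := hmem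
    refine ⟨k, c₀, ?_⟩
    apply (algebraMap K L).injective
    rw [map_mul, map_pow, map_pow, hc₀, ← hδ, ← hβ, hcdef, div_pow, ← pow_mul, ← pow_mul,
      mul_comm p k, mul_div_cancel₀]
    exact pow_ne_zero _ hδ0

end kummer

end H22CR

namespace H22CR

open Polynomial

/-- one Kummer step over a number field, as an existence statement. -/
theorem h22c_step (F : Type) [Field F] [NumberField F] {p : ℕ} (hp : p.Prime) {ζ : F}
    (hζ : IsPrimitiveRoot ζ p) {γ : F} (hγ : γ ≠ 0) :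
    ∃ (M : Type) (_ : Field M) (_ : NumberField M) (_ : Algebra F M) (δ : M),
      δ ^ p = algebraMap F M γ ∧
      ∀ α : F, (∃ β : M, β ^ p = algebraMap F M α) → ∃ (k : ℕ) (c : F), α = γ ^ k * c ^ p := by
  haveI : NeZero p := ⟨hp.ne_zero⟩
  haveI : NumberField (X ^ p - C γ).SplittingField :=
    NumberField.of_module_finite F (X ^ p - C γ).SplittingField
  refine ⟨(X ^ p - C γ).SplittingField, inferInstance, inferInstance, inferInstance,
    rootOfSplitsXPowSubC hp.pos γ _, rootOfSplitsXPowSubC_pow γ _, ?_⟩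
  rintro α ⟨β, hβ⟩
  exact h22c_kummer hp hζ hγ hβ

/-- the top Kummer step: if `α` is not a `p`-th power, `F(α^{1/p})/F` is Galois of degree `p`. -/
theorem h22c_top (F : Type) [Field F] [NumberField F] {p : ℕ} (hp : p.Prime) {ζ : F}
    (hζ : IsPrimitiveRoot ζ p) {α : F} (hα : ∀ b : F, b ^ p ≠ α) :
    ∃ (M : Type) (_ : Field M) (_ : NumberField M) (_ : Algebra F M) (_ : IsGalois F M) (β : M),
      β ^ p = algebraMap F M α ∧ IntermediateField.adjoin F {β} = ⊤ ∧ Module.finrank F M = p := by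
  haveI : NeZero p := ⟨hp.ne_zero⟩
  haveI : NumberField (X ^ p - C α).SplittingField :=
    NumberField.of_module_finite F (X ^ p - C α).SplittingField
  have H : Irreducible (X ^ p - C α) := X_pow_sub_C_irreducible_of_prime hp hα
  have hζne : (primitiveRoots p F).Nonempty := ⟨ζ, (mem_primitiveRoots hp.pos).mpr hζ⟩
  refine ⟨(X ^ p - C α).SplittingField, inferInstance, inferInstance, inferInstance,
    isGalois_of_isSplittingField_X_pow_sub_C hζne H _,
    rootOfSplitsXPowSubC hp.pos α _, rootOfSplitsXPowSubC_pow α _, ?_, ?_⟩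
  · exact IntermediateField.adjoin_root_eq_top_of_isSplittingField hζne H
      (rootOfSplitsXPowSubC_pow α _)
  · exact finrank_of_isSplittingField_X_pow_sub_C hζne H _

/-- **The Kummer tower** `E ⊂ M₂ = E(γ₁^{1/p}, γ₂^{1/p}) ⊂ M₃ = M₂(α^{1/p})`. -/
theorem h22c_tower (E : Type) [Field E] [NumberField E] {p : ℕ} (hp : p.Prime) {ζ : E}
    (hζ : IsPrimitiveRoot ζ p) {γ₁ γ₂ α : E} (h1 : γ₁ ≠ 0) (h2 : γ₂ ≠ 0)
    (hind : ∀ (a b : ℕ) (c : E), α ≠ γ₁ ^ a * γ₂ ^ b * c ^ p) :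
    ∃ (M₂ : Type) (_ : Field M₂) (_ : NumberField M₂) (_ : Algebra E M₂)
      (M₃ : Type) (_ : Field M₃) (_ : NumberField M₃) (_ : Algebra M₂ M₃) (_ : IsGalois M₂ M₃)
      (δ₁ δ₂ : M₂) (β : M₃),
      δ₁ ^ p = algebraMap E M₂ γ₁ ∧ δ₂ ^ p = algebraMap E M₂ γ₂ ∧
      β ^ p = algebraMap M₂ M₃ (algebraMap E M₂ α) ∧
      IntermediateField.adjoin M₂ {β} = ⊤ ∧ Module.finrank M₂ M₃ = p := by
  obtain ⟨M₁, iF1, iN1, iA1, δ₁, hδ₁, hK₁⟩ := h22c_step E hp hζ h1
  have hζ₁ : IsPrimitiveRoot (algebraMap E M₁ ζ) p :=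
    hζ.map_of_injective (algebraMap E M₁).injective
  have h2' : algebraMap E M₁ γ₂ ≠ 0 := by
    rwa [Ne, map_eq_zero]
  obtain ⟨M₂, iF2, iN2, iA2, δ₂, hδ₂, hK₂⟩ := h22c_step M₁ hp hζ₁ h2'
  letI iA : Algebra E M₂ := ((algebraMap M₁ M₂).comp (algebraMap E M₁)).toAlgebra
  have hA : ∀ x : E, algebraMap E M₂ x = algebraMap M₁ M₂ (algebraMap E M₁ x) := fun x => rfl
  have hζ₂ : IsPrimitiveRoot (algebraMap E M₂ ζ) p :=
    hζ.map_of_injective (algebraMap E M₂).injective
  have hα₂ : ∀ b : M₂, b ^ p ≠ algebraMap E M₂ α := by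
    intro b hb
    rw [hA] at hb
    obtain ⟨k, c₁, hc₁⟩ := hK₂ _ ⟨b, hb⟩
    have hγk : γ₂ ^ k ≠ 0 := pow_ne_zero _ h2
    have h3 : c₁ ^ p = algebraMap E M₁ (α / γ₂ ^ k) := by
      rw [map_div₀, hc₁, map_pow, mul_div_cancel_left₀]
      rw [← map_pow, Ne, map_eq_zero]
      exact hγk
    obtain ⟨a, c, hc⟩ := hK₁ _ ⟨c₁, h3⟩
    apply hind a k c
    rw [div_eq_iff hγk] at hc
    rw [hc]
    ring
  obtain ⟨M₃, iF3, iN3, iA3, iG3, β, hβ, hgen, hdeg⟩ := h22c_top M₂ hp hζ₂ hα₂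
  refine ⟨M₂, iF2, iN2, iA, M₃, iF3, iN3, iA3, iG3, algebraMap M₁ M₂ δ₁, δ₂, β, ?_, ?_, hβ, hgen,
    hdeg⟩
  · rw [← map_pow, hδ₁, hA]
  · rw [hδ₂, hA]

end H22CR
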