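/-
T-CFT module CR, package D (helper22): **Kummer–Chebotarev-lite** `H3CR.KummerCheb p`.
-/
import Mathlib
import Fermat.Agent.CFT.Defs
import Fermat.Agent.CFT.CR.Sym
import Fermat.Agent.CFT.CR.Interface
import Fermat.Agent.CFT.CR.SymNF
import Fermat.Agent.CFT.CR.Split
import Fermat.Agent.CFT.CR.H22ChebKummer
import Fermat.Agent.CFT.CR.H22ChebArith

set_option autoImplicit false
set_option linter.style.haveILetI false
set_option linter.unusedSectionVars false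

namespace H22CR

open NumberField H14CFT H3CR

/-- an element of a number field whose `p`-th power is integral is integral -/
theorem h22c_exists_int {M : Type} [Field M] [NumberField M] {p : ℕ} (hp : 0 < p) (δ : M)
    (x : 𝓞 M) (h : δ ^ p = (x : M)) : ∃ δ' : 𝓞 M, (δ' : M) = δ ∧ δ' ^ p = x := by
  have hint0 : IsIntegral ℤ δ := by
    apply IsIntegral.of_pow hp
    rw [h]
    exact x.2
  have hint : δ ∈ integralClosure ℤ M := hint0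
  obtain ⟨δ', hδ'⟩ : ∃ δ' : 𝓞 M, algebraMap (𝓞 M) M δ' = δ := ⟨⟨δ, hint⟩, rfl⟩
  refine ⟨δ', hδ', ?_⟩
  apply RingOfIntegers.ext
  rw [RingOfIntegers.coe_eq_algebraMap, map_pow, hδ']
  exact h

/-- **(D)** with the splitting criterion (B1) as a hypothesis. -/
theorem h22c_kummerCheb_of (p : ℕ) (hB1 : SplitHard p) : KummerCheb p := by
  intro hNS E _ _ ζ γ₁ γ₂ α D hp hζ hD hγ₁ hγ₂ hα hind
  have hζE : IsPrimitiveRoot (ζ : E) p :=
    hζ.map_of_injective (f := algebraMap (𝓞 E) E) RingOfIntegers.coe_injective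
  have h1 : (γ₁ : E) ≠ 0 := RingOfIntegers.coe_ne_zero_iff.mpr hγ₁
  have h2 : (γ₂ : E) ≠ 0 := RingOfIntegers.coe_ne_zero_iff.mpr hγ₂
  obtain ⟨M₂, iF2, iN2, iA, M₃, iF3, iN3, iA3, iG3, δ₁, δ₂, β, hδ₁, hδ₂, hβ, hgen, hdeg⟩ :=
    h22c_tower E hp hζE h1 h2 hind
  obtain ⟨δ₁', -, hδ₁'⟩ := h22c_exists_int hp.pos δ₁ (algebraMap (𝓞 E) (𝓞 M₂) γ₁) (by
    rw [hδ₁]; rfl)
  obtain ⟨δ₂', -, hδ₂'⟩ := h22c_exists_int hp.pos δ₂ (algebraMap (𝓞 E) (𝓞 M₂) γ₂) (by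
    rw [hδ₂]; rfl)
  obtain ⟨β', hβ'1, hβ'⟩ := h22c_exists_int hp.pos β
    (algebraMap (𝓞 M₂) (𝓞 M₃) (algebraMap (𝓞 E) (𝓞 M₂) α)) (by rw [hβ]; rfl)
  refine h22c_arith p hNS hB1 E M₂ M₃ ζ γ₁ γ₂ α δ₁' δ₂' β' D hp hζ hD hγ₁ hγ₂ hα hδ₁' hδ₂' hβ'
    ?_ ?_
  · rw [hβ'1]; exact hgen
  · rw [hdeg]; exact hp.one_lt

/-- **(D) Kummer–Chebotarev-lite.** -/
theorem h22_kummerCheb (p : ℕ) : KummerCheb p :=
  h22c_kummerCheb_of p (h3cr_splitHard p)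

end H22CR
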