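/-
T-CFT module CR, assembly slice J8 (helper22): `H3CR.NormSplit p`:
the class norm of the subgroup generated by the primes of `E` which split completely in
`M = E(α^{1/p})` lands in the norm classes of `L = K(α^{1/p})` over `K`.
-/
import Mathlib
import Fermat.Agent.CFT.Defs
import Fermat.Agent.CFT.CR.Sym
import Fermat.Agent.CFT.CR.Interface
import Fermat.Agent.CFT.CR.AsmInterface
import Fermat.Agent.CFT.CR.SymNF
import Fermat.Agent.CFT.CR.Split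
import Fermat.Agent.CFT.AN.H25SPNorm

set_option autoImplicit false
set_option linter.style.haveILetI false
set_option linter.unusedSectionVars false

namespace H22CR

open NumberField H14CFT H3CR
open scoped nonZeroDivisors

/-- **(J8)**. -/
theorem h22c_normSplit (p : ℕ) : NormSplit p := by
  intro K L E M _ _ _ _ _ _ _ _ _ _ _ _ _ ζ α β β' D ν hp hζ hβ hgen hβ' hν hD c hc
  haveI : NeZero p := ⟨hp.ne_zero⟩
  haveI : Fact p.Prime := ⟨hp⟩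
  have hle : Subgroup.closure
      {c | ∃ 𝔔 : (Ideal (𝓞 E))⁰, 𝔔.1.IsPrime ∧ ¬ (Ideal.absNorm 𝔔.1 ∣ D) ∧
          SplitsCompletely E M 𝔔.1 ∧ c = ClassGroup.mk0 𝔔} ≤ (normClasses K L p).comap ν := by
    rw [Subgroup.closure_le]
    rintro c ⟨𝔔, h𝔔p, h𝔔D, hsplit, rfl⟩
    show ν (ClassGroup.mk0 𝔔) ∈ normClasses K L p
    have h𝔔0 : 𝔔.1 ≠ ⊥ := mem_nonZeroDivisors_iff_ne_zero.mp 𝔔.2
    set φ := algebraMap (𝓞 K) (𝓞 E) with hφ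
    set 𝔮 : Ideal (𝓞 K) := 𝔔.1.under (𝓞 K) with h𝔮def
    haveI h𝔮p : 𝔮.IsPrime := Ideal.IsPrime.under (𝓞 K) 𝔔.1
    have h𝔮0 : 𝔮 ≠ ⊥ := Ideal.under_ne_bot (A := 𝓞 K) h𝔔0
    obtain ⟨hpE, hαE⟩ := hD 𝔔.1 h𝔔p h𝔔D
    have hp𝔮 : (p : 𝓞 K) ∉ 𝔮 := by
      intro hm
      apply hpE
      have := Ideal.mem_comap.mp hm
      simpa using this
    have hα𝔮 : α ∉ 𝔮 := fun hm => hαE (Ideal.mem_comap.mp hm)
    have hgood : GoodPrime p ζ 𝔮 := goodPrime_of_prime hp hζ h𝔮p h𝔮0 hp𝔮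
    have hgood' : GoodPrime p (φ ζ) 𝔔.1 := goodPrime_over (M := E) hgood h𝔔p rfl h𝔮0
    have hsymE : sym p (φ ζ) (φ α) 𝔔.1 = 0 :=
      h3cr_splitEasy p E M (φ ζ) (φ α) β' 𝔔.1 hgood' hαE hβ' hsplit
    haveI : 𝔔.1.LiesOver 𝔮 := ⟨rfl⟩
    haveI h𝔮m : 𝔮.IsMaximal := Ring.DimensionLEOne.maximalOfPrime h𝔮0 h𝔮p
    haveI h𝔔m : 𝔔.1.IsMaximal := Ring.DimensionLEOne.maximalOfPrime h𝔔0 h𝔔p
    set f := 𝔔.1.inertiaDeg (𝓞 K) with hf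
    have hN : Ideal.absNorm 𝔔.1 = Ideal.absNorm 𝔮 ^ f :=
      H25SP.h25sp_absNorm_eq_pow K E 𝔮 𝔔.1 h𝔮0
    have htower : sym p (φ ζ) (φ α) 𝔔.1 = f * sym p ζ α 𝔮 :=
      h3cr_symTower p K E ζ α 𝔮 𝔔.1 f hgood hα𝔮 h𝔔p rfl hN
    rw [hsymE] at htower
    have hrel : Ideal.relNorm (𝓞 K) 𝔔.1 = 𝔮 ^ f := Ideal.relNorm_eq_pow_of_isMaximal 𝔔.1 𝔮
    set 𝔮₀ : (Ideal (𝓞 K))⁰ := ⟨𝔮, mem_nonZeroDivisors_iff_ne_zero.mpr h𝔮0⟩ with h𝔮₀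
    have hνeq : ν (ClassGroup.mk0 𝔔) = ClassGroup.mk0 𝔮₀ ^ f := by
      rw [← map_pow]
      exact hν 𝔔 (𝔮₀ ^ f) (by rw [hrel]; rfl)
    rw [hνeq]
    rcases mul_eq_zero.mp htower.symm with h0 | h0
    · -- `p ∣ f`
      obtain ⟨m, hm⟩ := (ZMod.natCast_eq_zero_iff f p).mp h0
      rw [hm, mul_comm, pow_mul]
      exact Subgroup.subset_closure (Or.inr ⟨_, rfl⟩)
    · -- `𝔮` splits completely in `L`
      have hs : SplitsCompletely K L 𝔮 := h3cr_splitHard p K L ζ α β 𝔮 hgood hα𝔮 hβ hgen h0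
      refine Subgroup.pow_mem _ ?_ f
      exact Subgroup.subset_closure (Or.inl ⟨𝔮₀, h𝔮p, hs, rfl⟩)
  exact hle hc

end H22CR
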