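/-
T-CFT module CR, assembly slice J5 (helper22): `H3CR.FrobSym p`:
a relation `σ₁ = σ₂ ^ a` between Frobenius elements gives `sym(α, P₁) = a · sym(α, P₂)`,
and nontrivial Frobenius elements have nonzero symbols.
-/
import Mathlib
import Fermat.Agent.CFT.Defs
import Fermat.Agent.CFT.CR.Sym
import Fermat.Agent.CFT.CR.Interface
import Fermat.Agent.CFT.CR.AsmInterface
import Fermat.Agent.CFT.CR.SymNF
import Fermat.Agent.CFT.CR.Split

set_option autoImplicit false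
set_option linter.style.haveILetI false
set_option linter.unusedSectionVars false

namespace H22CR

open NumberField H14CFT H3CR

section

variable {K L : Type} [Field K] [NumberField K] [Field L] [NumberField L] [Algebra K L]
  [IsGalois K L]

/-- powers of an automorphism acting on a Kummer generator -/
theorem h22c_pow_smul_root {ζ : 𝓞 K} {β : 𝓞 L} {σ : L ≃ₐ[K] L} {j : ℕ}
    (h : σ • β = (algebraMap (𝓞 K) (𝓞 L) ζ) ^ j * β) (n : ℕ) :
    (σ ^ n) • β = (algebraMap (𝓞 K) (𝓞 L) ζ) ^ (n * j) * β := by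
  induction n with
  | zero => simp
  | succ n ih =>
    rw [pow_succ', mul_smul, ih, smul_mul', ← map_pow, smul_algebraMap, h, map_pow, ← mul_assoc,
      ← pow_add, Nat.succ_mul]

end

/-- **(J5)**. -/
theorem h22c_frobSym (p : ℕ) : FrobSym p := by
  intro K L _ _ _ _ _ _ ζ α β P₁ P₂ Q₁ Q₂ σ₁ σ₂ a h1 h2 hα1 hα2 hβ hgen hQ1 hQ2 hu1 hu2 hF1 hF2
    hrel hσ1 hσ2
  have hp := h1.hp
  haveI : NeZero p := ⟨hp.ne_zero⟩
  set φ := algebraMap (𝓞 K) (𝓞 L) with hφ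
  have hζ' : IsPrimitiveRoot (φ ζ) p :=
    h1.hζ.map_of_injective (FaithfulSMul.algebraMap_injective (𝓞 K) (𝓞 L))
  have hl1 := h3cr_frobLink p K L ζ α β P₁ Q₁ σ₁ h1 hα1 hβ hQ1 hu1 hF1
  have hl2 := h3cr_frobLink p K L ζ α β P₂ Q₂ σ₂ h2 hα2 hβ hQ2 hu2 hF2
  have hβ0 : β ≠ 0 := by
    intro h0
    exact root_notMem hp hQ1 hu1 hα1 hβ (h0 ▸ Q₁.zero_mem)
  have hne : ∀ (P : Ideal (𝓞 K)) (σ : L ≃ₐ[K] L),
      σ • β = φ ζ ^ (sym p ζ α P).val * β → σ ≠ 1 → sym p ζ α P ≠ 0 := by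
    intro P σ hl hσ h0
    apply hσ
    rw [h0, ZMod.val_zero, pow_zero, one_mul] at hl
    apply eq_one_of_apply_eq hgen
    exact congrArg (fun x : 𝓞 L => (x : L)) hl
  refine ⟨?_, hne P₁ σ₁ hl1 hσ1, hne P₂ σ₂ hl2 hσ2⟩
  have hpow := h22c_pow_smul_root hl2 a
  rw [← hrel, hl1] at hpow
  have h3 : φ ζ ^ (sym p ζ α P₁).val = φ ζ ^ (a * (sym p ζ α P₂).val) :=
    mul_right_cancel₀ hβ0 hpow
  have hgood' : GoodPrime p (φ ζ) Q₁ := goodPrime_over (M := L) h1 hQ1 hu1 (goodPrime_ne_bot h1)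
  have h5 := hgood'.pow_congr (a := (sym p ζ α P₁).val) (b := a * (sym p ζ α P₂).val) (by
    rw [h3, sub_self]; exact Q₁.zero_mem)
  rw [ZMod.natCast_val, ZMod.cast_id', id] at h5
  rw [h5]
  push_cast
  rw [ZMod.natCast_val, ZMod.cast_id', id]

end H22CR
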