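/-
T-CFT module CR, assembly slice J1 (helper26): trivial Frobenius ⇒ complete splitting.
-/
import Mathlib
import Fermat.Agent.CFT.Defs
import Fermat.Agent.CFT.CR.Split
import Fermat.Agent.CFT.CR.AsmInterface

set_option autoImplicit false
set_option linter.style.haveILetI false
set_option linter.unusedSectionVars false

namespace H26CR

open NumberField H14CFT
open scoped Pointwise

/-- in a finite field all of whose elements satisfy `y ^ q = y` (`1 < q`) there are at most
`q` elements -/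
theorem h26fo_card_le {F : Type*} [Field F] [Finite F] {q : ℕ} (hq : 1 < q)
    (h : ∀ y : F, y ^ q = y) : Nat.card F ≤ q := by
  classical
  haveI := Fintype.ofFinite F
  have hne : (Polynomial.X ^ q - Polynomial.X : Polynomial F) ≠ 0 :=
    FiniteField.X_pow_card_sub_X_ne_zero F hq
  have hdeg : (Polynomial.X ^ q - Polynomial.X : Polynomial F).natDegree = q :=
    FiniteField.X_pow_card_sub_X_natDegree_eq F hq
  have hsub : (Finset.univ : Finset F) ⊆
      (Polynomial.X ^ q - Polynomial.X : Polynomial F).roots.toFinset := by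
    intro y _
    rw [Multiset.mem_toFinset, Polynomial.mem_roots hne]
    simp [h y]
  calc Nat.card F = (Finset.univ : Finset F).card := by
        rw [Nat.card_eq_fintype_card, Finset.card_univ]
    _ ≤ (Polynomial.X ^ q - Polynomial.X : Polynomial F).roots.toFinset.card :=
        Finset.card_le_card hsub
    _ ≤ Multiset.card (Polynomial.X ^ q - Polynomial.X : Polynomial F).roots :=
        Multiset.toFinset_card_le _
    _ ≤ (Polynomial.X ^ q - Polynomial.X : Polynomial F).natDegree :=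
        Polynomial.card_roots' _
    _ = q := hdeg

/-- **(J1)** trivial Frobenius ⇒ complete splitting. -/
theorem h26_frobOneSplit : H3CR.FrobOneSplit := by
  intro K L _ _ _ _ _ _ hunr P Q hP hP0 hQ hu hfrob
  haveI := hP
  haveI := hQ
  haveI hlies : Q.LiesOver P := ⟨hu.symm⟩
  have hQ0 : Q ≠ ⊥ := by
    intro h
    apply hP0
    rw [← hu, h]
    exact Ideal.under_bot _ _
  haveI hfinQ : Finite (𝓞 L ⧸ Q) := Ideal.finiteQuotientOfFreeOfNeBot Q hQ0
  haveI hfinP : Finite (𝓞 K ⧸ P) := Ideal.finiteQuotientOfFreeOfNeBot P hP0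
  haveI hQmax : Q.IsMaximal := hQ.isMaximal hQ0
  haveI hPmax : P.IsMaximal := hP.isMaximal hP0
  letI : Field (𝓞 L ⧸ Q) := Ideal.Quotient.field Q
  have hq : 1 < Nat.card (𝓞 K ⧸ P) := Finite.one_lt_card
  have hpow : ∀ y : 𝓞 L ⧸ Q, y ^ Nat.card (𝓞 K ⧸ P) = y := by
    intro y
    obtain ⟨x, rfl⟩ := Ideal.Quotient.mk_surjective y
    have h1 := hfrob.mk_apply x
    rw [hu] at h1
    rw [← h1]
    simp
  have hcard : Nat.card (𝓞 L ⧸ Q) ≤ Nat.card (𝓞 K ⧸ P) := h26fo_card_le hq hpow
  -- the residue field extension is trivial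
  have hle : P ≤ Q.comap (algebraMap (𝓞 K) (𝓞 L)) := by
    rw [← hu]
  have hinj : Function.Injective (Ideal.quotientMap Q (algebraMap (𝓞 K) (𝓞 L)) hle) := by
    apply Ideal.quotientMap_injective'
    rw [← hu]
  have hbij : Function.Bijective (Ideal.quotientMap Q (algebraMap (𝓞 K) (𝓞 L)) hle) :=
    hinj.bijective_of_nat_card_le hcard
  have hrep : ∀ x : 𝓞 L, ∃ a : 𝓞 K, x - algebraMap (𝓞 K) (𝓞 L) a ∈ Q := by
    intro x
    obtain ⟨b, hb⟩ := hbij.2 (Ideal.Quotient.mk Q x)
    obtain ⟨a, rfl⟩ := Ideal.Quotient.mk_surjective b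
    refine ⟨a, ?_⟩
    rw [Ideal.quotientMap_mk] at hb
    rw [← Ideal.Quotient.eq]
    exact hb.symm
  -- the stabilizer is trivial
  have hstab : ∀ σ : L ≃ₐ[K] L, σ ∈ MulAction.stabilizer (L ≃ₐ[K] L) Q → σ = 1 := by
    intro σ hσ
    rw [MulAction.mem_stabilizer_iff] at hσ
    apply hunr Q hQ hQ0 σ
    intro x
    obtain ⟨a, ha⟩ := hrep x
    have h2 : σ • (x - algebraMap (𝓞 K) (𝓞 L) a) ∈ Q := by
      have : σ • (x - algebraMap (𝓞 K) (𝓞 L) a) ∈ σ • Q :=
        Ideal.smul_mem_pointwise_smul _ _ _ ha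
      rwa [hσ] at this
    have h3 : σ • (x - algebraMap (𝓞 K) (𝓞 L) a) = σ • x - algebraMap (𝓞 K) (𝓞 L) a := by
      rw [smul_sub, smul_algebraMap]
    rw [h3] at h2
    have := Q.sub_mem h2 ha
    simpa using this
  have hcount := H3CR.ncard_primesOver_mul_card_stabilizer (E := K) (M := L) (𝔮 := P) Q
  have hcard1 : Nat.card (MulAction.stabilizer (L ≃ₐ[K] L) Q) = 1 := by
    rw [Nat.card_eq_one_iff_unique]
    refine ⟨⟨fun a b => ?_⟩, ⟨1⟩⟩
    apply Subtype.ext
    rw [hstab a.1 a.2, hstab b.1 b.2]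
  unfold SplitsCompletely
  rw [hcard1, mul_one] at hcount
  exact hcount

end H26CR
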