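/-
T-CFT module CR, slice J4 (helper3, backup copy): independence by valuations.
-/
import Mathlib
import Fermat.Agent.CFT.CR.AsmInterface
import Fermat.Agent.CFT.CR.AsmBasic
import Fermat.Agent.CFT.CR.H18RamNorm

set_option autoImplicit false
set_option linter.style.haveILetI false
set_option linter.unusedSectionVars false
set_option linter.unusedVariables false

namespace H3CR

open NumberField H14CFT IsDedekindDomain
open scoped nonZeroDivisors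

/-- a prime of `𝓞 K` over a rational prime -/
theorem h3vi_exists_prime (K : Type) [Field K] [NumberField K] {r : ℕ} (hr : r.Prime) :
    ∃ v : HeightOneSpectrum (𝓞 K), (r : 𝓞 K) ∈ v.asIdeal := by
  have hne : Ideal.span {(r : 𝓞 K)} ≠ ⊤ := by
    intro h
    have h1 := Ideal.absNorm_span_natCast (S := 𝓞 K) r
    rw [h, Ideal.absNorm_top] at h1
    have hpos : 0 < Module.finrank ℤ (𝓞 K) := by
      rw [RingOfIntegers.rank]
      exact Module.finrank_pos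
    have : 1 < r ^ Module.finrank ℤ (𝓞 K) := Nat.one_lt_pow hpos.ne' hr.one_lt
    omega
  obtain ⟨M, hM, hle⟩ := Ideal.exists_le_maximal _ hne
  have hmem : (r : 𝓞 K) ∈ M := hle (Ideal.subset_span rfl)
  have hM0 : M ≠ ⊥ := by
    rintro rfl
    have : (r : 𝓞 K) = 0 := by simpa using hmem
    exact hr.ne_zero (Nat.cast_eq_zero.mp this)
  exact ⟨⟨M, hM.isPrime, hM0⟩, hmem⟩

/-- the arithmetic core: `exp(-s)^a * y^p = 1` with `0 < s < p` forces `p ∣ a`. -/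
theorem h3vi_dvd_of_exp {p : ℕ} (hp : p.Prime) {s a : ℕ} (hs1 : 1 ≤ s) (hsp : s < p)
    {y : WithZero (Multiplicative ℤ)} (hy : y ≠ 0)
    (h : (1 : WithZero (Multiplicative ℤ)) = WithZero.exp (-(s : ℤ)) ^ a * y ^ p) : p ∣ a := by
  rw [← WithZero.exp_log hy, ← WithZero.exp_nsmul, ← WithZero.exp_nsmul, ← WithZero.exp_add,
    ← WithZero.exp_zero, WithZero.exp_inj] at h
  have h1 : (a : ℤ) * s = p * WithZero.log y := by
    simp only [nsmul_eq_mul] at h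
    linarith
  have h2 : (p : ℤ) ∣ (a : ℤ) * s := ⟨_, h1⟩
  have h3 : p ∣ a * s := by exact_mod_cast h2
  rcases (Nat.Prime.dvd_mul hp).mp h3 with h4 | h4
  · exact h4
  · exact absurd (Nat.le_of_dvd (by omega) h4) (by omega)

/-- **(J4)** independence by valuations. -/
theorem h3vi_valIndep (p : ℕ) : ValIndep p := by
  intro K _ _ _ α ρ₁ ρ₂ r₁ r₂ x₁ x₂ hp hr₁ hr₂ hr₁₂ hr₁p hr₂p hρ₁a hρ₁b hρ₂a hρ₂b hαr₁ hαr₂ hαpow
  have hp2 : 2 ≤ p := hp.two_le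
  -- the general valuation statement at a prime over `r`
  have key : ∀ (r r' x x' : ℕ) (ρ ρ' : 𝓞 K), r.Prime → r'.Prime → r ≠ r' → r ≠ p →
      (r : 𝓞 K) ∣ ρ → ρ ∣ (r : 𝓞 K) ^ (p - 1) → ρ' ∣ (r' : 𝓞 K) ^ (p - 1) →
      (∀ 𝔯 : Ideal (𝓞 K), 𝔯.IsPrime → (r : 𝓞 K) ∈ 𝔯 → α ∉ 𝔯) →
      ∃ (v : HeightOneSpectrum (𝓞 K)) (s : ℕ), 1 ≤ s ∧ s < p ∧
        v.valuation K (α : K) = 1 ∧
        v.valuation K ((α ^ x * ρ : 𝓞 K) : K) = WithZero.exp (-(s : ℤ)) ∧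
        v.valuation K ((α ^ x' * ρ' : 𝓞 K) : K) = 1 := by
    intro r r' x x' ρ ρ' hr hr' hrr' hrp h1 h2 h2' hαr
    obtain ⟨v, hv⟩ := h3vi_exists_prime K hr
    have hαv : α ∉ v.asIdeal := hαr v.asIdeal v.isPrime hv
    have hαxv : α ^ x ∉ v.asIdeal := fun hm => hαv (v.isPrime.mem_of_pow_mem _ hm)
    have hαx'v : α ^ x' ∉ v.asIdeal := fun hm => hαv (v.isPrime.mem_of_pow_mem _ hm)
    have hvr := H18CR.h18cr_intValuation_natCast p r K hp hr hrp v hv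
    obtain ⟨s, hs1, hsp, hs⟩ := H18CR.h18cr_intValuation_mul v p hp2 (α ^ x) ρ (r : 𝓞 K) hvr h1 h2
      hαxv
    have hr'v : (r' : 𝓞 K) ∉ v.asIdeal :=
      h3a_natCast_notMem v.isPrime.ne_top ((Nat.coprime_primes hr hr').mpr hrr') hv
    have hρ'v : ρ' ∉ v.asIdeal := fun hm =>
      hr'v (v.isPrime.mem_of_pow_mem _ (Ideal.mem_of_dvd _ h2' hm))
    have hγ'v : α ^ x' * ρ' ∉ v.asIdeal := fun hm =>
      (v.isPrime.mem_or_mem hm).elim hαx'v hρ'v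
    refine ⟨v, s, hs1, hsp, ?_, ?_, ?_⟩
    · rw [show (α : K) = algebraMap (𝓞 K) K α from rfl, HeightOneSpectrum.valuation_of_algebraMap]
      exact HeightOneSpectrum.intValuation_eq_one_iff.mpr hαv
    · rw [show ((α ^ x * ρ : 𝓞 K) : K) = algebraMap (𝓞 K) K (α ^ x * ρ) from rfl,
        HeightOneSpectrum.valuation_of_algebraMap]
      exact hs
    · rw [show ((α ^ x' * ρ' : 𝓞 K) : K) = algebraMap (𝓞 K) K (α ^ x' * ρ') from rfl,
        HeightOneSpectrum.valuation_of_algebraMap]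
      exact HeightOneSpectrum.intValuation_eq_one_iff.mpr hγ'v
  have hα0 : (α : K) ≠ 0 := by
    intro h0
    exact hαpow 0 (by rw [zero_pow hp.ne_zero, h0])
  refine ⟨?_, ?_⟩
  · -- `γ₁` is not a `p`-th power
    intro c hc
    obtain ⟨v, s, hs1, hsp, hvα, hvγ, -⟩ := key r₁ r₂ x₁ x₂ ρ₁ ρ₂ hr₁ hr₂ hr₁₂ hr₁p hρ₁a hρ₁b hρ₂b
      hαr₁
    have hc0 : c ≠ 0 := by
      rintro rfl
      rw [zero_pow hp.ne_zero] at hc
      rw [← hc, map_zero] at hvγ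
      exact WithZero.exp_ne_zero hvγ.symm
    have hvc : v.valuation K c ≠ 0 := (Valuation.ne_zero_iff _).mpr hc0
    have h2 : (1 : WithZero (Multiplicative ℤ)) =
        WithZero.exp (-(s : ℤ)) ^ 1 * ((v.valuation K c)⁻¹) ^ p := by
      rw [pow_one, ← hvγ, ← hc, map_pow, ← mul_pow, mul_inv_cancel₀ hvc, one_pow]
    have h3 := h3vi_dvd_of_exp hp hs1 hsp (inv_ne_zero hvc) h2
    exact absurd (Nat.le_of_dvd one_pos h3) (by omega)
  · intro a b c hc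
    have hc0 : c ≠ 0 := by
      rintro rfl
      rw [zero_pow hp.ne_zero, mul_zero] at hc
      exact hα0 hc
    -- `p ∣ a`
    have hpa : p ∣ a := by
      obtain ⟨v, s, hs1, hsp, hvα, hvγ, hvγ'⟩ := key r₁ r₂ x₁ x₂ ρ₁ ρ₂ hr₁ hr₂ hr₁₂ hr₁p hρ₁a
        hρ₁b hρ₂b hαr₁
      have hvc : v.valuation K c ≠ 0 := (Valuation.ne_zero_iff _).mpr hc0
      have h1 := congrArg (v.valuation K) hc
      rw [hvα, map_mul, map_mul, map_pow, map_pow, map_pow, hvγ, hvγ', one_pow, mul_one] at h1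
      exact h3vi_dvd_of_exp hp hs1 hsp hvc h1
    have hpb : p ∣ b := by
      obtain ⟨v, s, hs1, hsp, hvα, hvγ, hvγ'⟩ := key r₂ r₁ x₂ x₁ ρ₂ ρ₁ hr₂ hr₁ hr₁₂.symm hr₂p
        hρ₂a hρ₂b hρ₁b hαr₂
      have hvc : v.valuation K c ≠ 0 := (Valuation.ne_zero_iff _).mpr hc0
      have h1 := congrArg (v.valuation K) hc
      rw [hvα, map_mul, map_mul, map_pow, map_pow, map_pow, hvγ, hvγ', one_pow, one_mul] at h1
      exact h3vi_dvd_of_exp hp hs1 hsp hvc h1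
    obtain ⟨a', rfl⟩ := hpa
    obtain ⟨b', rfl⟩ := hpb
    apply hαpow (((α ^ x₁ * ρ₁ : 𝓞 K) : K) ^ a' * ((α ^ x₂ * ρ₂ : 𝓞 K) : K) ^ b' * c)
    rw [hc, mul_pow, mul_pow, ← pow_mul, ← pow_mul, mul_comm a' p, mul_comm b' p]

end H3CR
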