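import Mathlib
import Fermat.Agent.CFT.CR.Sym

set_option autoImplicit false
set_option linter.style.haveILetI false
set_option linter.unusedSectionVars false

noncomputable section

namespace H5J

open H3CR Finset

section ind

variable (p r : ℕ)

/-- a primitive `p`-th root of unity in `ZMod r` -/
theorem h5j_exists_omega (hp : p.Prime) (hr : r.Prime) (hpr : p ∣ r - 1) :
    ∃ ω : ZMod r, IsPrimitiveRoot ω p := by
  haveI : Fact r.Prime := ⟨hr⟩
  haveI : Fact p.Prime := ⟨hp⟩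
  have hcard : Fintype.card (ZMod r)ˣ = r - 1 := by
    rw [ZMod.card_units_eq_totient, Nat.totient_prime hr]
  obtain ⟨u, hu⟩ := exists_prime_orderOf_dvd_card (G := (ZMod r)ˣ) p (by rw [hcard]; exact hpr)
  refine ⟨(u : ZMod r), ?_⟩
  have := IsPrimitiveRoot.orderOf (u : ZMod r)
  rwa [orderOf_units, hu] at this

/-- the chosen primitive `p`-th root of unity in `ZMod r` (junk if none exists) -/
def omega : ZMod r :=
  open Classical in
  if h : ∃ ω : ZMod r, IsPrimitiveRoot ω p then h.choose else 1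

theorem omega_spec (hp : p.Prime) (hr : r.Prime) (hpr : p ∣ r - 1) :
    IsPrimitiveRoot (omega p r) p := by
  unfold omega
  rw [dif_pos (h5j_exists_omega p r hp hr hpr)]
  exact (h5j_exists_omega p r hp hr hpr).choose_spec

/-- `p < r` -/
theorem h5j_lt (_hp : p.Prime) (hr : r.Prime) (hpr : p ∣ r - 1) : p < r := by
  have h1 : 0 < r - 1 := by have := hr.two_le; omega
  have := Nat.le_of_dvd h1 hpr
  omega

theorem h5j_good (hp : p.Prime) (hr : r.Prime) (hpr : p ∣ r - 1) :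
    GoodPrime p (omega p r) (⊥ : Ideal (ZMod r)) := by
  haveI : Fact r.Prime := ⟨hr⟩
  refine ⟨hp, omega_spec p r hp hr hpr, Ideal.bot_isMaximal, inferInstance, ?_⟩
  rw [Ideal.mem_bot, ZMod.natCast_eq_zero_iff]
  intro h
  have := Nat.le_of_dvd hp.pos h
  have := h5j_lt p r hp hr hpr
  omega

theorem h5j_card_quot (hr : r.Prime) : Nat.card (ZMod r ⧸ (⊥ : Ideal (ZMod r))) = r := by
  haveI : Fact r.Prime := ⟨hr⟩
  rw [Nat.card_congr (RingEquiv.quotientBot (ZMod r)).toEquiv, Nat.card_eq_fintype_card,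
    ZMod.card]

/-- the index (discrete logarithm mod `p`) on `ZMod r` -/
def indZ (x : ZMod r) : ZMod p := sym p (omega p r) x ⊥

/-- the index on natural numbers -/
def ind (m : ℕ) : ZMod p := indZ p r (m : ZMod r)

variable {p r}

theorem indZ_mul (hp : p.Prime) (hr : r.Prime) (hpr : p ∣ r - 1) {x y : ZMod r}
    (hx : x ≠ 0) (hy : y ≠ 0) : indZ p r (x * y) = indZ p r x + indZ p r y :=
  haveI : Fact r.Prime := ⟨hr⟩
  (h5j_good p r hp hr hpr).sym_mul (by simpa using hx) (by simpa using hy)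

theorem indZ_one (hp : p.Prime) (hr : r.Prime) (hpr : p ∣ r - 1) : indZ p r 1 = 0 :=
  haveI : Fact r.Prime := ⟨hr⟩
  (h5j_good p r hp hr hpr).sym_one

theorem indZ_eq_zero_iff (hp : p.Prime) (hr : r.Prime) (hpr : p ∣ r - 1) {x : ZMod r}
    (hx : x ≠ 0) : indZ p r x = 0 ↔ x ^ ((r - 1) / p) = 1 := by
  haveI : Fact r.Prime := ⟨hr⟩
  have := (h5j_good p r hp hr hpr).sym_eq_zero_iff (γ := x) (by simpa using hx)
  rw [h5j_card_quot r hr, Ideal.mem_bot, sub_eq_zero] at this
  exact this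

theorem indZ_neg_one (hp : p.Prime) (hp2 : p ≠ 2) (hr : r.Prime) (hpr : p ∣ r - 1) :
    indZ p r (-1) = 0 := by
  haveI : Fact r.Prime := ⟨hr⟩
  haveI : Fact p.Prime := ⟨hp⟩
  have h1 : indZ p r ((-1) * (-1)) = indZ p r (-1) + indZ p r (-1) :=
    indZ_mul hp hr hpr (by simp) (by simp)
  rw [neg_one_mul, neg_neg, indZ_one hp hr hpr] at h1
  have h2 : (2 : ZMod p) * indZ p r (-1) = 0 := by rw [two_mul]; exact h1.symm
  rcases mul_eq_zero.mp h2 with h | h
  · exfalso
    have : ((2 : ℕ) : ZMod p) = 0 := by exact_mod_cast h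
    rw [ZMod.natCast_eq_zero_iff] at this
    have := (Nat.prime_dvd_prime_iff_eq hp Nat.prime_two).mp this
    exact hp2 this
  · exact h

/-- there is an element of nonzero index -/
theorem exists_indZ_ne_zero (hp : p.Prime) (hr : r.Prime) (hpr : p ∣ r - 1) :
    ∃ x : ZMod r, x ≠ 0 ∧ indZ p r x ≠ 0 := by
  haveI : Fact r.Prime := ⟨hr⟩
  obtain ⟨g, hg⟩ := IsCyclic.exists_generator (α := (ZMod r)ˣ)
  have hord : orderOf g = r - 1 := by
    rw [orderOf_eq_card_of_forall_mem_zpowers hg, Nat.card_eq_fintype_card,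
      ZMod.card_units_eq_totient, Nat.totient_prime hr]
  refine ⟨(g : ZMod r), Units.ne_zero g, ?_⟩
  rw [Ne, indZ_eq_zero_iff hp hr hpr (Units.ne_zero g)]
  intro h
  have h1 : g ^ ((r - 1) / p) = 1 := by
    apply Units.ext
    rw [Units.val_pow_eq_pow_val, h, Units.val_one]
  have h2 : 0 < r - 1 := by have := hr.two_le; omega
  have hlt : (r - 1) / p < orderOf g := by
    rw [hord]
    exact Nat.div_lt_self h2 hp.one_lt
  have hpos : (r - 1) / p ≠ 0 := by
    have := Nat.div_pos (Nat.le_of_dvd h2 hpr) hp.pos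
    omega
  exact pow_ne_one_of_lt_orderOf hpos hlt h1

theorem ind_mul (hp : p.Prime) (hr : r.Prime) (hpr : p ∣ r - 1) (m n : ℕ)
    (hm : ¬ r ∣ m) (hn : ¬ r ∣ n) : ind p r (m * n) = ind p r m + ind p r n := by
  unfold ind
  rw [Nat.cast_mul]
  exact indZ_mul hp hr hpr (by rwa [Ne, ZMod.natCast_eq_zero_iff])
    (by rwa [Ne, ZMod.natCast_eq_zero_iff])

theorem ind_congr (m n : ℕ) (h : m ≡ n [MOD r]) : ind p r m = ind p r n := by
  unfold ind
  rw [(ZMod.natCast_eq_natCast_iff m n r).mpr h]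

theorem ind_eq_zero_iff (hp : p.Prime) (hr : r.Prime) (hpr : p ∣ r - 1) (m : ℕ)
    (hm : ¬ r ∣ m) : ind p r m = 0 ↔ m ^ ((r - 1) / p) ≡ 1 [MOD r] := by
  unfold ind
  rw [indZ_eq_zero_iff hp hr hpr (by rwa [Ne, ZMod.natCast_eq_zero_iff]),
    ← ZMod.natCast_eq_natCast_iff]
  push_cast
  rfl

end ind

end H5J
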