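import Mathlib
import Fermat.Agent.CFT.CR.H5JacobiInd

set_option autoImplicit false
set_option linter.style.haveILetI false
set_option linter.unusedSectionVars false

noncomputable section

namespace H5J

open H3CR Finset

section chi

variable (p r : ℕ) [Fact r.Prime] {R : Type*} [CommRing R]

/-- the values of the character `χ(x) = ζ ^ (-ind x)` (and `χ 0 = 0`) -/
def chiFun (ζ : R) (x : ZMod r) : R := if x = 0 then 0 else ζ ^ (-(indZ p r x)).val

/-- the `j`-th Jacobi sum `J(χ, χ^j)` as a polynomial expression in `ζ` -/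
def jac (ζ : R) (j : ℕ) : R := ∑ x : ZMod r, chiFun p r ζ x * (chiFun p r ζ (1 - x)) ^ j

/-- the Jacobi element `ρ = r · ∏_{j=1}^{p-2} J(χ, χ^j)` -/
def rhoJ (ζ : R) : R := (r : R) * ∏ j ∈ Finset.Ico 1 (p - 1), jac p r ζ j

variable {p r}

theorem h5j_pow_val_add [NeZero p] {ζ : R} (hζ : ζ ^ p = 1) (a b : ZMod p) :
    ζ ^ (a + b).val = ζ ^ a.val * ζ ^ b.val := by
  rw [ZMod.val_add, ← pow_add, ← pow_eq_pow_mod _ hζ]

theorem h5j_pow_val_neg [NeZero p] {ζ : R} (hζ : ζ ^ p = 1) (a : ZMod p) :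
    ζ ^ (-a).val * ζ ^ a.val = 1 := by
  rw [← h5j_pow_val_add hζ, neg_add_cancel, ZMod.val_zero, pow_zero]

theorem chiFun_map {S : Type*} [CommRing S] (φ : R →+* S) (ζ : R) (x : ZMod r) :
    φ (chiFun p r ζ x) = chiFun p r (φ ζ) x := by
  unfold chiFun
  split_ifs <;> simp

theorem jac_map {S : Type*} [CommRing S] (φ : R →+* S) (ζ : R) (j : ℕ) :
    φ (jac p r ζ j) = jac p r (φ ζ) j := by
  unfold jac
  simp only [map_sum, map_mul, map_pow, chiFun_map]

theorem rhoJ_map {S : Type*} [CommRing S] (φ : R →+* S) (ζ : R) :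
    φ (rhoJ p r ζ) = rhoJ p r (φ ζ) := by
  unfold rhoJ
  simp only [map_mul, map_natCast, map_prod, jac_map]

/-- the multiplicative character `χ` -/
def chi (hp : p.Prime) (hpr : p ∣ r - 1) {ζ : R} (hζ : ζ ^ p = 1) : MulChar (ZMod r) R where
  toFun := chiFun p r ζ
  map_one' := by
    show chiFun p r ζ 1 = 1
    rw [chiFun, if_neg one_ne_zero, indZ_one hp Fact.out hpr, neg_zero]
    haveI : NeZero p := ⟨hp.ne_zero⟩
    rw [ZMod.val_zero, pow_zero]
  map_mul' := fun x y => by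
    haveI : NeZero p := ⟨hp.ne_zero⟩
    show chiFun p r ζ (x * y) = chiFun p r ζ x * chiFun p r ζ y
    by_cases hx : x = 0
    · simp [chiFun, hx]
    by_cases hy : y = 0
    · simp [chiFun, hy]
    rw [chiFun, chiFun, chiFun, if_neg hx, if_neg hy, if_neg (mul_ne_zero hx hy),
      indZ_mul hp Fact.out hpr hx hy, neg_add, h5j_pow_val_add hζ]
  map_nonunit' := fun a ha => by
    show chiFun p r ζ a = 0
    have : a = 0 := by
      by_contra h
      exact ha (isUnit_iff_ne_zero.mpr h)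
    rw [chiFun, if_pos this]

theorem chi_apply (hp : p.Prime) (hpr : p ∣ r - 1) {ζ : R} (hζ : ζ ^ p = 1) (x : ZMod r) :
    chi hp hpr hζ x = chiFun p r ζ x := rfl

theorem chi_ringHomComp {S : Type*} [CommRing S] (φ : R →+* S) (hp : p.Prime) (hpr : p ∣ r - 1)
    {ζ : R} (hζ : ζ ^ p = 1) :
    (chi hp hpr hζ).ringHomComp φ = chi hp hpr (ζ := φ ζ) (by rw [← map_pow, hζ, map_one]) := by
  ext x
  rw [MulChar.ringHomComp_apply, chi_apply, chi_apply, chiFun_map]

theorem jac_eq_jacobiSum (hp : p.Prime) (hpr : p ∣ r - 1) {ζ : R} (hζ : ζ ^ p = 1) {j : ℕ}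
    (hj : j ≠ 0) :
    jac p r ζ j = jacobiSum (chi hp hpr hζ) (chi hp hpr hζ ^ j) := by
  unfold jac jacobiSum
  apply Finset.sum_congr rfl
  intro x _
  rw [MulChar.pow_apply' _ hj, chi_apply, chi_apply]

theorem rhoJ_eq (hp : p.Prime) (hpr : p ∣ r - 1) {ζ : R} (hζ : ζ ^ p = 1) :
    rhoJ p r ζ = (r : R) *
      ∏ j ∈ Finset.Ico 1 (p - 1), jacobiSum (chi hp hpr hζ) (chi hp hpr hζ ^ j) := by
  unfold rhoJ
  congr 1
  apply Finset.prod_congr rfl
  intro j hj
  rw [Finset.mem_Ico] at hj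
  exact jac_eq_jacobiSum hp hpr hζ (by omega)

end chi

end H5J
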