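import Mathlib
import Fermat.Agent.CFT.CR.H5JacobiChi

set_option autoImplicit false
set_option linter.style.haveILetI false
set_option linter.unusedSectionVars false

noncomputable section

namespace H5J

open H3CR Finset

section order

variable {p r : ℕ} [Fact r.Prime] {R : Type*} [CommRing R] [IsDomain R]

theorem chi_pow_ne_one (hp : p.Prime) (hpr : p ∣ r - 1) {ζ : R} (hζ : IsPrimitiveRoot ζ p)
    {m : ℕ} (hm0 : m ≠ 0) (hmp : m < p) : chi hp hpr hζ.pow_eq_one ^ m ≠ 1 := by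
  haveI : NeZero p := ⟨hp.ne_zero⟩
  obtain ⟨x, hx0, hx⟩ := exists_indZ_ne_zero hp (Fact.out : r.Prime) hpr
  intro h
  have h1 : (chi hp hpr hζ.pow_eq_one ^ m) x = 1 := by
    rw [h]
    exact MulChar.one_apply (isUnit_iff_ne_zero.mpr hx0)
  rw [MulChar.pow_apply' _ hm0, chi_apply, chiFun, if_neg hx0, ← pow_mul] at h1
  have h2 := (hζ.pow_eq_one_iff_dvd _).mp h1
  rcases (Nat.Prime.dvd_mul hp).mp h2 with h3 | h3
  · have hlt : (-(indZ p r x)).val < p := ZMod.val_lt _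
    have hne : (-(indZ p r x)).val ≠ 0 := by
      rw [Ne, ZMod.val_eq_zero, neg_eq_zero]
      exact hx
    have := Nat.le_of_dvd (Nat.pos_of_ne_zero hne) h3
    omega
  · have := Nat.le_of_dvd (Nat.pos_of_ne_zero hm0) h3
    omega

theorem chi_ne_one (hp : p.Prime) (hpr : p ∣ r - 1) {ζ : R} (hζ : IsPrimitiveRoot ζ p) :
    chi hp hpr hζ.pow_eq_one ≠ 1 := by
  have := chi_pow_ne_one hp hpr hζ (m := 1) one_ne_zero hp.one_lt
  rwa [pow_one] at this

theorem chi_pow_p (hp : p.Prime) (hpr : p ∣ r - 1) {ζ : R} (hζ : ζ ^ p = 1) :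
    chi hp hpr hζ ^ p = 1 := by
  ext x
  rw [MulChar.pow_apply_coe, chi_apply, chiFun, if_neg (Units.ne_zero x), ← pow_mul, mul_comm,
    pow_mul, hζ, one_pow, MulChar.one_apply_coe]

theorem orderOf_chi (hp : p.Prime) (hpr : p ∣ r - 1) {ζ : R} (hζ : IsPrimitiveRoot ζ p) :
    orderOf (chi hp hpr hζ.pow_eq_one) = p := by
  haveI : Fact p.Prime := ⟨hp⟩
  exact orderOf_eq_prime (chi_pow_p hp hpr hζ.pow_eq_one) (chi_ne_one hp hpr hζ)

theorem chi_neg_one (hp : p.Prime) (hp2 : p ≠ 2) (hpr : p ∣ r - 1) {ζ : R} (hζ : ζ ^ p = 1) :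
    chi hp hpr hζ (-1) = 1 := by
  haveI : NeZero p := ⟨hp.ne_zero⟩
  rw [chi_apply, chiFun, if_neg (by simp), indZ_neg_one hp hp2 Fact.out hpr, neg_zero,
    ZMod.val_zero, pow_zero]

end order

section dvd

variable {p r : ℕ} [Fact r.Prime] {R : Type*} [CommRing R] [IsDomain R]

/-- `J(χ,χ^j) · J(χ⁻¹,χ^{-j}) = r` in a domain -/
theorem jacobi_mul_inv (hp : p.Prime) (hpr : p ∣ r - 1) {ζ : R} (hζ : IsPrimitiveRoot ζ p)
    (hr0 : (r : R) ≠ 0) {j : ℕ} (hj0 : j ≠ 0) (hj : j + 1 < p) :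
    jacobiSum (chi hp hpr hζ.pow_eq_one) (chi hp hpr hζ.pow_eq_one ^ j) *
      jacobiSum (chi hp hpr hζ.pow_eq_one)⁻¹ (chi hp hpr hζ.pow_eq_one ^ j)⁻¹ = (r : R) := by
  set χ := chi hp hpr hζ.pow_eq_one with hχdef
  let K := FractionRing R
  let ι : R →+* K := algebraMap R K
  have hinj : Function.Injective ι := IsFractionRing.injective R K
  apply hinj
  rw [map_mul, ← jacobiSum_ringHomComp, ← jacobiSum_ringHomComp, ← MulChar.ringHomComp_inv,
    ← MulChar.ringHomComp_inv, map_natCast]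
  have hchar : ringChar K ≠ ringChar (ZMod r) := by
    rw [ZMod.ringChar_zmod_n]
    intro h
    have h1 : ((r : ℕ) : K) = 0 := by
      rw [ringChar.spec, h]
    apply hr0
    apply hinj
    rw [map_natCast, h1, map_zero]
  have h1 : χ.ringHomComp ι ≠ 1 :=
    (MulChar.ringHomComp_ne_one_iff hinj).mpr (chi_ne_one hp hpr hζ)
  have h2 : (χ ^ j).ringHomComp ι ≠ 1 :=
    (MulChar.ringHomComp_ne_one_iff hinj).mpr (chi_pow_ne_one hp hpr hζ hj0 (by omega))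
  have h3 : χ.ringHomComp ι * (χ ^ j).ringHomComp ι ≠ 1 := by
    rw [← MulChar.ringHomComp_mul, ← pow_succ']
    exact (MulChar.ringHomComp_ne_one_iff hinj).mpr
      (chi_pow_ne_one hp hpr hζ (by omega) hj)
  have := jacobiSum_mul_jacobiSum_inv hchar h1 h2 h3
  rw [this, ZMod.card]

theorem rhoJ_dvd (hp : p.Prime) (hpr : p ∣ r - 1) {ζ : R} (hζ : IsPrimitiveRoot ζ p)
    (hr0 : (r : R) ≠ 0) :
    (r : R) ∣ rhoJ p r ζ ∧ rhoJ p r ζ ∣ (r : R) ^ (p - 1) := by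
  refine ⟨⟨_, rfl⟩, ?_⟩
  rw [rhoJ_eq hp hpr hζ.pow_eq_one]
  set χ := chi hp hpr hζ.pow_eq_one with hχdef
  refine ⟨∏ j ∈ Finset.Ico 1 (p - 1), jacobiSum χ⁻¹ (χ ^ j)⁻¹, ?_⟩
  rw [mul_assoc, ← Finset.prod_mul_distrib]
  have : ∏ j ∈ Finset.Ico 1 (p - 1), jacobiSum χ (χ ^ j) * jacobiSum χ⁻¹ (χ ^ j)⁻¹
      = ∏ _j ∈ Finset.Ico 1 (p - 1), (r : R) := by
    apply Finset.prod_congr rfl
    intro j hj
    rw [Finset.mem_Ico] at hj
    exact jacobi_mul_inv hp hpr hζ hr0 (by omega) (by omega)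
  rw [this, Finset.prod_const, Nat.card_Ico, ← pow_succ']
  congr 1
  have := hp.two_le
  omega

end dvd

end H5J
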