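import Mathlib
import Fermat.Agent.CFT.CR.H5JacobiDvd

set_option autoImplicit false
set_option linter.style.haveILetI false
set_option linter.unusedSectionVars false

noncomputable section

namespace H5J

open H3CR Finset

section frob

variable {r : ℕ} [Fact r.Prime] {k' : Type*} [Field k']

/-- Frobenius on Gauss sums: `χ(N) · g^N = g` if `N = ℓ^f`, `char k' = ℓ`, and the values of `χ`
are fixed by `x ↦ x^N`. -/
theorem gaussSum_pow_card (ℓ f : ℕ) [Fact ℓ.Prime] [CharP k' ℓ]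
    (χ : MulChar (ZMod r) k') (ψ : AddChar (ZMod r) k')
    (hχ : ∀ x, χ x ^ (ℓ ^ f) = χ x) (hN : ((ℓ ^ f : ℕ) : ZMod r) ≠ 0) :
    χ ((ℓ ^ f : ℕ) : ZMod r) * gaussSum χ ψ ^ (ℓ ^ f) = gaussSum χ ψ := by
  have hu : IsUnit (((ℓ ^ f : ℕ) : ZMod r)) := isUnit_iff_ne_zero.mpr hN
  have h1 : gaussSum χ ψ ^ (ℓ ^ f) = gaussSum χ (AddChar.mulShift ψ hu.unit) := by
    unfold gaussSum
    rw [sum_pow_char_pow]
    apply Finset.sum_congr rfl
    intro x _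
    rw [mul_pow, hχ x, AddChar.mulShift_apply, IsUnit.unit_spec, ← AddChar.map_nsmul_eq_pow,
      nsmul_eq_mul]
  rw [h1]
  have := gaussSum_mulShift χ ψ hu.unit
  rwa [IsUnit.unit_spec] at this

end frob

end H5J

namespace H5J

open H3CR Finset

section recip

variable {p r : ℕ} [Fact r.Prime] {R : Type*} [CommRing R] [IsDomain R]

theorem rhoJ_notMem (hp : p.Prime) (hpr : p ∣ r - 1) {ζ : R} {𝔮 : Ideal R}
    (h : GoodPrime p ζ 𝔮) (hr𝔮 : (r : R) ∉ 𝔮) : rhoJ p r ζ ∉ 𝔮 := by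
  haveI := h.max.isPrime
  have hr0 : (r : R) ≠ 0 := fun h0 => hr𝔮 (h0 ▸ 𝔮.zero_mem)
  obtain ⟨-, c, hc⟩ := rhoJ_dvd hp hpr h.hζ hr0
  intro hmem
  have : (r : R) ^ (p - 1) ∈ 𝔮 := by
    rw [hc]
    exact 𝔮.mul_mem_right _ hmem
  exact hr𝔮 (Ideal.IsPrime.mem_of_pow_mem ‹_› _ this)

/-- **Reciprocity**: `sym(ρ, 𝔮) = ind(N𝔮)`. -/
theorem rhoJ_sym (hp : p.Prime) (hp2 : p ≠ 2) (hpr : p ∣ r - 1) {ζ : R} {𝔮 : Ideal R}
    (h : GoodPrime p ζ 𝔮) (hr𝔮 : (r : R) ∉ 𝔮) :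
    sym p ζ (rhoJ p r ζ) 𝔮 = ind p r (Nat.card (R ⧸ 𝔮)) := by
  classical
  haveI : NeZero p := ⟨hp.ne_zero⟩
  have hr : r.Prime := Fact.out
  haveI := h.max
  haveI := h.max.isPrime
  haveI := h.fin
  letI : Field (R ⧸ 𝔮) := Ideal.Quotient.field 𝔮
  letI : Fintype (R ⧸ 𝔮) := Fintype.ofFinite _
  let k := R ⧸ 𝔮
  let mk : R →+* k := Ideal.Quotient.mk 𝔮
  -- the characteristic
  obtain ⟨ℓ, hℓc, f, hℓp', hcard⟩ := FiniteField.card' (R ⧸ 𝔮)
  haveI : CharP k ℓ := hℓc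
  haveI hℓp : Fact ℓ.Prime := ⟨hℓp'⟩
  have hNcard : Nat.card k = ℓ ^ (f : ℕ) := by rw [Nat.card_eq_fintype_card, hcard]
  have hℓr : ℓ ≠ r := by
    intro hlr
    apply hr𝔮
    rw [← Ideal.Quotient.eq_zero_iff_mem, map_natCast]
    rw [← hlr]
    exact CharP.cast_eq_zero k ℓ
  have hchar : ringChar k ≠ ringChar (ZMod r) := by
    rw [ZMod.ringChar_zmod_n, ringChar.eq k ℓ]
    exact hℓr
  -- the primitive additive character and the big field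
  set ψ := AddChar.FiniteField.primitiveChar (ZMod r) k hchar with hψ
  set k' := CyclotomicField ψ.n k with hk'
  set ι : k →+* k' := algebraMap k k' with hι
  have hιinj : Function.Injective ι := (algebraMap k k').injective
  haveI : CharP k' ℓ := charP_of_injective_algebraMap hιinj ℓ
  -- the root of unity
  have hζp : ζ ^ p = 1 := h.hζ.pow_eq_one
  set ζ' : k' := ι (mk ζ) with hζ'
  have hζ'p : ζ' ^ p = 1 := by rw [hζ', ← map_pow, ← map_pow, hζp, map_one, map_one]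
  have hζ'prim : IsPrimitiveRoot ζ' p := by
    refine IsPrimitiveRoot.mk_of_lt ζ' hp.pos hζ'p (fun l hl0 hlp hl1 => ?_)
    have hnd : ¬ p ∣ l := fun hd => by
      have := Nat.le_of_dvd hl0 hd
      omega
    apply h.one_sub_pow_notMem hnd
    rw [← Ideal.Quotient.eq_zero_iff_mem]
    apply hιinj
    show ι (mk (1 - ζ ^ l)) = ι 0
    rw [map_sub, map_sub, map_one, map_one, map_pow, map_pow, map_zero, ← hζ', hl1, sub_self]
  -- the character and the Gauss sum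
  set χ' := chi hp hpr hζ'p with hχ'
  set g := gaussSum χ' ψ.char with hg
  have hord : orderOf χ' = p := orderOf_chi hp hpr hζ'prim
  have hgp : g ^ p = rhoJ p r ζ' := by
    have := gaussSum_pow_eq_prod_jacobiSum (χ := χ') (ψ := ψ.char)
      (by rw [hord]; exact hp.two_le) ψ.prim
    rw [hord, chi_neg_one hp hp2 hpr hζ'p, one_mul, ZMod.card] at this
    rw [hg, this, rhoJ_eq hp hpr hζ'p]
  -- Frobenius
  have hNr : ((ℓ ^ (f : ℕ) : ℕ) : ZMod r) ≠ 0 := by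
    rw [Ne, ZMod.natCast_eq_zero_iff]
    intro hd
    have := hr.dvd_of_dvd_pow hd
    exact hℓr ((Nat.prime_dvd_prime_iff_eq hr hℓp.out).mp this).symm
  have hχfix : ∀ x, χ' x ^ (ℓ ^ (f : ℕ)) = χ' x := by
    intro x
    have e : χ' x = ι (chiFun p r (mk ζ) x) := by
      rw [hχ', chi_apply, chiFun_map]
    rw [e, ← map_pow, ← hcard, FiniteField.pow_card]
  have hfrob := gaussSum_pow_card ℓ (f : ℕ) χ' ψ.char hχfix hNr
  have hg0 : g ≠ 0 := by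
    apply gaussSum_ne_zero_of_nontrivial _ (chi_ne_one hp hpr hζ'prim) ψ.prim
    rw [ZMod.card]
    intro h0
    have : ringChar k' ∣ r := (ringChar.spec k' r).mp h0
    rw [ringChar.eq k' ℓ] at this
    exact hℓr ((Nat.prime_dvd_prime_iff_eq hℓp.out hr).mp this)
  have hNpos : 0 < ℓ ^ (f : ℕ) := pow_pos hℓp.out.pos _
  have h1 : χ' ((ℓ ^ (f : ℕ) : ℕ) : ZMod r) * g ^ (ℓ ^ (f : ℕ) - 1) = 1 := by
    have e : g ^ (ℓ ^ (f : ℕ)) = g ^ (ℓ ^ (f : ℕ) - 1) * g := by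
      rw [← pow_succ, Nat.sub_add_cancel hNpos]
    rw [← hg, e, ← mul_assoc] at hfrob
    exact mul_right_cancel₀ hg0 (by rw [hfrob, one_mul])
  -- `p ∣ N - 1`
  have hdvd : p ∣ ℓ ^ (f : ℕ) - 1 := by
    rw [← hNcard]
    exact h.dvd_card_sub_one
  have h2 : rhoJ p r ζ' ^ ((ℓ ^ (f : ℕ) - 1) / p) = g ^ (ℓ ^ (f : ℕ) - 1) := by
    rw [← hgp, ← pow_mul, Nat.mul_div_cancel' hdvd]
  have h3 : χ' ((ℓ ^ (f : ℕ) : ℕ) : ZMod r)
      = ζ' ^ (-(indZ p r ((ℓ ^ (f : ℕ) : ℕ) : ZMod r))).val := by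
    rw [hχ', chi_apply, chiFun, if_neg hNr]
  have h4 : rhoJ p r ζ' ^ ((ℓ ^ (f : ℕ) - 1) / p)
      = ζ' ^ (indZ p r ((ℓ ^ (f : ℕ) : ℕ) : ZMod r)).val := by
    rw [h2]
    have := h5j_pow_val_neg hζ'p (indZ p r ((ℓ ^ (f : ℕ) : ℕ) : ZMod r))
    rw [← h3] at this
    have hχ0 : χ' ((ℓ ^ (f : ℕ) : ℕ) : ZMod r) ≠ 0 := by
      intro h0
      rw [h0, zero_mul] at h1
      exact zero_ne_one h1
    exact mul_left_cancel₀ hχ0 (by rw [h1, this])
  -- back to `R`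
  have h5 : rhoJ p r ζ ^ ((Nat.card (R ⧸ 𝔮) - 1) / p)
      - ζ ^ (indZ p r ((ℓ ^ (f : ℕ) : ℕ) : ZMod r)).val ∈ 𝔮 := by
    rw [← Ideal.Quotient.eq_zero_iff_mem]
    apply hιinj
    show ι (mk _) = ι 0
    rw [map_sub, map_sub, map_pow, map_pow, map_pow, map_pow, rhoJ_map, rhoJ_map, map_zero,
      ← hζ', hNcard, h4, sub_self]
  have h6 := h.sym_eq (rhoJ_notMem hp hpr h hr𝔮) h5
  rw [h6, ZMod.natCast_zmod_val, hNcard]
  rfl

end recip

end H5J
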