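import Mathlib
import Fermat.Agent.CFT.CR.Interface
import Fermat.Agent.CFT.CR.H5JacobiRecip

/-!
# T-CFT module CR, package E (helper5): the Jacobi-sum element

`H5J.h5j_jacobiElement : H3CR.JacobiElement p r` for primes `p ≠ 2`, `r` with `p ∣ r - 1`.

* `ind m = sym p ω m ⊥` in `ZMod r` (`ω` a primitive `p`-th root of unity in `ZMod r`);
* `rho R ζ = r · ∏_{j=1}^{p-2} J(χ, χ^j)`, `χ(x) = ζ ^ (-ind x)`, written as a polynomial
  expression in `ζ` (`H5J.rhoJ`);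
* `r ∣ ρ ∣ r^{p-1}` from `J(χ,χ^j) J(χ⁻¹,χ^{-j}) = r`;
* reciprocity `sym(ρ, 𝔮) = ind(N𝔮)` from `g(χ)^p = ρ` and Frobenius on the Gauss sum.
-/

set_option autoImplicit false
set_option linter.style.haveILetI false

noncomputable section

namespace H5J

open H3CR

/-- **Package E**: the Jacobi element exists. -/
theorem h5j_jacobiElement (p r : ℕ) (hp : p.Prime) (hp2 : p ≠ 2) (hr : r.Prime)
    (hpr : p ∣ r - 1) : H3CR.JacobiElement p r := by
  haveI : Fact r.Prime := ⟨hr⟩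
  refine ⟨ind p r, fun R _ ζ => rhoJ p r ζ, ?_, ?_, ?_, ?_, ?_, ?_⟩
  · exact fun m n hm hn => ind_mul hp hr hpr m n hm hn
  · exact fun m n h => ind_congr m n h
  · exact fun m hm => ind_eq_zero_iff hp hr hpr m hm
  · intro R S _ _ φ ζ
    exact rhoJ_map φ ζ
  · intro R _ _ ζ hζ hr0
    exact rhoJ_dvd hp hpr hζ hr0
  · intro R _ _ ζ 𝔮 h hr𝔮
    exact rhoJ_sym hp hp2 hpr h hr𝔮

end H5J

end
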