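/-
T-CFT module CR, package C (helper6): `H3CR.KummerGen p`.
Lagrange resolvent `β = Σ_{i<p} ζ^i σ^i θ` (`σ β = ζ⁻¹ β`, so `β^p ∈ 𝓞 K`), nonvanishing modulo an
unramified prime by Dedekind independence of the distinct ring homs `x ↦ σ^i x mod Q`.
-/
import Mathlib
import Fermat.Agent.CFT.CR.Interface

set_option autoImplicit false

namespace H3CR

open NumberField H14CFT
open scoped nonZeroDivisors

section
variable {K L : Type} [Field K] [NumberField K] [Field L] [NumberField L] [Algebra K L]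
  [IsGalois K L]

/-- the Lagrange resolvent `Σ_{i<p} ζ^i σ^i θ` -/
noncomputable def h6kg_res (p : ℕ) (ζ : 𝓞 K) (σ : L ≃ₐ[K] L) (θ : 𝓞 L) : 𝓞 L :=
  ∑ i ∈ Finset.range p, algebraMap (𝓞 K) (𝓞 L) ζ ^ i * (σ ^ i) • θ

theorem h6kg_res_add (p : ℕ) (ζ : 𝓞 K) (σ : L ≃ₐ[K] L) (θ₁ θ₂ : 𝓞 L) :
    h6kg_res p ζ σ (θ₁ + θ₂) = h6kg_res p ζ σ θ₁ + h6kg_res p ζ σ θ₂ := by
  unfold h6kg_res
  rw [← Finset.sum_add_distrib]
  refine Finset.sum_congr rfl fun i _ => ?_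
  rw [smul_add, mul_add]

theorem h6kg_res_rel (p : ℕ) (ζ : 𝓞 K) (σ : L ≃ₐ[K] L) (θ : 𝓞 L)
    (hζ : ζ ^ p = 1) (hσ : σ ^ p = 1) :
    algebraMap (𝓞 K) (𝓞 L) ζ * σ • h6kg_res p ζ σ θ = h6kg_res p ζ σ θ := by
  unfold h6kg_res
  set f : ℕ → 𝓞 L := fun i => algebraMap (𝓞 K) (𝓞 L) ζ ^ i * (σ ^ i) • θ with hf
  have h1 : algebraMap (𝓞 K) (𝓞 L) ζ * σ • ∑ i ∈ Finset.range p, f i
      = ∑ i ∈ Finset.range p, f (i + 1) := by
    rw [Finset.smul_sum, Finset.mul_sum]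
    refine Finset.sum_congr rfl fun i _ => ?_
    simp only [hf]
    rw [smul_mul', smul_pow', smul_algebraMap, ← mul_smul, ← pow_succ', ← mul_assoc, ← pow_succ']
  rw [h1]
  have h2 := Finset.sum_range_succ' f p
  have h3 := Finset.sum_range_succ f p
  have h4 : f p = f 0 := by
    simp only [hf]
    rw [← map_pow, hζ, hσ]
    simp
  rw [h3, h4] at h2
  exact (add_right_cancel h2).symm


/-- distinct powers of `σ` are distinct modulo an unramified prime, hence (Dedekind) the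
resolvent map is not identically zero modulo `Q`. -/
theorem h6kg_exists_not_mem (p : ℕ) (hp : p.Prime) (ζ : 𝓞 K) (σ : L ≃ₐ[K] L)
    (hord : orderOf σ = p) (hunr : UnramifiedEverywhere K L)
    (Q : Ideal (𝓞 L)) (hQ : Q.IsPrime) (hQ0 : Q ≠ ⊥) :
    ∃ θ : 𝓞 L, h6kg_res p ζ σ θ ∉ Q := by
  classical
  have := hQ
  set k := 𝓞 L ⧸ Q with hk
  let χ : Fin p → (𝓞 L →* k) := fun i =>
    ((Ideal.Quotient.mk Q).comp
      (MulSemiringAction.toRingHom (L ≃ₐ[K] L) (𝓞 L) (σ ^ (i : ℕ)))).toMonoidHom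
  have hχ : ∀ (i : Fin p) (x : 𝓞 L), χ i x = Ideal.Quotient.mk Q ((σ ^ (i : ℕ)) • x) := by
    intro i x
    rfl
  have hinj : Function.Injective χ := by
    intro i j hij
    have h1 : ∀ y : 𝓞 L, (σ ^ (i : ℕ) * (σ ^ (j : ℕ))⁻¹) • y - y ∈ Q := by
      intro y
      have h2 := DFunLike.congr_fun hij ((σ ^ (j : ℕ))⁻¹ • y)
      rw [hχ, hχ, ← mul_smul, ← mul_smul, mul_inv_cancel, one_smul] at h2
      exact Ideal.Quotient.eq.mp h2
    have h3 := hunr Q hQ hQ0 _ h1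
    have h4 : σ ^ (i : ℕ) = σ ^ (j : ℕ) := by
      rw [mul_inv_eq_one] at h3
      exact h3
    have hi : (i : ℕ) < orderOf σ := by rw [hord]; exact i.2
    have hj : (j : ℕ) < orderOf σ := by rw [hord]; exact j.2
    exact Fin.ext (pow_injOn_Iio_orderOf hi hj h4)
  have hli := (linearIndependent_monoidHom (𝓞 L) k).comp χ hinj
  by_contra hall
  push Not at hall
  have hzero : ∑ i : Fin p, (Ideal.Quotient.mk Q (algebraMap (𝓞 K) (𝓞 L) ζ) ^ (i : ℕ)) •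
      ((fun f : 𝓞 L →* k => (f : 𝓞 L → k)) ∘ χ) i = 0 := by
    funext θ
    have h5 := hall θ
    rw [← Ideal.Quotient.eq_zero_iff_mem] at h5
    unfold h6kg_res at h5
    rw [map_sum] at h5
    rw [Finset.sum_apply, Pi.zero_apply, ← h5, ← Fin.sum_univ_eq_sum_range
      (fun i => Ideal.Quotient.mk Q (algebraMap (𝓞 K) (𝓞 L) ζ ^ i * (σ ^ i) • θ)) p]
    refine Finset.sum_congr rfl fun i _ => ?_
    simp only [Pi.smul_apply, Function.comp_apply, smul_eq_mul, map_mul, map_pow]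
    rw [hχ]
  have h6 := Fintype.linearIndependent_iff.mp hli _ hzero ⟨0, hp.pos⟩
  simp at h6


theorem h6kg_ne_bot_of_under {P : Ideal (𝓞 K)} {Q : Ideal (𝓞 L)} (hQP : Q.under (𝓞 K) = P)
    (hP0 : P ≠ ⊥) : Q ≠ ⊥ := by
  rintro rfl
  apply hP0
  rw [← hQP]
  ext x
  simp only [Ideal.under, Ideal.mem_comap, Ideal.mem_bot]
  exact (map_eq_zero_iff _ (FaithfulSMul.algebraMap_injective (𝓞 K) (𝓞 L)))

/-- **(C) Kummer generator prime to `P₁ P₂`.** -/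
theorem h6kg_kummerGen (p : ℕ) : KummerGen p := by
  intro K L _ _ _ _ _ _ ζ hp hζ hdeg hunr P₁ P₂ Q₁ Q₂ σ₁ σ₂ hP₁ hP₂ hP₁0 hP₂0 _ _ hQ₁ hQ₂ hQP₁
    hQP₂ _ _ hσ₁ _
  have : Fact p.Prime := ⟨hp⟩
  have hcard : Nat.card (L ≃ₐ[K] L) = p := by
    rw [IsGalois.card_aut_eq_finrank, hdeg]
  set σ := σ₁ with hσdef
  have hσp : σ ^ p = 1 := by
    rw [← hcard]
    exact pow_card_eq_one'
  have hord : orderOf σ = p := orderOf_eq_prime hσp hσ₁
  have htop : Subgroup.zpowers σ = ⊤ := zpowers_eq_top_of_prime_card hcard hσ₁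
  have hζp : ζ ^ p = 1 := hζ.pow_eq_one
  have hQ₁0 : Q₁ ≠ ⊥ := h6kg_ne_bot_of_under hQP₁ hP₁0
  have hQ₂0 : Q₂ ≠ ⊥ := h6kg_ne_bot_of_under hQP₂ hP₂0
  -- a single `θ` whose resolvent avoids `Q₁` and `Q₂`
  obtain ⟨θ, hθ₁, hθ₂⟩ : ∃ θ : 𝓞 L, h6kg_res p ζ σ θ ∉ Q₁ ∧ h6kg_res p ζ σ θ ∉ Q₂ := by
    obtain ⟨θ₁, h1⟩ := h6kg_exists_not_mem p hp ζ σ hord hunr Q₁ hQ₁ hQ₁0
    obtain ⟨θ₂, h2⟩ := h6kg_exists_not_mem p hp ζ σ hord hunr Q₂ hQ₂ hQ₂0
    by_cases h12 : h6kg_res p ζ σ θ₁ ∈ Q₂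
    · by_cases h21 : h6kg_res p ζ σ θ₂ ∈ Q₁
      · refine ⟨θ₁ + θ₂, ?_, ?_⟩
        · rw [h6kg_res_add]
          intro h
          exact h1 ((Ideal.add_mem_iff_left Q₁ h21).mp h)
        · rw [h6kg_res_add]
          intro h
          exact h2 ((Ideal.add_mem_iff_right Q₂ h12).mp h)
      · exact ⟨θ₂, h21, h2⟩
    · exact ⟨θ₁, h1, h12⟩
  set β := h6kg_res p ζ σ θ with hβ
  have hrel : algebraMap (𝓞 K) (𝓞 L) ζ * σ • β = β := h6kg_res_rel p ζ σ θ hζp hσp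
  have hβ0 : β ≠ 0 := by
    intro h0
    apply hθ₁
    rw [h0]
    exact Q₁.zero_mem
  -- `β ^ p` is fixed by `σ`, hence by the whole group
  have hfixσ : σ • (β ^ p) = β ^ p := by
    have h1 : β ^ p = (algebraMap (𝓞 K) (𝓞 L) ζ * σ • β) ^ p := by rw [hrel]
    rw [mul_pow, ← map_pow, hζp, map_one, one_mul] at h1
    rw [smul_pow']
    exact h1.symm
  have hfix : ∀ τ : L ≃ₐ[K] L, τ ((β ^ p : 𝓞 L) : L) = ((β ^ p : 𝓞 L) : L) := by
    intro τ
    have hτ : τ ∈ Subgroup.zpowers σ := by rw [htop]; trivial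
    obtain ⟨n, rfl⟩ := Subgroup.mem_zpowers_iff.mp hτ
    have hstab : σ ∈ MulAction.stabilizer (L ≃ₐ[K] L) (β ^ p) := hfixσ
    have h2 : σ ^ n ∈ MulAction.stabilizer (L ≃ₐ[K] L) (β ^ p) := Subgroup.zpow_mem _ hstab n
    have h3 : (σ ^ n) • (β ^ p) = β ^ p := h2
    exact congrArg (fun x : 𝓞 L => (x : L)) h3
  have hbot : ((β ^ p : 𝓞 L) : L) ∈ (⊥ : IntermediateField K L) :=
    (IsGalois.mem_bot_iff_fixed _).mpr hfix
  obtain ⟨a, ha⟩ := IntermediateField.mem_bot.mp hbot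
  have haint : IsIntegral ℤ a := by
    have h1 : IsIntegral ℤ (algebraMap K L a) := by
      rw [ha]
      exact (β ^ p).2
    exact (isIntegral_algebraMap_iff (algebraMap K L).injective).mp h1
  let α : 𝓞 K := ⟨a, haint⟩
  have hαβ : β ^ p = algebraMap (𝓞 K) (𝓞 L) α := by
    apply NumberField.RingOfIntegers.ext
    rw [← ha]
    rfl
  refine ⟨α, β, hαβ, ?_, ?_, ?_⟩
  · -- `K(β) = L`
    have : IsSimpleOrder (IntermediateField K L) :=
      IntermediateField.isSimpleOrder_of_finrank_prime K L (hdeg ▸ hp)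
    rcases eq_bot_or_eq_top (IntermediateField.adjoin K {(β : L)}) with h | h
    · exfalso
      have hmem : (β : L) ∈ (⊥ : IntermediateField K L) := by
        rw [← h]
        exact IntermediateField.mem_adjoin_simple_self K _
      have hσβ : σ (β : L) = (β : L) := (IsGalois.mem_bot_iff_fixed _).mp hmem σ
      have hσβ' : σ • β = β := NumberField.RingOfIntegers.ext hσβ
      rw [hσβ'] at hrel
      have h1 : (algebraMap (𝓞 K) (𝓞 L) ζ - 1) * β = 0 := by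
        rw [sub_mul, hrel, one_mul, sub_self]
      rcases mul_eq_zero.mp h1 with h2 | h2
      · have h3 : algebraMap (𝓞 K) (𝓞 L) ζ = algebraMap (𝓞 K) (𝓞 L) 1 := by
          rw [map_one]
          exact sub_eq_zero.mp h2
        have h4 := FaithfulSMul.algebraMap_injective (𝓞 K) (𝓞 L) h3
        exact hζ.ne_one hp.one_lt h4
      · exact hβ0 h2
    · exact h
  · intro hα
    apply hθ₁
    have h1 : algebraMap (𝓞 K) (𝓞 L) α ∈ Q₁ := by
      rw [← hQP₁] at hα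
      exact hα
    rw [← hαβ] at h1
    exact hQ₁.mem_of_pow_mem p h1
  · intro hα
    apply hθ₂
    have h1 : algebraMap (𝓞 K) (𝓞 L) α ∈ Q₂ := by
      rw [← hQP₂] at hα
      exact hα
    rw [← hαβ] at h1
    exact hQ₂.mem_of_pow_mem p h1

end

end H3CR
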