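/-
T-CFT module CR, assembly slice J3 (helper9): auxiliary primes.
`h9ap_auxPrime p : H3CR.AuxPrime p`.

Apply `KummerCheb p` to `K = CyclotomicField p ℚ`, `γ₁ = γ₂ = 1`, `α = q`.
Independence: `q` is not a `p`-th power in `K` because `N_{K/ℚ}(q) = q ^ (p - 1)` and `p ∤ p - 1`.
-/
import Mathlib
import Fermat.Agent.CFT.Defs
import Fermat.Agent.CFT.CR.Sym
import Fermat.Agent.CFT.CR.Interface
import Fermat.Agent.CFT.CR.AsmInterface

set_option autoImplicit false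

namespace H9CR

open NumberField H14CFT H3CR
open scoped nonZeroDivisors

/-- A prime number `q` is not a `p`-th power in a number field of degree `p - 1`. -/
theorem h9ap_not_pow {K : Type} [Field K] [NumberField K] {p q : ℕ} (hp : p.Prime)
    (hq : q.Prime) (hdeg : Module.finrank ℚ K = p - 1) (c : K) : c ^ p ≠ (q : K) := by
  intro h
  have hN : (Algebra.norm ℚ c) ^ p = (q : ℚ) ^ (p - 1) := by
    rw [← map_pow, h]
    have : (q : K) = algebraMap ℚ K (q : ℚ) := by simp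
    rw [this, Algebra.norm_algebraMap, hdeg]
  have : Fact q.Prime := ⟨hq⟩
  have hq0 : (q : ℚ) ≠ 0 := by exact_mod_cast hq.ne_zero
  have hN0 : Algebra.norm ℚ c ≠ 0 := by
    intro h0
    rw [h0, zero_pow hp.ne_zero] at hN
    exact pow_ne_zero _ hq0 hN.symm
  have hv := congrArg (padicValRat q) hN
  rw [padicValRat.pow, padicValRat.pow, padicValRat.self hq.one_lt, mul_one] at hv
  have hdvd : (p : ℤ) ∣ ((p - 1 : ℕ) : ℤ) := ⟨_, hv.symm⟩
  have hdvd' : p ∣ p - 1 := Int.natCast_dvd_natCast.mp hdvd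
  have h2 := hp.two_le
  have := Nat.le_of_dvd (by omega) hdvd'
  omega

/-- Slice J3 over any model `K` of `ℚ(ζ_p)`. -/
theorem h9ap_auxPrime_aux (p : ℕ) (K : Type) [Field K] [NumberField K]
    [IsCyclotomicExtension {p} ℚ K] (hNS : NonSplitPrimeExists) (hKC : KummerCheb p)
    (q D : ℕ) (hp : p.Prime) (hq : q.Prime) (hD : D ≠ 0) :
    ∃ r : ℕ, r.Prime ∧ p ∣ r - 1 ∧ ¬ r ∣ D ∧ ¬ (q ^ ((r - 1) / p) ≡ 1 [MOD r]) := by
  have : Fact p.Prime := ⟨hp⟩
  have : NeZero p := ⟨hp.ne_zero⟩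
  have hζK : IsPrimitiveRoot (IsCyclotomicExtension.zeta p ℚ K) p :=
    IsCyclotomicExtension.zeta_spec p ℚ K
  set ζ : 𝓞 K := hζK.toInteger with hζdef
  have hζ : IsPrimitiveRoot ζ p := hζK.toInteger_isPrimitiveRoot
  have hdeg : Module.finrank ℚ K = p - 1 := by
    rw [IsCyclotomicExtension.finrank (n := p) K (Polynomial.cyclotomic.irreducible_rat hp.pos),
      Nat.totient_prime hp]
  have hq0 : ((q : 𝓞 K)) ≠ 0 := by exact_mod_cast hq.ne_zero
  have hind : ∀ (a b : ℕ) (c : K),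
      (((q : 𝓞 K)) : K) ≠ (((1 : 𝓞 K)) : K) ^ a * (((1 : 𝓞 K)) : K) ^ b * c ^ p := by
    intro a b c h
    have h1 : c ^ p = (q : K) := by
      have : (((q : 𝓞 K)) : K) = (q : K) := by simp
      rw [this] at h
      simpa using h.symm
    exact h9ap_not_pow hp hq hdeg c h1
  obtain ⟨𝔟, hprime, hne, hnorm, hnD, hpb, -, -, hqb, -, -, hsym⟩ :=
    hKC hNS K ζ 1 1 (q : 𝓞 K) D hp hζ hD one_ne_zero one_ne_zero hq0 hind
  have hmax : 𝔟.IsMaximal := Ring.DimensionLEOne.maximalOfPrime hne hprime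
  have hfin : Finite (𝓞 K ⧸ 𝔟) := Ideal.finiteQuotientOfFreeOfNeBot 𝔟 hne
  have hgood : GoodPrime p ζ 𝔟 := ⟨hp, hζ, hmax, hfin, hpb⟩
  have hcard : Nat.card (𝓞 K ⧸ 𝔟) = Ideal.absNorm 𝔟 := by
    rw [Ideal.absNorm_apply]; rfl
  refine ⟨Ideal.absNorm 𝔟, hnorm, ?_, hnD, ?_⟩
  · rw [← hcard]
    exact hgood.dvd_card_sub_one
  · intro hcong
    apply hsym
    rw [hgood.sym_eq_zero_iff hqb, hcard]
    set r := Ideal.absNorm 𝔟 with hr
    set e := (r - 1) / p with he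
    -- `r ∣ q ^ e - 1` in `ℤ`
    have h1 : (r : ℤ) ∣ ((q ^ e : ℕ) : ℤ) - 1 := by
      have := (Nat.modEq_iff_dvd.mp hcong.symm)
      simpa using this
    obtain ⟨t, ht⟩ := h1
    have h2 : ((q : 𝓞 K)) ^ e - 1 = (r : 𝓞 K) * (t : 𝓞 K) := by
      have := congrArg (fun z : ℤ => (z : 𝓞 K)) ht
      simpa using this
    rw [h2]
    exact 𝔟.mul_mem_right _ (Ideal.absNorm_mem 𝔟)

/-- **Slice J3**: auxiliary primes. -/
theorem h9ap_auxPrime (p : ℕ) : H3CR.AuxPrime p := by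
  intro hNS hKC q D hp _ hq hD
  have : NeZero p := ⟨hp.ne_zero⟩
  have hinst : @IsCyclotomicExtension {p} ℚ (CyclotomicField p ℚ) _ _
      DivisionRing.toRatAlgebra := by
    have h : (DivisionRing.toRatAlgebra : Algebra ℚ (CyclotomicField p ℚ)) =
        CyclotomicField.algebra p ℚ := Subsingleton.elim _ _
    rw [h]
    infer_instance
  exact h9ap_auxPrime_aux p (CyclotomicField p ℚ) hNS hKC q D hp hq hD

end H9CR
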