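/-
T-CFT module CR, package G (helper9): the class character `ind ∘ absNorm` and the second
inequality.  `h9cr_classChar p : H3CR.ClassChar p`.

Steps:
* `h9cr_coprime_absNorm`  : `B ⊔ (r) = ⊤ → (N B, r) = 1`                     (Cauchy in `𝓞/B`);
* `h9cr_exists_coprime_rep`: every ideal class contains an ideal prime to `r` (two-generator lemma);
* `h9cr_ind_mul_eq_zero`, `h9cr_ind_congr` : `ind ∘ N` is well defined on classes;
* `h9cr_kerSub`            : the subgroup of classes with a representative of `ind ∘ N = 0`;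
* index count against `SecondInequality`.
-/
import Mathlib
import Fermat.Agent.CFT.Defs
import Fermat.Agent.CFT.CR.Sym
import Fermat.Agent.CFT.CR.Interface

set_option autoImplicit false

namespace H9CR

open NumberField H14CFT H3CR
open scoped nonZeroDivisors

variable {E : Type} [Field E] [NumberField E]

/-- `B ⊔ (r) = ⊤` implies that the norm of `B` is prime to the prime number `r`. -/
theorem h9cr_coprime_absNorm {r : ℕ} (hr : r.Prime) {B : Ideal (𝓞 E)}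
    (h : B ⊔ Ideal.span {(r : 𝓞 E)} = ⊤) : Nat.Coprime (Ideal.absNorm B) r := by
  rw [Nat.coprime_comm, Nat.Prime.coprime_iff_not_dvd hr]
  intro hdvd
  have : Fact r.Prime := ⟨hr⟩
  have hB0 : B ≠ ⊥ := by
    rintro rfl
    rw [bot_sup_eq] at h
    have h1 := Ideal.absNorm_span_natCast (S := 𝓞 E) r
    rw [h, Ideal.absNorm_top] at h1
    have hpos : 0 < Module.finrank ℤ (𝓞 E) := by
      rw [RingOfIntegers.rank]
      exact Module.finrank_pos
    have h2 := hr.two_le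
    have h3 : r ^ 1 ≤ r ^ Module.finrank ℤ (𝓞 E) := Nat.pow_le_pow_right (by omega) hpos
    rw [← h1, pow_one] at h3
    omega
  have : Finite (𝓞 E ⧸ B) := Ideal.finiteQuotientOfFreeOfNeBot B hB0
  have hcard : Ideal.absNorm B = Nat.card (𝓞 E ⧸ B) := by
    rw [Ideal.absNorm_apply]; rfl
  rw [hcard] at hdvd
  obtain ⟨x, hx⟩ := exists_prime_addOrderOf_dvd_card' (G := 𝓞 E ⧸ B) r hdvd
  obtain ⟨y, rfl⟩ := Ideal.Quotient.mk_surjective x
  have hry : (r : 𝓞 E) * y ∈ B := by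
    have h1 : r • (Ideal.Quotient.mk B y) = 0 := by
      rw [← hx]; exact addOrderOf_nsmul_eq_zero _
    rw [← Ideal.Quotient.eq_zero_iff_mem, map_mul, map_natCast]
    rw [nsmul_eq_mul] at h1
    exact h1
  have hy : y ∈ B := by
    have h1 : (1 : 𝓞 E) ∈ B ⊔ Ideal.span {(r : 𝓞 E)} := by rw [h]; trivial
    obtain ⟨b, hb, s, hs, hbs⟩ := Submodule.mem_sup.mp h1
    obtain ⟨t, rfl⟩ := Ideal.mem_span_singleton'.mp hs
    have e : y = b * y + t * ((r : 𝓞 E) * y) := by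
      have : y = (b + t * (r : 𝓞 E)) * y := by rw [hbs, one_mul]
      calc y = (b + t * (r : 𝓞 E)) * y := this
        _ = b * y + t * ((r : 𝓞 E) * y) := by ring
    rw [e]
    exact B.add_mem (B.mul_mem_right _ hb) (B.mul_mem_left _ hry)
  have hx0 : (Ideal.Quotient.mk B y) = 0 := Ideal.Quotient.eq_zero_iff_mem.mpr hy
  rw [hx0, addOrderOf_zero] at hx
  exact hr.one_lt.ne hx

/-- Every ideal class contains an integral ideal whose norm is prime to `r`. -/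
theorem h9cr_exists_coprime_rep {r : ℕ} (hr : r.Prime) (c : ClassGroup (𝓞 E)) :
    ∃ B : (Ideal (𝓞 E))⁰, ClassGroup.mk0 B = c ∧ Nat.Coprime (Ideal.absNorm B.1) r := by
  obtain ⟨J, hJ⟩ := ClassGroup.mk0_surjective c⁻¹
  have hJ0 : (J : Ideal (𝓞 E)) ≠ 0 := mem_nonZeroDivisors_iff_ne_zero.mp J.2
  have hr0 : Ideal.span {(r : 𝓞 E)} ≠ 0 := by
    rw [Ne, Ideal.zero_eq_bot, Ideal.span_singleton_eq_bot]
    exact_mod_cast hr.ne_zero
  obtain ⟨a, ha⟩ := IsDedekindDomain.exists_sup_span_eq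
    (I := (J : Ideal (𝓞 E)) * Ideal.span {(r : 𝓞 E)}) (J := (J : Ideal (𝓞 E)))
    Ideal.mul_le_left (mul_ne_zero hJ0 hr0)
  have haJ : a ∈ (J : Ideal (𝓞 E)) := by
    rw [← ha]
    exact Ideal.mem_sup_right (Ideal.mem_span_singleton_self a)
  obtain ⟨K, hK⟩ : (J : Ideal (𝓞 E)) ∣ Ideal.span {a} :=
    Ideal.dvd_iff_le.mpr ((Ideal.span_singleton_le_iff_mem _).mpr haJ)
  have hcop : Ideal.span {(r : 𝓞 E)} ⊔ K = ⊤ := by
    have h1 : (J : Ideal (𝓞 E)) * (Ideal.span {(r : 𝓞 E)} ⊔ K) = (J : Ideal (𝓞 E)) * ⊤ := by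
      rw [Ideal.mul_sup, ← hK, ha, Ideal.mul_top]
    exact mul_left_cancel₀ hJ0 h1
  have hK0 : K ≠ 0 := by
    rintro rfl
    rw [Ideal.zero_eq_bot, sup_bot_eq] at hcop
    have h1 := Ideal.absNorm_span_natCast (S := 𝓞 E) r
    rw [hcop, Ideal.absNorm_top] at h1
    have hpos : 0 < Module.finrank ℤ (𝓞 E) := by
      rw [RingOfIntegers.rank]
      exact Module.finrank_pos
    have h2 := hr.two_le
    have h3 : r ^ 1 ≤ r ^ Module.finrank ℤ (𝓞 E) := Nat.pow_le_pow_right (by omega) hpos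
    rw [← h1, pow_one] at h3
    omega
  refine ⟨⟨K, mem_nonZeroDivisors_iff_ne_zero.mpr hK0⟩, ?_, ?_⟩
  · have h1 : ClassGroup.mk0 J * ClassGroup.mk0 ⟨K, mem_nonZeroDivisors_iff_ne_zero.mpr hK0⟩ = 1 := by
      rw [← map_mul]
      have hmem : (J : Ideal (𝓞 E)) * K ∈ (Ideal (𝓞 E))⁰ :=
        mem_nonZeroDivisors_iff_ne_zero.mpr (mul_ne_zero hJ0 hK0)
      have : J * ⟨K, mem_nonZeroDivisors_iff_ne_zero.mpr hK0⟩ =
          (⟨(J : Ideal (𝓞 E)) * K, hmem⟩ : (Ideal (𝓞 E))⁰) := rfl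
      rw [this, ClassGroup.mk0_eq_one_iff hmem, ← hK]
      exact ⟨⟨a, rfl⟩⟩
    rw [hJ] at h1
    exact (inv_mul_eq_one.mp h1).symm ▸ rfl
  · apply h9cr_coprime_absNorm hr
    rw [sup_comm]
    exact hcop

section Character

variable {p r : ℕ} {ind : ℕ → ZMod p}

/-- `ind 1 = 0`. -/
theorem h9cr_ind_one (hr : r.Prime)
    (hmul : ∀ m n : ℕ, ¬ r ∣ m → ¬ r ∣ n → ind (m * n) = ind m + ind n) : ind 1 = 0 := by
  have h1 : ¬ r ∣ 1 := by
    intro h
    have := Nat.le_of_dvd one_pos h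
    have := hr.two_le
    omega
  have := hmul 1 1 h1 h1
  rw [mul_one] at this
  have h2 : ind 1 + 0 = ind 1 + ind 1 := by rw [add_zero]; exact this
  exact (add_left_cancel h2).symm

/-- `ind (m ^ k) = k * ind m`. -/
theorem h9cr_ind_pow (hr : r.Prime)
    (hmul : ∀ m n : ℕ, ¬ r ∣ m → ¬ r ∣ n → ind (m * n) = ind m + ind n)
    {m : ℕ} (hm : ¬ r ∣ m) (k : ℕ) : ind (m ^ k) = k * ind m := by
  induction k with
  | zero => simpa using h9cr_ind_one hr hmul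
  | succ k ih =>
    have hk : ¬ r ∣ m ^ k := fun h => hm (hr.dvd_of_dvd_pow h)
    rw [pow_succ, hmul _ _ hk hm, ih]
    push_cast
    ring

theorem h9cr_not_dvd_of_coprime (hr : r.Prime) {n : ℕ} (h : Nat.Coprime n r) : ¬ r ∣ n := by
  rw [Nat.coprime_comm] at h
  exact (Nat.Prime.coprime_iff_not_dvd hr).mp h

/-- If `A * C` is principal and `A`, `C` are prime to `r` then `ind N(A) + ind N(C) = 0`. -/
theorem h9cr_ind_add_eq_zero (hr : r.Prime)
    (hmul : ∀ m n : ℕ, ¬ r ∣ m → ¬ r ∣ n → ind (m * n) = ind m + ind n)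
    (hprin : ∀ x : 𝓞 E, Nat.Coprime (Ideal.absNorm (Ideal.span {x})) r →
      ind (Ideal.absNorm (Ideal.span {x})) = 0)
    {A C : (Ideal (𝓞 E))⁰} (hA : Nat.Coprime (Ideal.absNorm A.1) r)
    (hC : Nat.Coprime (Ideal.absNorm C.1) r)
    (h : ClassGroup.mk0 A * ClassGroup.mk0 C = 1) :
    ind (Ideal.absNorm A.1) + ind (Ideal.absNorm C.1) = 0 := by
  rw [← map_mul] at h
  have hmem : (A : Ideal (𝓞 E)) * (C : Ideal (𝓞 E)) ∈ (Ideal (𝓞 E))⁰ := (A * C).2
  have hAC : A * C = (⟨(A : Ideal (𝓞 E)) * (C : Ideal (𝓞 E)), hmem⟩ : (Ideal (𝓞 E))⁰) := rfl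
  rw [hAC, ClassGroup.mk0_eq_one_iff hmem] at h
  obtain ⟨⟨s, hs⟩⟩ := h
  have hs' : (A : Ideal (𝓞 E)) * (C : Ideal (𝓞 E)) = Ideal.span {s} := hs
  have hN : Ideal.absNorm (Ideal.span {s}) = Ideal.absNorm A.1 * Ideal.absNorm C.1 := by
    rw [← hs', map_mul]
  have hcop : Nat.Coprime (Ideal.absNorm (Ideal.span {s})) r := by
    rw [hN]
    exact Nat.Coprime.mul_left hA hC
  have h0 := hprin s hcop
  rw [hN, hmul _ _ (h9cr_not_dvd_of_coprime hr hA) (h9cr_not_dvd_of_coprime hr hC)] at h0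
  exact h0

/-- **Well-definedness** of `ind ∘ absNorm` on ideal classes (ideals prime to `r`). -/
theorem h9cr_ind_congr (hr : r.Prime)
    (hmul : ∀ m n : ℕ, ¬ r ∣ m → ¬ r ∣ n → ind (m * n) = ind m + ind n)
    (hprin : ∀ x : 𝓞 E, Nat.Coprime (Ideal.absNorm (Ideal.span {x})) r →
      ind (Ideal.absNorm (Ideal.span {x})) = 0)
    {A B : (Ideal (𝓞 E))⁰} (hA : Nat.Coprime (Ideal.absNorm A.1) r)
    (hB : Nat.Coprime (Ideal.absNorm B.1) r)
    (h : ClassGroup.mk0 A = ClassGroup.mk0 B) :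
    ind (Ideal.absNorm A.1) = ind (Ideal.absNorm B.1) := by
  obtain ⟨C, hC, hCcop⟩ := h9cr_exists_coprime_rep hr (ClassGroup.mk0 A)⁻¹
  have h1 := h9cr_ind_add_eq_zero hr hmul hprin hA hCcop (by rw [hC, mul_inv_cancel])
  have h2 := h9cr_ind_add_eq_zero hr hmul hprin hB hCcop (by rw [hC, ← h, mul_inv_cancel])
  have h3 : ind (Ideal.absNorm A.1) + ind (Ideal.absNorm C.1) =
      ind (Ideal.absNorm B.1) + ind (Ideal.absNorm C.1) := by rw [h1, h2]
  exact add_right_cancel h3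

/-- The subgroup of classes having a representative prime to `r` with `ind ∘ absNorm = 0`. -/
def h9cr_kerSub (hr : r.Prime)
    (hmul : ∀ m n : ℕ, ¬ r ∣ m → ¬ r ∣ n → ind (m * n) = ind m + ind n)
    (hprin : ∀ x : 𝓞 E, Nat.Coprime (Ideal.absNorm (Ideal.span {x})) r →
      ind (Ideal.absNorm (Ideal.span {x})) = 0) : Subgroup (ClassGroup (𝓞 E)) where
  carrier := {c | ∃ A : (Ideal (𝓞 E))⁰, ClassGroup.mk0 A = c ∧
    Nat.Coprime (Ideal.absNorm A.1) r ∧ ind (Ideal.absNorm A.1) = 0}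
  one_mem' := by
    refine ⟨1, map_one _, ?_, ?_⟩
    · change Nat.Coprime (Ideal.absNorm (1 : Ideal (𝓞 E))) r
      rw [Ideal.one_eq_top, Ideal.absNorm_top]
      exact Nat.coprime_one_left r
    · change ind (Ideal.absNorm (1 : Ideal (𝓞 E))) = 0
      rw [Ideal.one_eq_top, Ideal.absNorm_top]
      exact h9cr_ind_one hr hmul
  mul_mem' := by
    rintro _ _ ⟨A, rfl, hA, hA0⟩ ⟨B, rfl, hB, hB0⟩
    refine ⟨A * B, map_mul _ _ _, ?_, ?_⟩
    · change Nat.Coprime (Ideal.absNorm ((A : Ideal (𝓞 E)) * (B : Ideal (𝓞 E)))) r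
      rw [map_mul]
      exact Nat.Coprime.mul_left hA hB
    · change ind (Ideal.absNorm ((A : Ideal (𝓞 E)) * (B : Ideal (𝓞 E)))) = 0
      rw [map_mul, hmul _ _ (h9cr_not_dvd_of_coprime hr hA) (h9cr_not_dvd_of_coprime hr hB),
        hA0, hB0, add_zero]
  inv_mem' := by
    rintro _ ⟨A, rfl, hA, hA0⟩
    obtain ⟨C, hC, hCcop⟩ := h9cr_exists_coprime_rep hr (ClassGroup.mk0 A)⁻¹
    refine ⟨C, hC, hCcop, ?_⟩
    have h1 := h9cr_ind_add_eq_zero hr hmul hprin hA hCcop (by rw [hC, mul_inv_cancel])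
    rw [hA0, zero_add] at h1
    exact h1

theorem h9cr_mem_kerSub_iff (hr : r.Prime)
    (hmul : ∀ m n : ℕ, ¬ r ∣ m → ¬ r ∣ n → ind (m * n) = ind m + ind n)
    (hprin : ∀ x : 𝓞 E, Nat.Coprime (Ideal.absNorm (Ideal.span {x})) r →
      ind (Ideal.absNorm (Ideal.span {x})) = 0) (c : ClassGroup (𝓞 E)) :
    c ∈ h9cr_kerSub hr hmul hprin ↔ ∃ A : (Ideal (𝓞 E))⁰, ClassGroup.mk0 A = c ∧
      Nat.Coprime (Ideal.absNorm A.1) r ∧ ind (Ideal.absNorm A.1) = 0 := Iff.rfl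

end Character

/-- **Package G**: the class character and the second inequality. -/
theorem h9cr_classChar (p : ℕ) : H3CR.ClassChar p := by
  intro hSI E M _ _ _ _ _ _ r D ind hp hr hD hdeg hmul hcongr hprin hsplit hex 𝔄 h𝔄 h𝔄0
  have : Fact p.Prime := ⟨hp⟩
  set H : Subgroup (ClassGroup (𝓞 E)) := Subgroup.closure
    {c | ∃ 𝔔 : (Ideal (𝓞 E))⁰, 𝔔.1.IsPrime ∧ ¬ (Ideal.absNorm 𝔔.1 ∣ D) ∧
      SplitsCompletely E M 𝔔.1 ∧ c = ClassGroup.mk0 𝔔} with hH
  set K := h9cr_kerSub (E := E) hr hmul hprin with hK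
  -- `H ≤ K`
  have hHK : H ≤ K := by
    rw [hH, Subgroup.closure_le]
    rintro c ⟨𝔔, hprime, hnD, hspl, rfl⟩
    obtain ⟨h1, h2⟩ := hsplit 𝔔.1 hprime (mem_nonZeroDivisors_iff_ne_zero.mp 𝔔.2) hnD hspl
    exact ⟨𝔔, rfl, h1, h2⟩
  -- second inequality for `H`
  have hidx : H.index ≤ p := by
    refine le_trans (hSI E M D H hD ?_) hdeg
    intro P hP hnD hspl
    exact Subgroup.subset_closure ⟨P, hP, hnD, hspl, rfl⟩
  -- the class of `𝔄₀` has order `≥ p` modulo `K`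
  obtain ⟨𝔄₀, h𝔄₀ne, h𝔄₀cop, h𝔄₀ind⟩ := hex
  set c₀ : ClassGroup (𝓞 E) := ClassGroup.mk0 ⟨𝔄₀, mem_nonZeroDivisors_iff_ne_zero.mpr h𝔄₀ne⟩
    with hc₀
  have hpow : ∀ i : ℕ, 0 < i → i < p → c₀ ^ i ∉ K := by
    intro i hi0 hip hmem
    obtain ⟨B, hB, hBcop, hB0⟩ := hmem
    have hmem' : 𝔄₀ ^ i ∈ (Ideal (𝓞 E))⁰ :=
      pow_mem (mem_nonZeroDivisors_iff_ne_zero.mpr h𝔄₀ne) i
    have hci : c₀ ^ i = ClassGroup.mk0 ⟨𝔄₀ ^ i, hmem'⟩ := by
      rw [hc₀, ← map_pow]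
      rfl
    have hcop' : Nat.Coprime (Ideal.absNorm (𝔄₀ ^ i)) r := by
      rw [map_pow]
      exact Nat.Coprime.pow_left i h𝔄₀cop
    have h1 := h9cr_ind_congr hr hmul hprin (A := B) (B := ⟨𝔄₀ ^ i, hmem'⟩) hBcop hcop'
      (by rw [hB, hci])
    rw [hB0] at h1
    have h2 : ind (Ideal.absNorm (𝔄₀ ^ i)) = (i : ZMod p) * ind (Ideal.absNorm 𝔄₀) := by
      rw [map_pow]
      exact h9cr_ind_pow hr hmul (h9cr_not_dvd_of_coprime hr h𝔄₀cop) i
    have h3 : (i : ZMod p) * ind (Ideal.absNorm 𝔄₀) = 0 := by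
      rw [← h2]; exact h1.symm
    rcases mul_eq_zero.mp h3 with h4 | h4
    · rw [ZMod.natCast_eq_zero_iff] at h4
      have := Nat.le_of_dvd hi0 h4
      omega
    · exact h𝔄₀ind h4
  have hKidx : p ≤ K.index := by
    have hfin : Finite (ClassGroup (𝓞 E) ⧸ K) := inferInstance
    rw [Subgroup.index_eq_card]
    set x : ClassGroup (𝓞 E) ⧸ K := QuotientGroup.mk c₀ with hx
    have hord : p ≤ orderOf x := by
      by_contra hlt
      rw [not_le] at hlt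
      have hpos : 0 < orderOf x := orderOf_pos x
      have h1 : x ^ orderOf x = 1 := pow_orderOf_eq_one x
      rw [hx, ← QuotientGroup.mk_pow, QuotientGroup.eq_one_iff] at h1
      exact hpow _ hpos hlt h1
    exact le_trans hord (orderOf_le_card)
  -- conclude `K ≤ H`
  have hrel := Subgroup.relIndex_mul_index hHK
  have hHidx0 : H.index ≠ 0 := Subgroup.index_ne_zero_of_finite
  have hKidx0 : K.index ≠ 0 := Subgroup.index_ne_zero_of_finite
  have hrel1 : H.relIndex K = 1 := by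
    have hpos : 0 < H.relIndex K := by
      rcases Nat.eq_zero_or_pos (H.relIndex K) with h0 | h0
      · rw [h0, zero_mul] at hrel
        exact absurd hrel.symm hHidx0
      · exact h0
    by_contra hne
    have h2 : 2 ≤ H.relIndex K := by omega
    have h3 : 2 * K.index ≤ H.index := by
      rw [← hrel]
      exact Nat.mul_le_mul_right _ h2
    have hp2 := hp.two_le
    omega
  have hKH : K ≤ H := Subgroup.relIndex_eq_one.mp hrel1
  exact hKH ⟨𝔄, rfl, h𝔄, h𝔄0⟩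

end H9CR
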