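/-
T-CFT module CR, assembly slice J5 (helper9): Frobenius relation ⇒ symbol relation.
`h9fs_frobSym p : H3CR.FrobSym p`.
-/
import Mathlib
import Fermat.Agent.CFT.Defs
import Fermat.Agent.CFT.CR.Sym
import Fermat.Agent.CFT.CR.Interface
import Fermat.Agent.CFT.CR.AsmInterface
import Fermat.Agent.CFT.CR.Split

set_option autoImplicit false

namespace H9CR

open NumberField H14CFT H3CR
open scoped Pointwise

/-- If `σ β = z ^ j β` with `z` fixed by `σ` then `σ ^ a β = z ^ (a j) β`. -/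
theorem h9fs_pow_smul {K L : Type} [Field K] [Field L] [Algebra K L] {z β : 𝓞 L} (σ : L ≃ₐ[K] L) (j : ℕ) (hz : σ • z = z)
    (hσ : σ • β = z ^ j * β) (a : ℕ) : (σ ^ a) • β = z ^ (a * j) * β := by
  induction a with
  | zero => simp
  | succ a ih =>
    rw [pow_succ', mul_smul, ih, smul_mul', smul_pow', hz, hσ, ← mul_assoc, ← pow_add]
    congr 2
    ring

/-- **Slice J5.** -/
theorem h9fs_frobSym (p : ℕ) : H3CR.FrobSym p := by
  intro K L _ _ _ _ _ _ ζ α β P₁ P₂ Q₁ Q₂ σ₁ σ₂ a hg₁ hg₂ hα₁ hα₂ hβ hgen hQ₁ hQ₂ hu₁ hu₂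
    hf₁ hf₂ hrel hσ₁ hσ₂
  have hp := hg₁.hp
  have : NeZero p := ⟨hp.ne_zero⟩
  set φ := algebraMap (𝓞 K) (𝓞 L) with hφ
  have hφinj : Function.Injective φ := FaithfulSMul.algebraMap_injective (𝓞 K) (𝓞 L)
  have h1 := h3cr_frobLink p K L ζ α β P₁ Q₁ σ₁ hg₁ hα₁ hβ hQ₁ hu₁ hf₁
  have h2 := h3cr_frobLink p K L ζ α β P₂ Q₂ σ₂ hg₂ hα₂ hβ hQ₂ hu₂ hf₂
  have hβ0 : β ≠ 0 := by
    rintro rfl
    rw [zero_pow hp.ne_zero] at hβ
    have : α = 0 := hφinj (by rw [← hβ, map_zero])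
    exact hα₁ (this ▸ P₁.zero_mem)
  -- nonvanishing
  have hne : ∀ (P : Ideal (𝓞 K)) (σ : L ≃ₐ[K] L),
      σ • β = φ ζ ^ (sym p ζ α P).val * β → σ ≠ 1 → sym p ζ α P ≠ 0 := by
    intro P σ h hσ h0
    apply hσ
    rw [h0, ZMod.val_zero, pow_zero, one_mul] at h
    apply eq_one_of_apply_eq hgen
    exact congrArg (fun x : 𝓞 L => (x : L)) h
  refine ⟨?_, hne P₁ σ₁ h1 hσ₁, hne P₂ σ₂ h2 hσ₂⟩
  -- the relation
  have hz : σ₂ • φ ζ = φ ζ := smul_algebraMap σ₂ ζ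
  have h3 := h9fs_pow_smul σ₂ _ hz h2 a
  rw [← hrel, h1] at h3
  have h4 : φ ζ ^ (sym p ζ α P₁).val = φ ζ ^ (a * (sym p ζ α P₂).val) :=
    mul_right_cancel₀ hβ0 h3
  rw [← map_pow, ← map_pow] at h4
  have h5 := hφinj h4
  have h6 : ζ ^ (sym p ζ α P₁).val - ζ ^ (a * (sym p ζ α P₂).val) ∈ P₁ := by
    rw [h5, sub_self]; exact P₁.zero_mem
  have h7 := hg₁.pow_congr h6
  rw [ZMod.natCast_val, ZMod.cast_id', id] at h7
  rw [h7]
  push_cast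
  rw [ZMod.natCast_val, ZMod.cast_id', id]

end H9CR
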