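/-
T-CFT module CR (helper3, coordinator): the cyclotomic crossing.

`H3CR.h3cr_twoPrimeRelation p : H14CFT.TwoPrimeRelation p`, and the interface form
`SecondInequality → NonSplitPrimeExists → TwoPrimeRelation p`.

Packages: B (helper3), C KummerGen (helper6), D KummerCheb (helper22), E JacobiElement (helper5),
F RamNorm (helper18), G ClassChar (helper9), H ClassNorm (helper18), J1 FrobOneSplit (helper14),
J3 AuxPrime (helper9), J4 ValIndep (helper6), J5 FrobSym (helper22/helper9), J8 NormSplit
(helper22), assembly (helper3).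
-/
import Mathlib
import Fermat.Agent.CFT.CR.AsmFinal
import Fermat.Agent.CFT.CR.H6KummerGen
import Fermat.Agent.CFT.CR.H22Cheb
import Fermat.Agent.CFT.CR.H5Jacobi
import Fermat.Agent.CFT.CR.H18RamNorm
import Fermat.Agent.CFT.CR.H9ClassChar
import Fermat.Agent.CFT.CR.H18ClassNorm
import Fermat.Agent.CFT.CR.H14FrobOne
import Fermat.Agent.CFT.CR.H9AuxPrime
import Fermat.Agent.CFT.CR.H22Norm
import Fermat.Agent.CFT.CR.H22NormFrobSym
import Fermat.Agent.CFT.CR.H3ValIndep
import Fermat.Agent.CFT.AN.H17SI
import Fermat.Agent.CFT.AN.H17Main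

set_option autoImplicit false

namespace H3CR

open H14CFT

/-- module CR, conditional only on the independence slice J4. -/
theorem h3cr_twoPrimeRelation_of_valIndep (p : ℕ) (hVI : ValIndep p)
    (hSI : SecondInequality) (hNSP : NonSplitPrimeExists) : TwoPrimeRelation p :=
  h3cr_twoPrimeRelation_of p hSI hNSP (h6kg_kummerGen p) (H22CR.h22_kummerCheb p)
    (fun r hp hp2 hr hpr => H5J.h5j_jacobiElement p r hp hp2 hr hpr)
    (H18CR.h18cr_ramNorm p) (H9CR.h9cr_classChar p) H18CR.h18cr_classNorm_holds
    H14CFT.h14_frobOneSplit (H9CR.h9ap_auxPrime p) hVI (H22CR.h22c_frobSym p)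
    (H22CR.h22c_normSplit p)

/-- **module CR** in interface form. -/
theorem h3cr_twoPrimeRelation_of_SI_NS (p : ℕ)
    (hSI : SecondInequality) (hNSP : NonSplitPrimeExists) : TwoPrimeRelation p :=
  h3cr_twoPrimeRelation_of_valIndep p (h3vi_valIndep p) hSI hNSP

/-- **module CR**, unconditional: the two-prime relation. -/
theorem h3cr_twoPrimeRelation (p : ℕ) : TwoPrimeRelation p :=
  h3cr_twoPrimeRelation_of_SI_NS p H17AN.h17an_secondInequality H17AN.h17an_nonSplitPrimeExists

end H3CR
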